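/-
T1-D (D-a): the embedding `KMod.toMer : ModField 𝕜 N →+* tdmMer` of the field of modular functions of
level `N` into the field of meromorphic functions on `ℍ`, compatible with the `SL(2,ℤ)`-actions and
with the orders of vanishing.
-/
import Mathlib
import Fermat.Agent.Lib.T1.Dict.KMod.Points
import Fermat.Agent.Lib.T1.Mono.Mer

set_option autoImplicit false
set_option linter.unusedSectionVars false
set_option linter.style.haveILetI false
set_option linter.unusedVariables false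

namespace Fermat.Agent.T1.KMod

open Fermat.Agent.S24Lib
open UpperHalfPlane Matrix MatrixGroups CongruenceSubgroup WithZero
open AlgebraicCurve Fermat.Agent.Curve
attribute [local instance] charZero_k
variable (𝕜 : Type) [Field 𝕜] [IsAlgClosed 𝕜] [Algebra 𝕜 ℂ] (N : ℕ) [NeZero N]

theorem toMerAux_injective :
    Function.Injective ((tdmOfHol).comp (modRingToHol 𝕜 N)) :=
  tdmOfHol_injective.comp (modRingToHol_injective 𝕜 N)

/-- the modular functions of level `N` as meromorphic functions on `ℍ` -/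
noncomputable def toMer : ModField 𝕜 N →+* tdmMer :=
  IsFractionRing.lift (toMerAux_injective 𝕜 N)

@[simp]
theorem toMer_algebraMap (r : modRing 𝕜 N) :
    toMer 𝕜 N (algebraMap (modRing 𝕜 N) (ModField 𝕜 N) r) = tdmOfHol (modRingToHol 𝕜 N r) :=
  IsFractionRing.lift_algebraMap _ _

theorem toMer_injective : Function.Injective (toMer 𝕜 N) := RingHom.injective _

theorem toMer_ne_zero {y : ModField 𝕜 N} (hy : y ≠ 0) : toMer 𝕜 N y ≠ 0 :=
  (map_ne_zero_iff _ (toMer_injective 𝕜 N)).mpr hy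

/-- constants go to constants -/
theorem toMer_const (c : 𝕜) :
    toMer 𝕜 N (algebraMap 𝕜 (ModField 𝕜 N) c) = algebraMap ℂ tdmMer (algebraMap 𝕜 ℂ c) := by
  rw [IsScalarTower.algebraMap_apply 𝕜 (modRing 𝕜 N) (ModField 𝕜 N), toMer_algebraMap,
    IsScalarTower.algebraMap_apply ℂ holH tdmMer]
  rfl

theorem modRingToHol_modAct (γ : SL(2, ℤ)) (r : modRing 𝕜 N) :
    modRingToHol 𝕜 N (modAct 𝕜 N γ r) = tdmHolSL γ⁻¹ (modRingToHol 𝕜 N r) := by
  apply Subtype.ext
  funext τ
  show ((modAct 𝕜 N γ r : modRing 𝕜 N) : ℍ → ℂ) τ = _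
  rw [modAct_apply_apply 𝕜]
  rfl

/-- `modRep γ` is precomposition with `γ⁻¹` -/
theorem toMer_modRep (γ : SL(2, ℤ)) (y : ModField 𝕜 N) :
    toMer 𝕜 N (modRep 𝕜 N γ y) = tdmSL γ⁻¹ (toMer 𝕜 N y) := by
  have h : (toMer 𝕜 N).comp ((modRep 𝕜 N γ : ModField 𝕜 N ≃ₐ[𝕜] ModField 𝕜 N) :
        ModField 𝕜 N →+* ModField 𝕜 N)
      = ((tdmSL γ⁻¹ : tdmMer ≃ₐ[ℂ] tdmMer) : tdmMer →+* tdmMer).comp (toMer 𝕜 N) := by
    apply IsLocalization.ringHom_ext (nonZeroDivisors (modRing 𝕜 N))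
    ext r
    simp only [RingHom.comp_apply, RingHom.coe_coe]
    rw [modRep_algebraMap 𝕜, toMer_algebraMap, toMer_algebraMap, tdmSL_ofHol,
      modRingToHol_modAct 𝕜]
  exact RingHom.congr_fun h y

/-- the order valuation at `τ` restricted to `ModField 𝕜 N` is the extension of `pointValuation` -/
theorem tdmOrdVal_toMer (τ : ℍ) (y : ModField 𝕜 N) :
    tdmOrdVal τ (toMer 𝕜 N y)
      = fracValuation (L := ModField 𝕜 N) (pointValuation 𝕜 N τ) (pointValuation_eq_zero 𝕜 N τ) y := by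
  obtain ⟨a, b, hb, rfl⟩ := IsFractionRing.div_surjective (A := modRing 𝕜 N) y
  rw [map_div₀, map_div₀, map_div₀, toMer_algebraMap, toMer_algebraMap, tdmOrdVal_ofHol,
    tdmOrdVal_ofHol, fracValuation_algebraMap, fracValuation_algebraMap]
  rfl

/-- the order at `τ` of an element of `modRing 𝕜 N` -/
theorem tdmOrd_toMer_algebraMap (τ : ℍ) {r : modRing 𝕜 N} (hr : r ≠ 0) :
    tdmOrd τ (toMer 𝕜 N (algebraMap (modRing 𝕜 N) (ModField 𝕜 N) r))
      = ((ordAt (r : ℍ → ℂ) τ).toNat : ℤ) := by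
  rw [toMer_algebraMap, tdmOrd_ofHol]
  · rfl
  · intro h
    exact hr (modRingToHol_injective 𝕜 N (h.trans (map_zero _).symm))

end Fermat.Agent.T1.KMod
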