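/-
T1-D (WP-Z leaves, helper8): (K-conj) complex conjugation on the function field of `X₀(N)` over `ℚ̄`
is `y ↦ conj ∘ y ∘ (τ ↦ -conj τ)` in the analytic model (`tdd_toMer_conj`), and every element of
that function field is fixed by the absolute Galois group of a number field
(`tdd_exists_finite_fixing`).
-/
import Mathlib
import Fermat.Agent.Lib.T1.Dict.ToMer
import Fermat.Agent.Lib.T1.Dict.KMod.Iso
import Fermat.Agent.Lib.T1.Mono.Conj
import Fermat.Agent.Lib.T1.Kron.Upper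
import Fermat.Prelude.Def_GaloisRep_ComplexConjugation

set_option autoImplicit false
set_option linter.unusedSectionVars false
set_option linter.style.haveILetI false

namespace Fermat.Agent.T1

open UpperHalfPlane Filter Topology Matrix MatrixGroups CongruenceSubgroup ModularCurve
open scoped Manifold ComplexConjugate
open Fermat.Agent.S24Lib (holH)
open Fermat.Agent.S24Lib
open Fermat.Agent.ES (epsGL cj cj_apply cj_cj slash_epsGL_eq_cj coe_epsGL_smul IsQLaurentable
  qLaurent qH)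

local notation "Kbar" => AlgebraicClosure ℚ
local notation "𝕢" => Function.Periodic.qParam

/-- `q_h(-conj z) = conj (q_h z)` -/
theorem tdd_cf_qH_epsGL (h : ℝ) (z : ℍ) : qH h (epsGL • z) = conj (qH h z) := by
  unfold qH Function.Periodic.qParam
  rw [← Complex.exp_conj, coe_epsGL_smul]
  congr 1
  simp only [map_div₀, map_mul, Complex.conj_ofReal, Complex.conj_I, map_ofNat]
  ring

theorem tdd_cf_epsGL_vadd (t : ℝ) (z : ℍ) : epsGL • (t +ᵥ z) = (-t) +ᵥ (epsGL • z) := by
  apply UpperHalfPlane.ext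
  rw [coe_epsGL_smul, UpperHalfPlane.coe_vadd, UpperHalfPlane.coe_vadd, coe_epsGL_smul]
  simp only [map_add, Complex.conj_ofReal, Complex.ofReal_neg]
  ring

/-- the Laurent expansion at `∞` of `conj ∘ g ∘ (τ ↦ -conj τ)` -/
theorem tdd_cf_qLaurent_cj {h : ℕ} [NeZero h] {g : ℍ → ℂ} (hg : IsQLaurentable h g) :
    IsQLaurentable h (cj g) ∧
      qLaurent h (cj g) = coeffMap (starRingEnd ℂ) (qLaurent h g) := by
  obtain ⟨k, hk⟩ := hg.exists_bdd
  have hmd : MDiff (cj g) := by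
    rw [← slash_epsGL_eq_cj 0]
    exact MDifferentiable.slash hg.mdiff 0 epsGL
  have hper' : ∀ w : ℍ, g ((-(h : ℝ)) +ᵥ w) = g w := by
    intro w
    have := hg.periodic ((-(h : ℝ)) +ᵥ w)
    rw [← this, vadd_vadd, add_neg_cancel, zero_vadd]
  have hper : ∀ z : ℍ, cj g ((h : ℝ) +ᵥ z) = cj g z := by
    intro z
    rw [cj_apply, cj_apply, tdd_cf_epsGL_vadd, hper']
  have hsum : ∀ z : ℍ, HasSum
      (fun n : ℕ => conj ((qLaurent h g).coeff ((n : ℤ) - k)) • 𝕢 h z ^ n)
      (cj g z * qH h z ^ k) := by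
    intro z
    have h1 := Fermat.Agent.ES.hasSum_qLaurent hg hk (epsGL • z)
    have h2 := Complex.hasSum_conj'.mpr h1
    have e1 : conj (g (epsGL • z) * qH h (epsGL • z) ^ k) = cj g z * qH h z ^ k := by
      rw [map_mul, map_pow, tdd_cf_qH_epsGL, Complex.conj_conj, cj_apply]
    rw [e1] at h2
    have e2 : (fun n : ℕ => conj ((qLaurent h g).coeff ((n : ℤ) - k) • 𝕢 h ((epsGL • z : ℍ) : ℂ) ^ n))
        = fun n : ℕ => conj ((qLaurent h g).coeff ((n : ℤ) - k)) • 𝕢 h z ^ n := by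
      funext n
      have := tdd_cf_qH_epsGL h z
      unfold qH at this
      rw [smul_eq_mul, smul_eq_mul, map_mul, map_pow, this, Complex.conj_conj]
    rw [e2] at h2
    exact h2
  refine ⟨Fermat.Agent.ES.isQLaurentable_of_hasSum hmd hper k _ hsum, ?_⟩
  ext m
  rw [Fermat.Agent.ES.qLaurent_coeff_of_hasSum hmd hper k _ hsum m, coeffMap_coeff]
  split_ifs with hm
  · congr 2
    rw [Int.toNat_of_nonneg hm]
    ring
  · rw [Fermat.Agent.ES.qLaurent_coeff_eq_zero_of_lt hg hk (not_le.mp hm), map_zero]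

section
variable (𝕜 : Type) [Field 𝕜] [IsAlgClosed 𝕜] [Algebra 𝕜 ℂ] [Algebra ℚ 𝕜] (N : ℕ) [NeZero N]

/-- two modular functions whose `q`-expansions are complex conjugate are conjugate as meromorphic
functions -/
theorem tdd_cf_toMer_of_modFieldQL (Y Y' : KMod.ModField 𝕜 N)
    (h : KMod.modFieldQL 𝕜 N Y' = coeffMap (starRingEnd ℂ) (KMod.modFieldQL 𝕜 N Y)) :
    KMod.toMer 𝕜 N Y' = tdmConj (KMod.toMer 𝕜 N Y) := by
  obtain ⟨a, b, hb, rfl⟩ := IsFractionRing.div_surjective (A := KMod.modRing 𝕜 N) Y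
  obtain ⟨a', b', hb', rfl⟩ := IsFractionRing.div_surjective (A := KMod.modRing 𝕜 N) Y'
  have hb0 : b ≠ 0 := nonZeroDivisors.ne_zero hb
  have hb0' : b' ≠ 0 := nonZeroDivisors.ne_zero hb'
  have hqa := (KMod.modRing_props 𝕜 N a.2).1
  have hqb := (KMod.modRing_props 𝕜 N b.2).1
  have hqa' := (KMod.modRing_props 𝕜 N a'.2).1
  have hqb' := (KMod.modRing_props 𝕜 N b'.2).1
  rw [map_div₀, map_div₀, map_div₀, KMod.modFieldQL_algebraMap 𝕜, KMod.modFieldQL_algebraMap 𝕜,
    KMod.modFieldQL_algebraMap 𝕜, KMod.modFieldQL_algebraMap 𝕜] at h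
  have hnb' : KMod.modRingQL 𝕜 N b' ≠ 0 := (KMod.modRingQL_eq_zero_iff 𝕜 N).not.mpr hb0'
  have hnb : coeffMap (starRingEnd ℂ) (KMod.modRingQL 𝕜 N b) ≠ 0 := by
    rw [Ne, map_eq_zero_iff _ (coeffMap (starRingEnd ℂ)).injective]
    exact (KMod.modRingQL_eq_zero_iff 𝕜 N).not.mpr hb0
  rw [div_eq_div_iff hnb' hnb] at h
  rw [KMod.modRingQL_apply 𝕜, KMod.modRingQL_apply 𝕜, KMod.modRingQL_apply 𝕜, KMod.modRingQL_apply 𝕜,
    ← (tdd_cf_qLaurent_cj hqa).2, ← (tdd_cf_qLaurent_cj hqb).2,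
    ← Fermat.Agent.ES.qLaurent_mul hqa' (tdd_cf_qLaurent_cj hqb).1,
    ← Fermat.Agent.ES.qLaurent_mul (tdd_cf_qLaurent_cj hqa).1 hqb'] at h
  have hfun : (fun z => (a' : ℍ → ℂ) z * cj (b : ℍ → ℂ) z)
      = fun z => cj (a : ℍ → ℂ) z * (b' : ℍ → ℂ) z := by
    have h1 := hqa'.mul (tdd_cf_qLaurent_cj hqb).1
    have h2 := (tdd_cf_qLaurent_cj hqa).1.mul hqb'
    have h3 := (Fermat.Agent.ES.qLaurent_eq_zero_iff (h1.sub h2)).mp (by
      rw [Fermat.Agent.ES.qLaurent_sub h1 h2, h, sub_self])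
    funext z
    have := congrFun h3 z
    exact sub_eq_zero.mp this
  rw [map_div₀, map_div₀, map_div₀, KMod.toMer_algebraMap, KMod.toMer_algebraMap,
    KMod.toMer_algebraMap, KMod.toMer_algebraMap, tdmConj_ofHol, tdmConj_ofHol]
  have hn1 : tdmOfHol (KMod.modRingToHol 𝕜 N b') ≠ 0 := by
    rw [Ne, map_eq_zero_iff _ tdmOfHol_injective, map_eq_zero_iff _ (KMod.modRingToHol_injective 𝕜 N)]
    exact hb0'
  have hn2 : tdmOfHol (tdmHolConj (KMod.modRingToHol 𝕜 N b)) ≠ 0 := by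
    have hinj : Function.Injective tdmHolConj :=
      Function.LeftInverse.injective (g := tdmHolConj) tdmHolConj_conj
    rw [Ne, map_eq_zero_iff _ tdmOfHol_injective, map_eq_zero_iff _ hinj,
      map_eq_zero_iff _ (KMod.modRingToHol_injective 𝕜 N)]
    exact hb0
  rw [div_eq_div_iff hn1 hn2, ← map_mul, ← map_mul]
  congr 1
  apply Subtype.ext
  funext z
  exact congrFun hfun z

end

/-- the embedding `ℚ̄ → ℂ` intertwines `complexConjugation` with complex conjugation -/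
theorem tdd_cf_iota_conj :
    (algebraMap Kbar ℂ).comp ((complexConjugation : Kbar ≃ₐ[ℚ] Kbar) : Kbar →+* Kbar)
      = (starRingEnd ℂ).comp (algebraMap Kbar ℂ) := by
  ext x
  exact complexEmbedding_complexConjugation x

/-- **(K-conj)** complex conjugation on the function field of `X₀(N)` over `ℚ̄` is
`y ↦ conj ∘ y ∘ (τ ↦ -conj τ)` in the analytic model -/
theorem tdd_toMer_conj (N : ℕ) [NeZero N] (y : ↥(modularFunctionFieldBar N)) :
    KMod.toMer Kbar N ((KMod.modIso Kbar N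
        (arithmeticRingAut (modularFunctionFieldFull N) complexConjugation y) :
          KMod.anField Kbar N) : KMod.ModField Kbar N)
      = tdmConj (KMod.toMer Kbar N ((KMod.modIso Kbar N y : KMod.anField Kbar N) :
          KMod.ModField Kbar N)) := by
  apply tdd_cf_toMer_of_modFieldQL
  rw [KMod.modFieldQL_modIso Kbar, KMod.modFieldQL_modIso Kbar, coe_arithmeticRingAut_apply,
    coeffMap_coeffMap, coeffMap_qExpand, coeffMap_coeffMap, tdd_cf_iota_conj]

/-- **(open stabilisers)** every element of the function field of `X₀(N)` over `ℚ̄` is fixed by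
the Galois group of a number field -/
theorem tdd_exists_finite_fixing (N : ℕ) [NeZero N] (y : ↥(modularFunctionFieldBar N)) :
    ∃ L : IntermediateField ℚ Kbar, FiniteDimensional ℚ L ∧
      ∀ σ : Kbar ≃ₐ[ℚ] Kbar, (∀ x ∈ L, σ x = x) →
        arithmeticRingAut (modularFunctionFieldFull N) σ y = y := by
  classical
  let P : Subfield (LaurentSeries Kbar) :=
    { carrier := {x | ∃ L : IntermediateField ℚ Kbar, FiniteDimensional ℚ L ∧
        ∀ σ : Kbar ≃ₐ[ℚ] Kbar, (∀ a ∈ L, σ a = a) → coeffMap (σ : Kbar →+* Kbar) x = x}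
      mul_mem' := by
        rintro x x' ⟨L, hL, h⟩ ⟨L', hL', h'⟩
        haveI := hL; haveI := hL'
        refine ⟨L ⊔ L', inferInstance, fun σ hσ => ?_⟩
        rw [map_mul, h σ (fun a ha => hσ a ((le_sup_left : L ≤ L ⊔ L') ha)),
          h' σ (fun a ha => hσ a ((le_sup_right : L' ≤ L ⊔ L') ha))]
      one_mem' := ⟨⊥, inferInstance, fun σ _ => map_one _⟩
      add_mem' := by
        rintro x x' ⟨L, hL, h⟩ ⟨L', hL', h'⟩
        haveI := hL; haveI := hL'
        refine ⟨L ⊔ L', inferInstance, fun σ hσ => ?_⟩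
        rw [map_add, h σ (fun a ha => hσ a ((le_sup_left : L ≤ L ⊔ L') ha)),
          h' σ (fun a ha => hσ a ((le_sup_right : L' ≤ L ⊔ L') ha))]
      zero_mem' := ⟨⊥, inferInstance, fun σ _ => map_zero _⟩
      neg_mem' := by
        rintro x ⟨L, hL, h⟩
        exact ⟨L, hL, fun σ hσ => by rw [map_neg, h σ hσ]⟩
      inv_mem' := by
        rintro x ⟨L, hL, h⟩
        exact ⟨L, hL, fun σ hσ => by rw [map_inv₀, h σ hσ]⟩ }
  have hmem : (y : LaurentSeries Kbar) ∈ P := by
    refine tkr_bar_le N P (fun c => ?_) (fun d _ _ => ?_) y.2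
    · haveI : Algebra.IsAlgebraic ℚ Kbar := AlgebraicClosure.isAlgebraic ℚ
      have hc : IsIntegral ℚ c := (Algebra.IsAlgebraic.isAlgebraic c).isIntegral
      refine ⟨IntermediateField.adjoin ℚ {c}, IntermediateField.adjoin.finiteDimensional hc,
        fun σ hσ => ?_⟩
      rw [coeffMap_algebraMap]
      congr 1
      exact hσ c (IntermediateField.mem_adjoin_simple_self ℚ c)
    · exact ⟨⊥, inferInstance, fun σ _ => coeffMap_coeffEmb σ _⟩
  obtain ⟨L, hL, h⟩ := hmem
  exact ⟨L, hL, fun σ hσ => Subtype.ext (h σ hσ)⟩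

end Fermat.Agent.T1
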