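/-
T1-D (D-a): the normalised order at the cusp places of `ModField 𝕜 N` is the order of the
`q_N`-expansion:  `(modRep γ • inftyPlace).ord x = (modFieldQL (modRep γ⁻¹ x)).order`.
-/
import Mathlib
import Fermat.Agent.Lib.T1.Dict.KMod.Gen

set_option autoImplicit false
set_option linter.unusedSectionVars false
set_option linter.style.haveILetI false
set_option linter.unusedVariables false

namespace Fermat.Agent.T1.KMod

open Fermat.Agent.S24Lib
open UpperHalfPlane Matrix MatrixGroups CongruenceSubgroup WithZero ModularGroup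
open AlgebraicCurve Fermat.Agent.Curve
attribute [local instance] charZero_k
variable (𝕜 : Type) [Field 𝕜] [IsAlgClosed 𝕜] [Algebra 𝕜 ℂ] (N : ℕ) [NeZero N]

/-- a subgroup stabilising a place has at most `ord` elements in its image -/
theorem card_map_le_ord (y : ModField 𝕜 N) (hy : Transcendental 𝕜 y)
    (hfix : IntermediateField.fixedField (modRep 𝕜 N).range = IntermediateField.adjoin 𝕜 {y})
    (v₀ : Place 𝕜 (ModField 𝕜 N)) (hv₀ : 0 < v₀.ord y) (Δ : Subgroup SL(2, ℤ))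
    (hΔ : ∀ δ ∈ Δ, modRep 𝕜 N δ • v₀ = v₀) :
    (Nat.card (Δ.map (modRep 𝕜 N)) : ℤ) ≤ v₀.ord y := by
  haveI := finite_range_modRep 𝕜 N
  haveI := finite_map_modRep 𝕜 N Δ
  have hstab := card_stabilizer_eq_ord (modRep 𝕜 N).range y hy hfix v₀ hv₀
  let ι : (Δ.map (modRep 𝕜 N)) →
      {g : (modRep 𝕜 N).range // (g : ModField 𝕜 N ≃ₐ[𝕜] ModField 𝕜 N) • v₀ = v₀} := fun x =>
    ⟨⟨x.1, Subgroup.map_le_range (modRep 𝕜 N) Δ x.2⟩, by
      obtain ⟨δ, hδ, hx⟩ := x.2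
      show (x.1 : ModField 𝕜 N ≃ₐ[𝕜] ModField 𝕜 N) • v₀ = v₀
      rw [← hx]
      exact hΔ δ hδ⟩
  have hinj : Function.Injective ι := by
    intro a b hab
    apply Subtype.ext
    have := congrArg (fun z : {g : (modRep 𝕜 N).range //
      (g : ModField 𝕜 N ≃ₐ[𝕜] ModField 𝕜 N) • v₀ = v₀} =>
      ((z.1 : (modRep 𝕜 N).range) : ModField 𝕜 N ≃ₐ[𝕜] ModField 𝕜 N)) hab
    exact this
  haveI : Finite {g : (modRep 𝕜 N).range //
      (g : ModField 𝕜 N ≃ₐ[𝕜] ModField 𝕜 N) • v₀ = v₀} := Subtype.finite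
  rw [← hstab]
  exact_mod_cast Nat.card_le_card_of_injective ι hinj

/-- `j⁻¹` vanishes to order exactly `N` at the cusp `∞` of `X(N)` -/
theorem inftyPlace_ord_jL_inv : (inftyPlace 𝕜 N).ord (jL 𝕜 N)⁻¹ = N := by
  apply le_antisymm (inftyPlace_ord_le 𝕜 N)
  have h := card_map_le_ord 𝕜 N (jL 𝕜 N)⁻¹ (transcendental_jL_inv 𝕜 N) (fixedField_modRep_inv 𝕜 N)
    (inftyPlace 𝕜 N) (inftyPlace_ord_pos 𝕜 N) (Subgroup.zpowers T) ?_
  · rwa [card_map_zpowers 𝕜, orderOf_modRep_T 𝕜] at h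
  · intro δ hδ
    have : Subgroup.zpowers T ≤ (MulAction.stabilizer (ModField 𝕜 N ≃ₐ[𝕜] ModField 𝕜 N)
        (inftyPlace 𝕜 N)).comap (modRep 𝕜 N) := by
      rw [Subgroup.zpowers_le]
      exact modRep_T_smul_inftyPlace 𝕜 N
    exact this hδ

/-- the extended cusp valuation in terms of the `q_N`-expansion -/
theorem fracValuation_infty_eq (x : ModField 𝕜 N) (hx : x ≠ 0) :
    fracValuation (L := ModField 𝕜 N) (inftyValuation 𝕜 N)
      (fun _ h => (inftyValuation_eq_zero_iff 𝕜 N).mp h) x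
      = exp (-(modFieldQL 𝕜 N x).order) := by
  obtain ⟨a, b, hb, rfl⟩ := IsFractionRing.div_surjective (A := modRing 𝕜 N) x
  have hb0 : b ≠ 0 := nonZeroDivisors.ne_zero hb
  have ha0 : a ≠ 0 := by
    rintro rfl
    apply hx
    rw [map_zero, zero_div]
  have hqa : modRingQL 𝕜 N a ≠ 0 := (modRingQL_eq_zero_iff 𝕜 N).not.mpr ha0
  have hqb : modRingQL 𝕜 N b ≠ 0 := (modRingQL_eq_zero_iff 𝕜 N).not.mpr hb0
  rw [map_div₀, fracValuation_algebraMap, fracValuation_algebraMap, inftyValuation_apply 𝕜 N ha0,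
    inftyValuation_apply 𝕜 N hb0, map_div₀, modFieldQL_algebraMap 𝕜, modFieldQL_algebraMap 𝕜,
    ← WithZero.exp_sub]
  congr 1
  have hq : modRingQL 𝕜 N a / modRingQL 𝕜 N b ≠ 0 := div_ne_zero hqa hqb
  have h1 : (modRingQL 𝕜 N a).order
      = (modRingQL 𝕜 N a / modRingQL 𝕜 N b).order + (modRingQL 𝕜 N b).order := by
    rw [← HahnSeries.order_mul hq hqb, div_mul_cancel₀ _ hqb]
  omega

/-- **the order at the cusp `∞` is the order of the `q_N`-expansion** -/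
theorem inftyPlace_ord (x : ModField 𝕜 N) (hx : x ≠ 0) :
    (inftyPlace 𝕜 N).ord x = (modFieldQL 𝕜 N x).order := by
  obtain ⟨m, hm, h⟩ := placeOfValuation_ord
    (fracValuation (L := ModField 𝕜 N) (inftyValuation 𝕜 N)
      (fun _ h => (inftyValuation_eq_zero_iff 𝕜 N).mp h))
    (fracValuation_algebraMap_le_one _ _ (inftyValuation_algebraMap_le_one 𝕜 N))
    ⟨algebraMap (modRing 𝕜 N) (ModField 𝕜 N) (jR 𝕜 N), by
        simpa using jR_ne_zero 𝕜 N, by
        rw [fracValuation_algebraMap, inftyValuation_jR 𝕜]; exact exp_natCast_ne_one N⟩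
  have hP : placeOfValuation
    (fracValuation (L := ModField 𝕜 N) (inftyValuation 𝕜 N)
      (fun _ h => (inftyValuation_eq_zero_iff 𝕜 N).mp h))
    (fracValuation_algebraMap_le_one _ _ (inftyValuation_algebraMap_le_one 𝕜 N))
    ⟨algebraMap (modRing 𝕜 N) (ModField 𝕜 N) (jR 𝕜 N), by
        simpa using jR_ne_zero 𝕜 N, by
        rw [fracValuation_algebraMap, inftyValuation_jR 𝕜]; exact exp_natCast_ne_one N⟩
      = inftyPlace 𝕜 N := rfl
  rw [hP] at h
  -- `m = 1`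
  have hN : 0 < N := Nat.pos_of_ne_zero (NeZero.ne N)
  have hm1 : m = 1 := by
    have h1 := h (jL 𝕜 N)⁻¹ (inv_ne_zero (jL_ne_zero 𝕜 N))
    rw [fracValuation_infty_jL_inv 𝕜, inftyPlace_ord_jL_inv 𝕜] at h1
    have h2 := exp_injective h1
    have h3 : (N : ℤ) = (m : ℤ) * N := by omega
    have h4 : (m : ℤ) = 1 := by
      have hN' : (N : ℤ) ≠ 0 := by exact_mod_cast hN.ne'
      have : (1 : ℤ) * N = (m : ℤ) * N := by rw [one_mul]; exact h3
      exact (mul_right_cancel₀ hN' this).symm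
    exact_mod_cast h4
  have h1 := h x hx
  rw [fracValuation_infty_eq 𝕜 N x hx, hm1] at h1
  have := exp_injective h1
  push_cast at this
  omega

/-- the order at the cusp `γ∞` -/
theorem smul_inftyPlace_ord (γ : SL(2, ℤ)) (x : ModField 𝕜 N) (hx : x ≠ 0) :
    (modRep 𝕜 N γ • inftyPlace 𝕜 N).ord x = (modFieldQL 𝕜 N (modRep 𝕜 N γ⁻¹ x)).order := by
  have h := Place.ord_smul (modRep 𝕜 N γ) (inftyPlace 𝕜 N) (modRep 𝕜 N γ⁻¹ x)
  have h2 : modRep 𝕜 N γ (modRep 𝕜 N γ⁻¹ x) = x := by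
    rw [← AlgEquiv.mul_apply, ← map_mul, mul_inv_cancel, map_one, AlgEquiv.one_apply]
  rw [h2] at h
  rw [h]
  apply inftyPlace_ord
  intro h0
  apply hx
  have := congrArg (modRep 𝕜 N γ) h0
  rwa [h2, map_zero] at this

end Fermat.Agent.T1.KMod
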