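/-
T1-D (D-a): ramification index = order of the stabilizer, for a finite group of automorphisms of a
function field over an algebraically closed field of characteristic zero.

`tdd_exists_ord_restrict` : the order at a place of `L` of the elements of a subfield `F` is a
positive multiple `e` of the order at the restricted place;
`tdd_ord_eq_card_stabilizer_mul` : for `F = L^H` (`H` finite), `e = #Stab_H(v)`.
-/
import Mathlib
import Fermat.Agent.Lib.Curve.GaloisPlaces
import Fermat.Agent.Lib.Curve.Riemann
import Fermat.Agent.Lib.Curve.PlaceOfValuation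
import Fermat.Agent.Lib.Curve.ResidueField
import Fermat.Agent.Lib.Curve.TrDeg

set_option autoImplicit false
set_option linter.unusedSectionVars false
set_option linter.style.haveILetI false
set_option linter.unusedVariables false

namespace Fermat.Agent.T1

open AlgebraicCurve IntermediateField WithZero
open Fermat.Agent.Curve Fermat.Agent.Curve.PlaceAux Fermat.Agent.Curve.GaloisAux

variable {K : Type*} [Field K] {L : Type*} [Field L] [Algebra K L]

section Restrict

variable {F : Type*} [Field F] [Algebra K F] [Algebra F L] [IsScalarTower K F L]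
  [Algebra.IsAlgebraic F L]

/-- the order at `v` of the elements of the subfield `F` is a positive multiple of the order at the
restriction of `v` to `F` -/
theorem tdd_exists_ord_restrict (v : Place K L) :
    ∃ e : ℕ, 0 < e ∧ ∀ y : F, v.ord (algebraMap F L y) = (e : ℤ) * (restrict (F := F) v).ord y := by
  set w : Valuation F ℤᵐ⁰ := v.adicValuation.comap (algebraMap F L) with hw
  have hwmem : ∀ y : F, w y ≤ 1 ↔ y ∈ (restrict (F := F) v).toValuationSubring := by
    intro y
    rw [mem_restrict_iff, PlaceAux.mem_iff_adicValuation_le_one]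
    rfl
  have hK : ∀ c : K, w (algebraMap K F c) ≤ 1 := fun c =>
    (hwmem _).mpr ((restrict (F := F) v).algebraMap_mem' c)
  have hnt : ∃ y : F, y ≠ 0 ∧ w y ≠ 1 := by
    by_contra hcon
    push Not at hcon
    apply (restrict (F := F) v).ne_top'
    refine SetLike.ext fun y => ⟨fun _ => ValuationSubring.mem_top y, fun _ => ?_⟩
    rw [← hwmem]
    by_cases hy : y = 0
    · rw [hy, map_zero]; exact zero_le
    · exact (hcon y hy).le
  have heq : placeOfValuation w hK hnt = restrict (F := F) v := by
    apply Place.ext
    ext y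
    rw [mem_placeOfValuation_iff, hwmem]
  obtain ⟨m, hm, hord⟩ := placeOfValuation_ord w hK hnt
  rw [heq] at hord
  refine ⟨m, hm, fun y => ?_⟩
  by_cases hy : y = 0
  · rw [hy, map_zero, Place.ord_zero, Place.ord_zero, mul_zero]
  have h1 := hord y hy
  have h2 : w y = exp (-(v.ord (algebraMap F L y))) := by
    show v.adicValuation (algebraMap F L y) = _
    rw [Place.ord, neg_neg, exp_log]
    exact v.adicValuation_ne_zero ((map_ne_zero _).mpr hy)
  rw [h2] at h1
  have := exp_injective h1
  omega

end Restrict

section Stab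

variable [CharZero K] [IsAlgClosed K]

/-- a nonconstant function of `F` whose only pole is `u` -/
theorem tdd_exists_unique_pole {F : Type*} [Field F] [Algebra K F] {x : F}
    (hx : IsFunctionFieldGen K F x) (u : Place K F) :
    ∃ f : F, f ∉ Set.range (algebraMap K F) ∧ ∀ u' : Place K F, u'.ord f < 0 → u' = u := by
  obtain ⟨γ, hγ⟩ := exists_riemann_bound hx
  set n : ℕ := (γ + 2).toNat with hn
  set D : Divisor K F := Finsupp.single u (n : ℤ) with hD
  have hdeg : Divisor.degree D = n := by
    rw [degree_eq_finsum hx, hD, finsum_eq_single _ u]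
    · rw [Finsupp.single_eq_same]
    · intro u' hu'
      rw [Finsupp.single_eq_of_ne hu']
  have hell : 2 ≤ ell D := by
    have h1 := hγ D
    rw [hdeg] at h1
    have h2 : γ + 2 ≤ n := by rw [hn]; exact Int.self_le_toNat _
    have : (2 : ℤ) ≤ ell D := by omega
    exact_mod_cast this
  -- a nonconstant element
  have hex : ∃ f ∈ riemannRochSpace D, f ∉ Set.range (algebraMap K F) := by
    by_contra hcon
    push Not at hcon
    have hle : riemannRochSpace D ≤ Submodule.span K {(1 : F)} := by
      intro f hf
      obtain ⟨c, rfl⟩ := hcon f hf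
      rw [Submodule.mem_span_singleton]
      exact ⟨c, by rw [Algebra.smul_def, mul_one]⟩
    have h1 : Module.finrank K ↥(riemannRochSpace D) ≤ Module.finrank K ↥(Submodule.span K {(1 : F)}) :=
      Submodule.finrank_mono hle
    have h2 : Module.finrank K ↥(Submodule.span K {(1 : F)}) ≤ 1 := by
      exact (finrank_span_le_card ({(1 : F)} : Set F)).trans (by simp)
    rw [ell] at hell
    omega
  obtain ⟨f, hf, hfK⟩ := hex
  refine ⟨f, hfK, fun u' hu' => ?_⟩
  by_contra hne
  rcases (mem_riemannRochSpace_iff.mp hf) u' with h | h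
  · rw [h, Place.ord_zero] at hu'
    exact lt_irrefl _ hu'
  · rw [hD, Finsupp.single_eq_of_ne hne] at h
    omega

variable (H : Subgroup (L ≃ₐ[K] L)) [Finite H]

/-- **the ramification index is the order of the stabilizer**: for a finite group `H` of
automorphisms of the function field `L` with fixed field `F`, the order at `v` of an element of `F`
is `#Stab_H(v)` times its order at the restriction of `v` to `F`. -/
theorem tdd_ord_eq_card_stabilizer_mul
    (x : IntermediateField.fixedField H)
    (hxF : IsFunctionFieldGen K (IntermediateField.fixedField H) x)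
    (hxL : IsFunctionFieldGen K L (x : L)) (v : Place K L) :
    haveI := finiteDimensional_fixedField H
    ∀ y : IntermediateField.fixedField H,
      v.ord (y : L) = (Nat.card {g : H // (g : L ≃ₐ[K] L) • v = v} : ℤ)
        * (restrict (F := IntermediateField.fixedField H) v).ord y := by
  haveI := finiteDimensional_fixedField H
  set F := IntermediateField.fixedField H with hF
  set u : Place K F := restrict (F := F) v with hu
  obtain ⟨e, he, hord⟩ := tdd_exists_ord_restrict (F := F) v
  suffices hes : (e : ℤ) = (Nat.card {g : H // (g : L ≃ₐ[K] L) • v = v} : ℤ) by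
    intro y
    rw [← hes]
    exact hord y
  -- a function with a unique pole at `u`
  obtain ⟨f, hfK, hfpole⟩ := tdd_exists_unique_pole hxF u
  have hfgen : IsFunctionFieldGen K F f := isFunctionFieldGen_of_notMem_range hxF hfK
  have hzgen : IsFunctionFieldGen K F f⁻¹ := hfgen.inv
  have hfLK : ((f : F) : L) ∉ Set.range (algebraMap K L) := by
    rintro ⟨c, hc⟩
    apply hfK
    refine ⟨c, Subtype.ext ?_⟩
    exact hc
  have hfLgen : IsFunctionFieldGen K L ((f : F) : L) := isFunctionFieldGen_of_notMem_range hxL hfLK
  have hzLgen : IsFunctionFieldGen K L ((f : F) : L)⁻¹ := hfLgen.inv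
  -- zeros of `z = f⁻¹` in `F`
  set d : ℕ := Module.finrank (IntermediateField.adjoin K {f⁻¹}) F with hd
  have hdpos : 0 < d := by
    haveI := hzgen.finite
    exact Module.finrank_pos
  have hzerosF : {u' : Place K F | 0 < u'.ord (f⁻¹ - algebraMap K F 0)} = {u} := by
    have hsum := sum_ord_zeros hzgen 0
    ext u'
    simp only [Set.mem_ofPred_eq, map_zero, sub_zero, Set.mem_singleton_iff, Place.ord_inv, neg_pos]
    constructor
    · exact hfpole u'
    · rintro rfl
      -- there is a pole, and it must be `u`
      by_contra hcon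
      have hempty : {u' : Place K F | 0 < u'.ord (f⁻¹ - algebraMap K F 0)} = ∅ := by
        ext u'
        simp only [Set.mem_ofPred_eq, map_zero, sub_zero, Place.ord_inv, neg_pos,
          Set.mem_empty_iff_false, iff_false]
        intro hlt
        rw [hfpole u' hlt] at hlt
        exact hcon hlt
      rw [hempty, finsum_mem_empty] at hsum
      have : (d : ℤ) = 0 := hsum.symm
      omega
  have hordu : u.ord f⁻¹ = d := by
    have hsum := sum_ord_zeros hzgen 0
    rw [hzerosF, finsum_mem_singleton, map_zero, sub_zero] at hsum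
    exact hsum
  -- zeros of `z` in `L`
  set zL : L := ((f : F) : L)⁻¹ with hzL
  have hzLF : zL = ((f⁻¹ : F) : L) := by rw [hzL]; rfl
  set X : Set (Place K L) := {w | 0 < w.ord (zL - algebraMap K L 0)} with hX
  have hXmem : ∀ w : Place K L, w ∈ X ↔ restrict (F := F) w = u := by
    intro w
    show 0 < w.ord (zL - algebraMap K L 0) ↔ _
    rw [map_zero, sub_zero, hzLF]
    have h1 := restrict_ord_pos_iff (F := F) w (f⁻¹ : F)
    have h2 : (algebraMap F L (f⁻¹ : F)) = ((f⁻¹ : F) : L) := rfl
    rw [h2] at h1
    rw [← h1]
    have h3 : restrict (F := F) w ∈ {u' : Place K F | 0 < u'.ord (f⁻¹ - algebraMap K F 0)}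
        ↔ restrict (F := F) w = u := by
      rw [hzerosF, Set.mem_singleton_iff]
    rw [← h3]
    simp only [Set.mem_ofPred_eq, map_zero, sub_zero]
  have hXorb : X = MulAction.orbit H v := by
    ext w
    rw [hXmem, MulAction.mem_orbit_iff]
    constructor
    · intro hw
      obtain ⟨g, hg, rfl⟩ := exists_mem_smul_eq_of_restrict_eq H v w (by rw [hw])
      exact ⟨⟨g, hg⟩, rfl⟩
    · rintro ⟨g, rfl⟩
      exact restrict_fixedField_smul H (g : L ≃ₐ[K] L) g.2 v
  have hXfin : X.Finite := finite_zeros hzLgen 0
  have hordeq : ∀ w ∈ X, w.ord (zL - algebraMap K L 0) = (e : ℤ) * d := by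
    intro w hw
    rw [hXorb] at hw
    obtain ⟨g, rfl⟩ := hw
    rw [map_zero, sub_zero]
    have h1 := Place.ord_smul (g : L ≃ₐ[K] L) v zL
    have h2 : (g : L ≃ₐ[K] L) zL = zL := by
      rw [hzLF]
      exact (f⁻¹ : F).2 g
    rw [h2] at h1
    show ((g : L ≃ₐ[K] L) • v).ord zL = _
    rw [h1, hzLF]
    have h3 := hord (f⁻¹ : F)
    have h4 : (algebraMap F L (f⁻¹ : F)) = ((f⁻¹ : F) : L) := rfl
    rw [h4] at h3
    rw [h3, hordu]
  have hsumL := sum_ord_zeros hzLgen 0
  rw [finsum_mem_congr rfl hordeq, finsum_mem_eq_finite_toFinset_sum _ hXfin, Finset.sum_const,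
    ← Set.ncard_eq_toFinset_card X hXfin, nsmul_eq_mul] at hsumL
  -- the degree `[L : K(z)] = #H * d`
  have hdeg : Module.finrank (IntermediateField.adjoin K {zL}) L = Nat.card H * d := by
    have hle : IntermediateField.adjoin K {zL} ≤ F := by
      rw [IntermediateField.adjoin_le_iff, Set.singleton_subset_iff, hzLF]
      exact (f⁻¹ : F).2
    have hcomap : IntermediateField.adjoin K {(f⁻¹ : F)}
        = (IntermediateField.adjoin K {zL}).comap F.val := by
      have h1 : (IntermediateField.adjoin K {(f⁻¹ : F)}).map F.val
          = IntermediateField.adjoin K {zL} := by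
        rw [IntermediateField.adjoin_map, Set.image_singleton, hzLF]
        rfl
      rw [← h1, IntermediateField.comap_map]
    have h2 := IntermediateField.relfinrank_mul_finrank_top hle
    rw [← card_eq_finrank_fixedField H] at h2
    rw [← h2, hd, hcomap, IntermediateField.finrank_comap, IntermediateField.fieldRange_val,
      mul_comm]
  rw [hdeg] at hsumL
  -- orbit-stabilizer
  have hcard : Nat.card (MulAction.orbit H v) * Nat.card (MulAction.stabilizer H v)
      = Nat.card H := by
    rw [← Nat.card_prod]
    exact Nat.card_congr (MulAction.orbitProdStabilizerEquivGroup H v)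
  have hXcard : X.ncard = Nat.card (MulAction.orbit H v) := by
    rw [hXorb, Nat.card_coe_set_eq]
  have hstab : Nat.card {g : H // (g : L ≃ₐ[K] L) • v = v}
      = Nat.card (MulAction.stabilizer H v) := rfl
  rw [hstab]
  have hXpos : 0 < X.ncard := by
    rw [Set.ncard_pos hXfin]
    exact ⟨v, (hXmem v).mpr rfl⟩
  have h5 : (X.ncard : ℤ) * ((e : ℤ) * d)
      = (X.ncard : ℤ) * ((Nat.card (MulAction.stabilizer H v) : ℤ) * d) := by
    rw [hsumL, ← hcard, hXcard]
    push_cast
    ring
  have hne : (X.ncard : ℤ) ≠ 0 := by exact_mod_cast hXpos.ne'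
  have h6 := mul_left_cancel₀ hne h5
  have hd0 : (d : ℤ) ≠ 0 := by exact_mod_cast hdpos.ne'
  exact mul_right_cancel₀ hd0 h6

end Stab

end Fermat.Agent.T1
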