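/-
T1-D (D-a): the easy half of the dictionary at the cusps: if all place orders of `y ∈ F_N` are
divisible by `m`, then the order of the `q_N`-expansion of `y ∘ γ` is divisible by `m`, for every
`γ ∈ SL(2,ℤ)`.  (For helper7's `tkr_root_descend`: `γ = S`.)
-/
import Mathlib
import Fermat.Agent.Lib.T1.Defs
import Fermat.Agent.Lib.T1.Dict.InftyOrd
import Fermat.Agent.Lib.T1.Dict.RamStab
import Fermat.Agent.Lib.S24.ModIso

set_option autoImplicit false
set_option linter.unusedSectionVars false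
set_option linter.style.haveILetI false
set_option linter.unusedVariables false

namespace Fermat.Agent.T1.KMod

open Fermat.Agent.S24Lib
open UpperHalfPlane Matrix MatrixGroups CongruenceSubgroup WithZero ModularGroup
open AlgebraicCurve Fermat.Agent.Curve Fermat.Agent.Curve.GaloisAux Fermat.Agent.Curve.PlaceAux
attribute [local instance] charZero_k
variable (𝕜 : Type) [Field 𝕜] [IsAlgClosed 𝕜] [Algebra 𝕜 ℂ] [Algebra ℚ 𝕜] (N : ℕ) [NeZero N]

/-- `modIso` with values in the fixed field of `Γ₀(N)` -/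
noncomputable def modIsoG : barField 𝕜 N ≃ₐ[𝕜] gamma0Field 𝕜 N :=
  (modIso 𝕜 N).trans (IntermediateField.equivOfEq (anField_eq_fixedField 𝕜 N))

theorem coe_modIsoG (y : barField 𝕜 N) :
    ((modIsoG 𝕜 N y : gamma0Field 𝕜 N) : ModField 𝕜 N)
      = ((modIso 𝕜 N y : anField 𝕜 N) : ModField 𝕜 N) := rfl

instance finite_map_Gamma0 : Finite ((Gamma0 N).map (modRep 𝕜 N)) := finite_map_modRep 𝕜 N _

instance finiteDimensional_gamma0Field :
    FiniteDimensional (gamma0Field 𝕜 N) (ModField 𝕜 N) :=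
  finiteDimensional_fixedField _

/-- the place of `F_N` (in the Prelude's model) below a place of `ModField 𝕜 N` -/
noncomputable def barPlace (v : Place 𝕜 (ModField 𝕜 N)) : Place 𝕜 (barField 𝕜 N) :=
  placeMap (modIsoG 𝕜 N).symm (restrict (F := gamma0Field 𝕜 N) v)

theorem barPlace_ord (v : Place 𝕜 (ModField 𝕜 N)) (y : barField 𝕜 N) :
    (barPlace 𝕜 N v).ord y = (restrict (F := gamma0Field 𝕜 N) v).ord (modIsoG 𝕜 N y) := by
  rw [barPlace, placeMap_ord', AlgEquiv.symm_symm]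

/-- the order at a place of `ModField 𝕜 N` of an element of `F_N` is a multiple of its order at
the place below -/
theorem exists_ord_barPlace (v : Place 𝕜 (ModField 𝕜 N)) :
    ∃ e : ℕ, 0 < e ∧ ∀ y : barField 𝕜 N,
      v.ord ((modIso 𝕜 N y : anField 𝕜 N) : ModField 𝕜 N) = (e : ℤ) * (barPlace 𝕜 N v).ord y := by
  obtain ⟨e, he, h⟩ := tdd_exists_ord_restrict (F := gamma0Field 𝕜 N) v
  refine ⟨e, he, fun y => ?_⟩
  rw [barPlace_ord, ← h]
  rfl

/-- if all place orders of `y` are divisible by `m`, so is the order of the `q_N`-expansion of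
`y ∘ γ⁻¹`, for every `γ` -/
theorem dvd_order_of_forall_place (m : ℕ) (y : barField 𝕜 N) (hy0 : y ≠ 0)
    (hy : ∀ P : Place 𝕜 (barField 𝕜 N), (m : ℤ) ∣ P.ord y) (γ : SL(2, ℤ)) :
    (m : ℤ) ∣ (modFieldQL 𝕜 N
      (modRep 𝕜 N γ ((modIso 𝕜 N y : anField 𝕜 N) : ModField 𝕜 N))).order := by
  have hx0 : ((modIso 𝕜 N y : anField 𝕜 N) : ModField 𝕜 N) ≠ 0 := by
    intro h
    apply hy0
    have h1 : (modIso 𝕜 N y : anField 𝕜 N) = 0 := Subtype.ext h
    exact (modIso 𝕜 N).injective (h1.trans (map_zero _).symm)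
  have h1 := smul_inftyPlace_ord 𝕜 N γ⁻¹ _ hx0
  rw [inv_inv] at h1
  rw [← h1]
  obtain ⟨e, -, he⟩ := exists_ord_barPlace 𝕜 N (modRep 𝕜 N γ⁻¹ • inftyPlace 𝕜 N)
  rw [he y]
  exact Dvd.dvd.mul_left (hy _) _

end Fermat.Agent.T1.KMod

namespace Fermat.Agent.T1

open Fermat.Agent.S24Lib ModularCurve
open UpperHalfPlane Matrix MatrixGroups CongruenceSubgroup ModularGroup AlgebraicCurve

/-- **cusp divisibility (for T1-K, `tkr_root_descend`)**: for `y ∈ tWsub Kbar N m` the order of the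
`q_N`-expansion of `y ∘ γ⁻¹` is divisible by `m`; in S24's model. -/
theorem tdd_cusp_dvd (N m : ℕ) [NeZero N] (y : (↥(modularFunctionFieldBar N))ˣ)
    (hy : y ∈ tWsub (AlgebraicClosure ℚ) N m) (γ : SL(2, ℤ)) :
    (m : ℤ) ∣ (S24Lib.modFieldQL N
      (S24Lib.modRep N γ ((S24Lib.modIso N (y : ↥(modularFunctionFieldBar N)) : S24Lib.anField N)
        : S24Lib.ModField N))).order :=
  KMod.dvd_order_of_forall_place (AlgebraicClosure ℚ) N m (y : ↥(modularFunctionFieldBar N))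
    y.ne_zero (fun P => (mem_tWsub.mp hy) P) γ

end Fermat.Agent.T1
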