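/-
T1-D, leaf T1D-AUT (helper4), part 0 (pure algebra): unnormalised Lagrange interpolation
`tddInterp a b = ∑_q a_q ∏_{q' ≠ q} (X - b_{q'})` over a commutative ring, and the families of
conjugates `tddFam H act g : Γ ⧸ H → W` of an `H`-invariant element `g` of a ring `W` with an
action of `Γ`: the interpolation polynomial of two such families has `Γ`-invariant coefficients
(`tddInterp_fam_coeff`) and value `g * ∏_{q' ≠ 1} (θ - θ_{q'})` at `θ` (`tddInterp_fam_eval`).
-/
import Mathlib

set_option autoImplicit false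
set_option linter.unusedSectionVars false
set_option linter.unusedVariables false
set_option linter.style.haveILetI false

namespace Fermat.Agent.T1

section Interp

open Polynomial

variable {R : Type*} [CommRing R] {Q : Type*} [Fintype Q] [DecidableEq Q]

/-- the (unnormalised) Lagrange interpolation polynomial `∑_q a_q ∏_{q' ≠ q} (X - b_{q'})` -/
noncomputable def tddInterp (a b : Q → R) : R[X] :=
  ∑ q, C (a q) * ∏ q' ∈ Finset.univ.erase q, (X - C (b q'))

theorem tddInterp_comp_equiv (a b : Q → R) (π : Q ≃ Q) :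
    tddInterp (a ∘ π) (b ∘ π) = tddInterp a b := by
  unfold tddInterp
  refine Fintype.sum_equiv π _ _ (fun q => ?_)
  simp only [Function.comp_apply]
  congr 1
  have h : (Finset.univ.erase q).map π.toEmbedding = Finset.univ.erase (π q) := by
    rw [Finset.map_erase, Finset.map_univ_equiv]
    rfl
  rw [← h, Finset.prod_map]
  rfl

theorem tddInterp_map {S : Type*} [CommRing S] (f : R →+* S) (a b : Q → R) :
    (tddInterp a b).map f = tddInterp (f ∘ a) (f ∘ b) := by
  unfold tddInterp
  rw [Polynomial.map_sum]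
  refine Finset.sum_congr rfl (fun q _ => ?_)
  rw [Polynomial.map_mul, Polynomial.map_C, Polynomial.map_prod]
  simp only [Polynomial.map_sub, Polynomial.map_X, Polynomial.map_C, Function.comp_apply]

theorem tddInterp_eval (a b : Q → R) (q₀ : Q) :
    (tddInterp a b).eval (b q₀) = a q₀ * ∏ q' ∈ Finset.univ.erase q₀, (b q₀ - b q') := by
  unfold tddInterp
  rw [Polynomial.eval_finsetSum, Finset.sum_eq_single q₀]
  · rw [eval_mul, eval_C, eval_prod]
    simp only [eval_sub, eval_X, eval_C]
  · intro q _ hq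
    rw [eval_mul, eval_prod]
    have h0 : ∏ q' ∈ Finset.univ.erase q, eval (b q₀) (X - C (b q')) = 0 := by
      apply Finset.prod_eq_zero (i := q₀)
      · rw [Finset.mem_erase]
        exact ⟨fun h => hq h.symm, Finset.mem_univ _⟩
      · simp
    rw [h0, mul_zero]
  · intro h
    exact absurd (Finset.mem_univ _) h

end Interp

section Fam

open Polynomial

variable {Γ : Type*} [Group Γ] (H : Subgroup Γ) {K : Type*} [CommSemiring K]
  {W : Type*} [CommRing W] [Algebra K W] (act : Γ →* (W ≃ₐ[K] W))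

/-- the conjugates `σ g`, `σ ∈ Γ / H`, of an `H`-invariant element `g` -/
noncomputable def tddFam (g : W) (q : Γ ⧸ H) : W := act q.out g

variable {H act}

theorem tddFam_mk {g : W} (hg : ∀ γ ∈ H, act γ g = g) (σ : Γ) :
    tddFam H act g (QuotientGroup.mk σ) = act σ g := by
  unfold tddFam
  obtain ⟨h, hh⟩ := QuotientGroup.mk_out_eq_mul H σ
  rw [hh, map_mul, AlgEquiv.mul_apply, hg h h.2]

theorem act_tddFam {g : W} (hg : ∀ γ ∈ H, act γ g = g) (δ : Γ) (q : Γ ⧸ H) :
    act δ (tddFam H act g q) = tddFam H act g (δ • q) := by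
  induction q using QuotientGroup.induction_on with
  | H σ =>
    rw [tddFam_mk hg, ← AlgEquiv.mul_apply, ← map_mul]
    have : δ • (QuotientGroup.mk σ : Γ ⧸ H) = QuotientGroup.mk (δ * σ) := rfl
    rw [this, tddFam_mk hg]

variable [Fintype (Γ ⧸ H)] [DecidableEq (Γ ⧸ H)]

theorem tddInterp_fam_map {g θ : W} (hg : ∀ γ ∈ H, act γ g = g) (hθ : ∀ γ ∈ H, act γ θ = θ)
    (δ : Γ) :
    (tddInterp (tddFam H act g) (tddFam H act θ)).map ((act δ : W ≃ₐ[K] W) : W →+* W)
      = tddInterp (tddFam H act g) (tddFam H act θ) := by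
  rw [tddInterp_map]
  have h1 : ((act δ : W ≃ₐ[K] W) : W →+* W) ∘ tddFam H act g
      = tddFam H act g ∘ (MulAction.toPerm δ : Equiv.Perm (Γ ⧸ H)) := by
    funext q
    exact act_tddFam hg δ q
  have h2 : ((act δ : W ≃ₐ[K] W) : W →+* W) ∘ tddFam H act θ
      = tddFam H act θ ∘ (MulAction.toPerm δ : Equiv.Perm (Γ ⧸ H)) := by
    funext q
    exact act_tddFam hθ δ q
  rw [h1, h2]
  exact tddInterp_comp_equiv _ _ _

theorem tddInterp_fam_coeff {g θ : W} (hg : ∀ γ ∈ H, act γ g = g) (hθ : ∀ γ ∈ H, act γ θ = θ)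
    (δ : Γ) (m : ℕ) :
    act δ ((tddInterp (tddFam H act g) (tddFam H act θ)).coeff m)
      = (tddInterp (tddFam H act g) (tddFam H act θ)).coeff m := by
  have h := congrArg (fun P => Polynomial.coeff P m) (tddInterp_fam_map hg hθ δ)
  simp only [Polynomial.coeff_map] at h
  exact h

theorem tddInterp_fam_eval {g θ : W} (hg : ∀ γ ∈ H, act γ g = g) (hθ : ∀ γ ∈ H, act γ θ = θ) :
    (tddInterp (tddFam H act g) (tddFam H act θ)).eval θ
      = g * ∏ q' ∈ Finset.univ.erase (QuotientGroup.mk 1 : Γ ⧸ H),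
          (θ - tddFam H act θ q') := by
  have h1 : tddFam H act θ (QuotientGroup.mk 1 : Γ ⧸ H) = θ := by
    rw [tddFam_mk hθ, map_one, AlgEquiv.one_apply]
  have h2 : tddFam H act g (QuotientGroup.mk 1 : Γ ⧸ H) = g := by
    rw [tddFam_mk hg, map_one, AlgEquiv.one_apply]
  have h := tddInterp_eval (tddFam H act g) (tddFam H act θ) (QuotientGroup.mk 1 : Γ ⧸ H)
  rw [h1, h2] at h
  exact h

end Fam

end Fermat.Agent.T1
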