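/-
T1-D, leaf T1D-AUT (helper4), part 1: the ring `tddW N` of holomorphic functions on `ℍ` having a
`q_N`-Laurent expansion at every cusp (`∀ σ ∈ SL(2,ℤ), IsQLaurentable N (g ∘ σ)`), with its action
of `SL(2, ℤ)` (`tddWAct`); invariant elements are polynomials in `j` (`tddWAct_invariant`); the
embedding `tddWToMer : tddW N →+* tdmMer`, compatible with `KMod.toMer` on `modRing ℂ N`; the
subfield `tddAn N = toMer (anField ℂ N)` of `tdmMer`.
-/
import Mathlib
import Fermat.Agent.Lib.T1.Dict.ToMer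
import Fermat.Agent.Lib.T1.Dict.AutoInterp

set_option autoImplicit false
set_option linter.unusedSectionVars false
set_option linter.unusedVariables false
set_option linter.style.haveILetI false

namespace Fermat.Agent.T1

open Fermat.Agent.S24Lib
open UpperHalfPlane Matrix MatrixGroups CongruenceSubgroup
open scoped Manifold
open Fermat.Agent.ES (IsQLaurentable qLaurent)

local notation "Δ" => ModularForm.discriminant

variable (N : ℕ) [NeZero N]

/-- the holomorphic functions on `ℍ` which have a `q_N`-Laurent expansion at every cusp -/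
def tddW : Subalgebra ℂ (ℍ → ℂ) where
  carrier := {g | ∀ σ : SL(2, ℤ), IsQLaurentable N (fun τ => g (σ • τ))}
  mul_mem' hf hg σ := (hf σ).mul (hg σ)
  add_mem' hf hg σ := (hf σ).add (hg σ)
  algebraMap_mem' c σ := IsQLaurentable.const N c

variable {N}

theorem mem_tddW {g : ℍ → ℂ} :
    g ∈ tddW N ↔ ∀ σ : SL(2, ℤ), IsQLaurentable N (fun τ => g (σ • τ)) := Iff.rfl

theorem tddW_isQLaurentable {g : ℍ → ℂ} (hg : g ∈ tddW N) : IsQLaurentable N g := by
  have h := hg 1
  simpa only [one_smul] using h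

theorem tddW_mdiff {g : ℍ → ℂ} (hg : g ∈ tddW N) : MDiff g := (tddW_isQLaurentable hg).mdiff

theorem slAct_mem_tddW (γ : SL(2, ℤ)) {g : ℍ → ℂ} (hg : g ∈ tddW N) :
    KMod.slAct ℂ γ g ∈ tddW N := by
  intro σ
  have h := hg (γ⁻¹ * σ)
  simpa only [KMod.slAct_apply, mul_smul] using h

theorem modRing_le_tddW : KMod.modRing ℂ N ≤ tddW N := by
  intro g hg σ
  have h1 : KMod.slAct ℂ σ⁻¹ g ∈ KMod.modRing ℂ N := KMod.slAct_mem_modRing ℂ N σ⁻¹ hg
  have h2 := (KMod.modRing_props ℂ N h1).1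
  have h3 : KMod.slAct ℂ σ⁻¹ g = fun τ => g (σ • τ) := by
    funext τ
    rw [KMod.slAct_apply, inv_inv]
  rwa [h3] at h2

/-- **invariant elements of `tddW N` are polynomials in `j`** -/
theorem tddW_invariant {g : ℍ → ℂ} (hg : g ∈ tddW N)
    (hinv : ∀ (γ : SL(2, ℤ)) (τ : ℍ), g (γ • τ) = g τ) :
    ∃ P : Polynomial ℂ, ∀ τ, g τ = P.eval (jFun τ) := by
  have hq := tddW_isQLaurentable hg
  obtain ⟨m, hm⟩ := hq.mero
  obtain ⟨P, -, -, hP⟩ := exists_polynomial_jFun g hq.mdiff hinv m hm ⊤ (fun _ => trivial)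
  exact ⟨P, hP⟩

/-! ### The action of `SL(2, ℤ)` on `tddW N` -/

variable (N)

/-- the action of `γ ∈ SL(2, ℤ)` on `tddW N` as an algebra homomorphism -/
noncomputable def tddWActHom (γ : SL(2, ℤ)) : tddW N →ₐ[ℂ] tddW N :=
  ((KMod.slAct ℂ γ : (ℍ → ℂ) →ₐ[ℂ] (ℍ → ℂ)).comp (tddW N).val).codRestrict (tddW N)
    (fun f => slAct_mem_tddW γ f.2)

@[simp]
theorem coe_tddWActHom (γ : SL(2, ℤ)) (f : tddW N) :
    ((tddWActHom N γ f : tddW N) : ℍ → ℂ) = KMod.slAct ℂ γ (f : ℍ → ℂ) := rfl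

/-- the action of `SL(2, ℤ)` on `tddW N` -/
noncomputable def tddWAct : SL(2, ℤ) →* (tddW N ≃ₐ[ℂ] tddW N) where
  toFun γ := AlgEquiv.ofAlgHom (tddWActHom N γ) (tddWActHom N γ⁻¹)
    (by ext f : 2; simp [map_inv])
    (by ext f : 2; simp [map_inv])
  map_one' := by
    ext f : 2
    simp
  map_mul' γ δ := by
    ext f : 2
    simp

@[simp]
theorem coe_tddWAct (γ : SL(2, ℤ)) (f : tddW N) :
    ((tddWAct N γ f : tddW N) : ℍ → ℂ) = KMod.slAct ℂ γ (f : ℍ → ℂ) := rfl

theorem tddWAct_apply_apply (γ : SL(2, ℤ)) (f : tddW N) (τ : ℍ) :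
    (tddWAct N γ f : ℍ → ℂ) τ = (f : ℍ → ℂ) (γ⁻¹ • τ) := rfl

/-- invariant elements of `tddW N` are polynomials in `j` -/
theorem tddWAct_invariant (f : tddW N) (hf : ∀ γ, tddWAct N γ f = f) :
    ∃ P : Polynomial ℂ, ∀ τ, (f : ℍ → ℂ) τ = P.eval (jFun τ) := by
  refine tddW_invariant f.2 (fun γ τ => ?_)
  have h1 : (tddWAct N γ⁻¹ f : ℍ → ℂ) τ = (f : ℍ → ℂ) τ := by rw [hf]
  rw [tddWAct_apply_apply, inv_inv] at h1
  exact h1

/-! ### The embedding into the field of meromorphic functions -/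

/-- the inclusion of `tddW N` into the ring of holomorphic functions -/
noncomputable def tddWToHol : tddW N →+* holH where
  toFun f := ⟨f, tddW_mdiff f.2⟩
  map_one' := rfl
  map_mul' _ _ := rfl
  map_zero' := rfl
  map_add' _ _ := rfl

theorem tddWToHol_injective : Function.Injective (tddWToHol N) := by
  intro f g h
  apply Subtype.ext
  exact congrArg (fun x : holH => (x : ℍ → ℂ)) h

/-- the elements of `tddW N` as meromorphic functions -/
noncomputable def tddWToMer : tddW N →+* tdmMer := tdmOfHol.comp (tddWToHol N)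

theorem tddWToMer_injective : Function.Injective (tddWToMer N) :=
  tdmOfHol_injective.comp (tddWToHol_injective N)

theorem tddWToMer_apply (f : tddW N) :
    tddWToMer N f = tdmOfHol ⟨(f : ℍ → ℂ), tddW_mdiff f.2⟩ := rfl

/-- an element of `modRing ℂ N` as an element of `tddW N` -/
noncomputable def tddOfModRing : KMod.modRing ℂ N →ₐ[ℂ] tddW N :=
  Subalgebra.inclusion modRing_le_tddW

theorem tddWToMer_ofModRing (r : KMod.modRing ℂ N) :
    tddWToMer N (tddOfModRing N r)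
      = KMod.toMer ℂ N (algebraMap (KMod.modRing ℂ N) (KMod.ModField ℂ N) r) := by
  rw [KMod.toMer_algebraMap]
  rfl

theorem tddWToMer_algebraMap (c : ℂ) :
    tddWToMer N (algebraMap ℂ (tddW N) c) = algebraMap ℂ tdmMer c := by
  rw [IsScalarTower.algebraMap_apply ℂ holH tdmMer]
  rfl

/-- the image of the analytic function field of `X₀(N)` in the field of meromorphic functions -/
noncomputable def tddAn : Subfield tdmMer := (KMod.anField ℂ N).toSubfield.map (KMod.toMer ℂ N)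

variable {N}

theorem mem_tddAn {x : tdmMer} :
    x ∈ tddAn N ↔ ∃ y : KMod.anField ℂ N, KMod.toMer ℂ N (y : KMod.ModField ℂ N) = x := by
  unfold tddAn
  rw [Subfield.mem_map]
  constructor
  · rintro ⟨y, hy, rfl⟩
    exact ⟨⟨y, hy⟩, rfl⟩
  · rintro ⟨y, rfl⟩
    exact ⟨y.1, y.2, rfl⟩

theorem algebraMap_mem_tddAn (c : ℂ) : algebraMap ℂ tdmMer c ∈ tddAn N := by
  rw [mem_tddAn]
  refine ⟨algebraMap ℂ (KMod.anField ℂ N) c, ?_⟩
  have h := KMod.toMer_const ℂ N c
  rw [Algebra.algebraMap_self, RingHom.id_apply] at h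
  exact h

end Fermat.Agent.T1
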