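/-
T1-D, leaf T1D-AUT (helper4), part 2: **`tdd_hol_invariant_mem`** — a holomorphic `Γ₀(N)`-invariant
function on `ℍ` with a `q_N`-Laurent expansion at every cusp lies in (the image in `tdmMer` of)
`KMod.anField ℂ N`.  Proof by Lagrange interpolation: with `θ = j(N ·)` and the conjugates
`θ_q, g_q` (`q ∈ SL(2,ℤ) / Γ₀(N)`), the polynomial `∑_q g_q ∏_{q' ≠ q} (X - θ_{q'})` has
`SL(2,ℤ)`-invariant coefficients in `tddW N`, hence coefficients in `ℂ[j]`, and its value at `θ` is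
`g ∏_{q ≠ 1} (θ - θ_q)`; the same with `g = 1` shows that the second factor is a nonzero element of
`anField`.
-/
import Mathlib
import Fermat.Agent.Lib.T1.Dict.AutoW

set_option autoImplicit false
set_option linter.unusedSectionVars false
set_option linter.unusedVariables false
set_option linter.style.haveILetI false

namespace Fermat.Agent.T1

open Fermat.Agent.S24Lib
open UpperHalfPlane Matrix MatrixGroups CongruenceSubgroup
open scoped Manifold
open Fermat.Agent.ES (IsQLaurentable qLaurent)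

variable (N : ℕ) [NeZero N]

/-- `τ ↦ j(Nτ)` as an element of `tddW N` -/
noncomputable def tddTheta : tddW N := tddOfModRing N (KMod.jGenR ℂ N (pnatN_dvd N) 1)

theorem coe_tddTheta : ((tddTheta N : tddW N) : ℍ → ℂ) = jGen (pnatN N) 1 := rfl

theorem tddWAct_tddTheta_coe (σ : SL(2, ℤ)) :
    ((tddWAct N σ (tddTheta N) : tddW N) : ℍ → ℂ) = jGen (pnatN N) σ⁻¹ := by
  rw [coe_tddWAct, coe_tddTheta, KMod.slAct_jGen, one_mul]

theorem tddWAct_tddTheta_of_mem {γ : SL(2, ℤ)} (hγ : γ ∈ Gamma0 N) :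
    tddWAct N γ (tddTheta N) = tddTheta N := by
  apply Subtype.ext
  rw [tddWAct_tddTheta_coe, coe_tddTheta]
  have h := jGen_Gamma0_mul (pnatN N) (γ := γ⁻¹) (inv_mem hγ) 1
  rwa [mul_one] at h

theorem mem_Gamma0_of_tddWAct_tddTheta {σ : SL(2, ℤ)}
    (h : tddWAct N σ (tddTheta N) = tddTheta N) : σ ∈ Gamma0 N := by
  have h1 : jGen (pnatN N) σ⁻¹ = jGen (pnatN N) 1 := by
    rw [← tddWAct_tddTheta_coe, h, coe_tddTheta]
  have h2 : KMod.jGenR ℂ N (pnatN_dvd N) σ⁻¹ = KMod.jGenR ℂ N (pnatN_dvd N) 1 := Subtype.ext h1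
  have h3 : KMod.jGenL ℂ N (pnatN_dvd N) σ⁻¹ = KMod.jGenL ℂ N (pnatN_dvd N) 1 := by
    unfold KMod.jGenL
    rw [h2]
  have := KMod.mem_Gamma0_of_jGenL_eq ℂ N σ⁻¹ h3
  simpa using inv_mem this

theorem tddWToMer_tddTheta_mem : tddWToMer N (tddTheta N) ∈ tddAn N := by
  rw [mem_tddAn]
  refine ⟨⟨KMod.jGenL ℂ N (pnatN_dvd N) 1, KMod.jGenL_mem_anField ℂ N _⟩, ?_⟩
  exact (tddWToMer_ofModRing N _).symm

/-- polynomials in `j` lie in the image of `anField` -/
theorem tddWToMer_mem_of_eq_poly (f : tddW N) (P : Polynomial ℂ)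
    (hP : ∀ τ, (f : ℍ → ℂ) τ = P.eval (jFun τ)) : tddWToMer N f ∈ tddAn N := by
  have h1 : f = tddOfModRing N (Polynomial.aeval (KMod.jR ℂ N) P) := by
    apply Subtype.ext
    funext τ
    rw [hP τ]
    have := KMod.aeval_jR_apply ℂ N P τ
    rw [Algebra.algebraMap_self, Polynomial.map_id] at this
    exact this.symm
  rw [h1, tddWToMer_ofModRing, mem_tddAn]
  refine ⟨Polynomial.aeval (⟨KMod.jL ℂ N, KMod.jL_mem_anField ℂ N⟩ : KMod.anField ℂ N) P, ?_⟩
  congr 1
  rw [← IntermediateField.aeval_coe]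
  exact Polynomial.aeval_algebraMap_apply _ _ _

theorem tddWToMer_mem_of_invariant (f : tddW N) (hf : ∀ γ, tddWAct N γ f = f) :
    tddWToMer N f ∈ tddAn N := by
  obtain ⟨P, hP⟩ := tddWAct_invariant N f hf
  exact tddWToMer_mem_of_eq_poly N f P hP

noncomputable instance tddFintypeQuot : Fintype (SL(2, ℤ) ⧸ Gamma0 N) :=
  haveI : Finite (SL(2, ℤ) ⧸ Gamma0 N) := Subgroup.finite_quotient_of_finiteIndex
  Fintype.ofFinite _

open Classical in
/-- the different of `θ = j(N ·)`: `∏_{q ≠ 1} (θ - θ_q)` -/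
noncomputable def tddDiff : tddW N :=
  ∏ q' ∈ Finset.univ.erase (QuotientGroup.mk 1 : SL(2, ℤ) ⧸ Gamma0 N),
    (tddTheta N - tddFam (Gamma0 N) (tddWAct N) (tddTheta N) q')

theorem tddWToMer_tddDiff_ne_zero : tddWToMer N (tddDiff N) ≠ 0 := by
  classical
  unfold tddDiff
  rw [map_prod, Finset.prod_ne_zero_iff]
  intro q hq
  rw [Finset.mem_erase] at hq
  rw [Ne, map_eq_zero_iff _ (tddWToMer_injective N), sub_eq_zero]
  intro h
  apply hq.1
  induction q using QuotientGroup.induction_on with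
  | H σ =>
    rw [tddFam_mk (fun γ hγ => tddWAct_tddTheta_of_mem N hγ)] at h
    have hσ := mem_Gamma0_of_tddWAct_tddTheta N h.symm
    rw [QuotientGroup.eq]
    simpa using hσ

/-- **key step**: for a `Γ₀(N)`-invariant `g ∈ tddW N`, `g * ∏_{q ≠ 1} (θ - θ_q)` lies in the
image of `anField` -/
theorem tddWToMer_mul_tddDiff_mem (g : tddW N) (hg : ∀ γ ∈ Gamma0 N, tddWAct N γ g = g) :
    tddWToMer N g * tddWToMer N (tddDiff N) ∈ tddAn N := by
  classical
  have hθ : ∀ γ ∈ Gamma0 N, tddWAct N γ (tddTheta N) = tddTheta N :=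
    fun γ hγ => tddWAct_tddTheta_of_mem N hγ
  set G := tddInterp (tddFam (Gamma0 N) (tddWAct N) g) (tddFam (Gamma0 N) (tddWAct N) (tddTheta N))
    with hG
  have heval := tddInterp_fam_eval hg hθ
  rw [← hG] at heval
  have h1 : tddWToMer N g * tddWToMer N (tddDiff N) = tddWToMer N (G.eval (tddTheta N)) := by
    rw [heval, map_mul]
    rfl
  rw [h1, Polynomial.eval_eq_sum_range, map_sum]
  refine Subfield.sum_mem _ (fun m _ => ?_)
  rw [map_mul, map_pow]
  refine mul_mem ?_ (pow_mem (tddWToMer_tddTheta_mem N) m)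
  exact tddWToMer_mem_of_invariant N _ (fun δ => tddInterp_fam_coeff hg hθ δ m)

/-- `Γ₀(N)`-invariant elements of `tddW N` lie in the image of `anField ℂ N` -/
theorem tddWToMer_mem_tddAn (g : tddW N) (hg : ∀ γ ∈ Gamma0 N, tddWAct N γ g = g) :
    tddWToMer N g ∈ tddAn N := by
  have h1 := tddWToMer_mul_tddDiff_mem N g hg
  have h2 := tddWToMer_mul_tddDiff_mem N 1 (fun γ _ => map_one _)
  rw [map_one, one_mul] at h2
  have h3 : tddWToMer N g
      = tddWToMer N g * tddWToMer N (tddDiff N) * (tddWToMer N (tddDiff N))⁻¹ := by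
    rw [mul_assoc, mul_inv_cancel₀ (tddWToMer_tddDiff_ne_zero N), mul_one]
  rw [h3]
  exact mul_mem h1 (inv_mem h2)

/-- **(1)**: a holomorphic `Γ₀(N)`-invariant function with a `q_N`-Laurent expansion at every
cusp is a modular function of level `N`, i.e. lies in `anField ℂ N`. -/
theorem tdd_hol_invariant_mem (h : ℍ → ℂ) (hh : MDiff h)
    (hinv : ∀ γ ∈ Gamma0 N, ∀ τ, h (γ • τ) = h τ)
    (hL : ∀ σ : SL(2, ℤ), IsQLaurentable N (fun τ => h (σ • τ))) :
    ∃ y : KMod.anField ℂ N, KMod.toMer ℂ N (y : KMod.ModField ℂ N) = tdmOfHol ⟨h, hh⟩ := by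
  have hmem : h ∈ tddW N := hL
  have h1 := tddWToMer_mem_tddAn N ⟨h, hmem⟩ (fun γ hγ => by
    apply Subtype.ext
    funext τ
    rw [tddWAct_apply_apply]
    exact hinv γ⁻¹ (inv_mem hγ) τ)
  rw [mem_tddAn] at h1
  exact h1

end Fermat.Agent.T1
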