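/-
T1-D, leaf T1D-AUT (helper4), part 3: **`tdd_automorphic_mem`** — the quotient of two modular forms
of the same weight for `Γ₀(N)` lies in `KMod.anField ℂ N`.  `TddWt N w f`: `f` is holomorphic,
automorphic of weight `w` for `Γ₀(N)` and all its slashes are bounded at `i∞` (closed under
products; satisfied by modular forms).  `tdd_wt_mem`: if `f` has weight `12 (a - b)` then
`f Δ^b / Δ^a` is a holomorphic `Γ₀(N)`-invariant function, Laurentable at every cusp, hence in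
`anField` by `tdd_hol_invariant_mem`.  Then `A / B = (A B^11 Δ^b / Δ^a) / (B^12 Δ^b / Δ^a)`.
-/
import Mathlib
import Fermat.Agent.Lib.T1.Dict.AutoHol

set_option autoImplicit false
set_option linter.unusedSectionVars false
set_option linter.unusedVariables false
set_option linter.style.haveILetI false

namespace Fermat.Agent.T1

open Fermat.Agent.S24Lib
open UpperHalfPlane Matrix MatrixGroups CongruenceSubgroup ModularForm
open scoped Manifold
open Fermat.Agent.ES (IsQLaurentable qLaurent IsMeroAtImInfty)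

local notation "Δ" => ModularForm.discriminant

variable (N : ℕ) [NeZero N]

/-- `f` behaves like a modular form of weight `w` for `Γ₀(N)`: holomorphic, automorphic of weight
`w`, and all its slashes are bounded at `i∞` -/
structure TddWt (w : ℤ) (f : ℍ → ℂ) : Prop where
  mdiff : MDiff f
  smul : ∀ γ ∈ Gamma0 N, ∀ τ : ℍ, f (γ • τ) = denom γ τ ^ w * f τ
  bdd : ∀ σ : SL(2, ℤ), IsBoundedAtImInfty (fun τ : ℍ => f (σ • τ) * denom σ τ ^ (-w))

variable {N}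

theorem TddWt.of_eq {w w' : ℤ} {f : ℍ → ℂ} (hf : TddWt N w f) (h : w = w') : TddWt N w' f := by
  subst h; exact hf

theorem TddWt.mul {w₁ w₂ : ℤ} {f g : ℍ → ℂ} (hf : TddWt N w₁ f) (hg : TddWt N w₂ g) :
    TddWt N (w₁ + w₂) (f * g) where
  mdiff := hf.mdiff.mul hg.mdiff
  smul γ hγ τ := by
    rw [Pi.mul_apply, Pi.mul_apply, hf.smul γ hγ, hg.smul γ hγ, zpow_add₀ (denom_ne_zero γ τ)]
    ring
  bdd σ := by
    have h := (hf.bdd σ).mul (hg.bdd σ)
    refine Fermat.Agent.ES.isBoundedAtImInfty_congr h (fun τ => ?_)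
    simp only [Pi.mul_apply]
    rw [neg_add, zpow_add₀ (denom_ne_zero σ τ)]
    ring

theorem TddWt.one : TddWt N 0 (1 : ℍ → ℂ) where
  mdiff := mdifferentiable_const
  smul γ hγ τ := by simp
  bdd σ := by
    have h : IsBoundedAtImInfty (fun _ : ℍ => (1 : ℂ)) := Filter.const_boundedAtFilter _ 1
    refine Fermat.Agent.ES.isBoundedAtImInfty_congr h (fun τ => ?_)
    simp

theorem TddWt.pow {w : ℤ} {f : ℍ → ℂ} (hf : TddWt N w f) (n : ℕ) :
    TddWt N (n * w) (f ^ n) := by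
  induction n with
  | zero =>
    rw [pow_zero]
    exact TddWt.one.of_eq (by simp)
  | succ n ih =>
    rw [pow_succ]
    exact (ih.mul hf).of_eq (by push_cast; ring)

/-- modular forms for `Γ₀(N)` -/
theorem TddWt.of_modularForm {k : ℤ} (A : ModularForm (Gamma0 N) k) : TddWt N k A where
  mdiff := A.holo'
  smul γ hγ τ := SlashInvariantForm.slash_action_eqn_SL'' A hγ τ
  bdd σ := by
    have h := ModularFormClass.bdd_at_infty_slash A σ
    refine Fermat.Agent.ES.isBoundedAtImInfty_congr h (fun τ => ?_)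
    rw [ModularForm.SL_slash_apply]

/-- a function invariant under `Γ₀(N)` is `N`-periodic at every cusp -/
theorem tdd_periodic_of_invariant {u : ℍ → ℂ} (hu : ∀ γ ∈ Gamma0 N, ∀ τ : ℍ, u (γ • τ) = u τ)
    (σ : SL(2, ℤ)) (τ : ℍ) : u (σ • ((N : ℝ) +ᵥ τ)) = u (σ • τ) := by
  have hT : ((N : ℝ) +ᵥ τ : ℍ) = (ModularGroup.T ^ (N : ℤ) : SL(2, ℤ)) • τ := by
    rw [UpperHalfPlane.modular_T_zpow_smul]
    simp
  have hmem : σ * ModularGroup.T ^ (N : ℤ) * σ⁻¹ ∈ Gamma0 N := by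
    apply Gamma_le_Gamma0' N
    have h1 : ModularGroup.T ^ (N : ℤ) ∈ Gamma N := by
      simpa using ModularGroup_T_pow_mem_Gamma (N : ℤ) (N : ℤ) dvd_rfl
    exact (Gamma_normal N).conj_mem _ h1 σ
  have h2 := hu _ hmem (σ • τ)
  rw [← h2, hT, ← mul_smul, ← mul_smul]
  congr 2
  group

/-- **weight `12 (a - b)` forms give modular functions**: `f Δ^b / Δ^a ∈ anField` -/
theorem tdd_wt_mem {a b : ℕ} {f : ℍ → ℂ} (hf : TddWt N (12 * ((a : ℤ) - b)) f) :
    ∃ hu : MDiff (fun τ : ℍ => f τ * Δ τ ^ b / Δ τ ^ a),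
      ∃ y : KMod.anField ℂ N, KMod.toMer ℂ N (y : KMod.ModField ℂ N)
        = tdmOfHol ⟨fun τ : ℍ => f τ * Δ τ ^ b / Δ τ ^ a, hu⟩ := by
  have hu : MDiff (fun τ : ℍ => f τ * Δ τ ^ b / Δ τ ^ a) :=
    (hf.mdiff.mul (mdiff_discriminant.pow b)).div (mdiff_discriminant.pow a)
      (fun τ => pow_ne_zero _ (discriminant_ne_zero τ))
  refine ⟨hu, ?_⟩
  -- the transformation law under all of `SL(2, ℤ)`
  have hkey : ∀ (σ : SL(2, ℤ)) (τ : ℍ),
      f (σ • τ) * Δ (σ • τ) ^ b / Δ (σ • τ) ^ a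
        = f (σ • τ) * denom σ τ ^ (-(12 * ((a : ℤ) - b))) * Δ τ ^ b / Δ τ ^ a := by
    intro σ τ
    have hd : denom σ τ ≠ 0 := denom_ne_zero σ τ
    have hΔ := discriminant_ne_zero τ
    rw [discriminant_smul, mul_pow, mul_pow, ← zpow_natCast (denom σ τ ^ (12 : ℤ)) b,
      ← zpow_natCast (denom σ τ ^ (12 : ℤ)) a, ← _root_.zpow_mul, ← _root_.zpow_mul]
    have h1 : denom σ τ ^ (-(12 * ((a : ℤ) - b)))
        = denom σ τ ^ ((12 : ℤ) * b) / denom σ τ ^ ((12 : ℤ) * a) := by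
      rw [← zpow_sub₀ hd]
      congr 1
      ring
    rw [h1]
    have h2 : denom σ τ ^ ((12 : ℤ) * a) ≠ 0 := zpow_ne_zero _ hd
    have h3 : Δ τ ^ a ≠ 0 := pow_ne_zero _ hΔ
    field_simp
  -- invariance under `Γ₀(N)`
  have hinv : ∀ γ ∈ Gamma0 N, ∀ τ : ℍ,
      f (γ • τ) * Δ (γ • τ) ^ b / Δ (γ • τ) ^ a = f τ * Δ τ ^ b / Δ τ ^ a := by
    intro γ hγ τ
    rw [hkey, hf.smul γ hγ]
    have hd : denom γ τ ≠ 0 := denom_ne_zero γ τ
    congr 2
    rw [mul_comm (denom γ τ ^ _), mul_assoc, ← zpow_add₀ hd, add_neg_cancel, zpow_zero, mul_one]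
  refine tdd_hol_invariant_mem N _ hu hinv (fun σ => ?_)
  refine ⟨hu.comp (mdifferentiable_smul (tdm_det_SL_pos σ)), fun τ => ?_, ?_⟩
  · exact tdd_periodic_of_invariant (u := fun τ : ℍ => f τ * Δ τ ^ b / Δ τ ^ a) hinv σ τ
  · refine ⟨a, ?_⟩
    have h := (hf.bdd σ).mul (Fermat.Agent.ES.isBoundedAtImInfty_discriminant_pow b)
    refine Fermat.Agent.ES.isBoundedAtImInfty_congr h (fun τ => ?_)
    simp only [Pi.mul_apply]
    rw [hkey]
    have h3 : Δ τ ^ a ≠ 0 := pow_ne_zero _ (discriminant_ne_zero τ)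
    field_simp

variable (N)

/-- **(2)**: the quotient of two modular forms of the same weight for `Γ₀(N)` is a modular
function of level `N`, i.e. lies in `anField ℂ N`. -/
theorem tdd_automorphic_mem (k : ℤ) (A B : ModularForm (Gamma0 N) k) (hB : B ≠ 0) :
    ∃ y : KMod.anField ℂ N, KMod.toMer ℂ N (y : KMod.ModField ℂ N)
      = tdmOfHol ⟨A, A.holo'⟩ / tdmOfHol ⟨B, B.holo'⟩ := by
  set a : ℕ := k.toNat with ha
  set b : ℕ := (-k).toNat with hb
  have hk : k = (a : ℤ) - b := by omega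
  have hA := TddWt.of_modularForm A
  have hBw := TddWt.of_modularForm B
  have hf₁ : TddWt N (12 * ((a : ℤ) - b)) ((A : ℍ → ℂ) * (B : ℍ → ℂ) ^ 11) :=
    (hA.mul (hBw.pow 11)).of_eq (by rw [← hk]; push_cast; ring)
  have hf₂ : TddWt N (12 * ((a : ℤ) - b)) ((B : ℍ → ℂ) ^ 12) :=
    (hBw.pow 12).of_eq (by rw [← hk]; push_cast; ring)
  obtain ⟨hu₁, y₁, hy₁⟩ := tdd_wt_mem hf₁
  obtain ⟨hu₂, y₂, hy₂⟩ := tdd_wt_mem hf₂
  refine ⟨y₁ / y₂, ?_⟩
  have hcoe : ((y₁ / y₂ : KMod.anField ℂ N) : KMod.ModField ℂ N)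
      = (y₁ : KMod.ModField ℂ N) / (y₂ : KMod.ModField ℂ N) := rfl
  rw [hcoe, map_div₀, hy₁, hy₂]
  -- `B` is not the zero function
  have hB0 : (⟨B, B.holo'⟩ : holH) ≠ 0 := by
    intro h
    apply hB
    ext τ
    have := congrArg (fun x : holH => (x : ℍ → ℂ) τ) h
    exact this
  obtain ⟨τ₀, hτ₀⟩ : ∃ τ₀ : ℍ, B τ₀ ≠ 0 := by
    by_contra hcon
    push Not at hcon
    apply hB
    ext τ
    exact hcon τ
  have hu₂0 : (⟨fun τ : ℍ => ((B : ℍ → ℂ) ^ 12) τ * Δ τ ^ b / Δ τ ^ a, hu₂⟩ : holH) ≠ 0 := by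
    intro h
    have h1 := congrArg (fun x : holH => (x : ℍ → ℂ) τ₀) h
    have h2 : ((B : ℍ → ℂ) ^ 12) τ₀ * Δ τ₀ ^ b / Δ τ₀ ^ a ≠ 0 := by
      apply div_ne_zero
      · apply mul_ne_zero
        · rw [Pi.pow_apply]
          exact pow_ne_zero _ hτ₀
        · exact pow_ne_zero _ (discriminant_ne_zero τ₀)
      · exact pow_ne_zero _ (discriminant_ne_zero τ₀)
    exact h2 h1
  have hne₁ : tdmOfHol (⟨B, B.holo'⟩ : holH) ≠ 0 :=
    (map_ne_zero_iff _ tdmOfHol_injective).mpr hB0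
  have hne₂ : tdmOfHol
      (⟨fun τ : ℍ => ((B : ℍ → ℂ) ^ 12) τ * Δ τ ^ b / Δ τ ^ a, hu₂⟩ : holH) ≠ 0 :=
    (map_ne_zero_iff _ tdmOfHol_injective).mpr hu₂0
  rw [div_eq_div_iff hne₂ hne₁, ← map_mul, ← map_mul]
  congr 1
  apply Subtype.ext
  funext τ
  show (((A : ℍ → ℂ) * (B : ℍ → ℂ) ^ 11) τ * Δ τ ^ b / Δ τ ^ a) * B τ
    = A τ * (((B : ℍ → ℂ) ^ 12) τ * Δ τ ^ b / Δ τ ^ a)
  simp only [Pi.mul_apply, Pi.pow_apply]
  ring

end Fermat.Agent.T1
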