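/-
T1-D, leaf T1D-AUT (helper4), part 4: **`tdd_root_mem`** — a `Γ₀(N)`-invariant meromorphic function
`g` on `ℍ` with `g ^ m ∈ anField ℂ N` lies in `anField ℂ N`.  Write `g ^ m = a / b` with
`a, b ∈ modRing ℂ N` and `b` invariant under `SL(2, ℤ)` (`tdd_exists_invariant_denominator`: the
norm); then `G = g b` is holomorphic (`tdm_exists_hol_of_pow`), `Γ₀(N)`-invariant, and
`G ^ m = a b ^ (m - 1)` is Laurentable at every cusp, hence so is `G`
(`tdd_isBoundedAtImInfty_of_pow`); conclude with `tdd_hol_invariant_mem`.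
-/
import Mathlib
import Fermat.Agent.Lib.T1.Dict.AutoForm
import Fermat.Agent.Lib.T1.Mono.Cusp

set_option autoImplicit false
set_option linter.unusedSectionVars false
set_option linter.unusedVariables false
set_option linter.style.haveILetI false

namespace Fermat.Agent.T1

open Fermat.Agent.S24Lib
open UpperHalfPlane Matrix MatrixGroups CongruenceSubgroup ModularForm
open scoped Manifold
open Fermat.Agent.ES (IsQLaurentable qLaurent IsMeroAtImInfty)

local notation "Δ" => ModularForm.discriminant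

section Denominator

variable {K : Type*} [Field K]
variable {R : Type*} [CommRing R] [IsDomain R] [Algebra K R]
variable {L : Type*} [Field L] [Algebra R L] [IsFractionRing R L] [Algebra K L]
  [IsScalarTower K R L]
variable {Γ : Type*} [Group Γ] (act : Γ →* (R ≃ₐ[K] R))

/-- every element of the fraction field has an invariant denominator (the norm) -/
theorem tdd_exists_invariant_denominator (hfin : Finite act.range) (f : L) :
    ∃ p q : R, q ≠ 0 ∧ (∀ γ, act γ q = q) ∧ f = algebraMap R L p / algebraMap R L q := by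
  classical
  haveI : Fintype act.range := Fintype.ofFinite _
  obtain ⟨p, q, hq, rfl⟩ := IsFractionRing.div_surjective (A := R) f
  have hq0 : q ≠ 0 := nonZeroDivisors.ne_zero hq
  set Nq : R := ∏ g : act.range, (g : R ≃ₐ[K] R) q with hNq
  set c : R := ∏ g ∈ (Finset.univ.erase (1 : act.range)), (g : R ≃ₐ[K] R) q with hc
  have hsplit : Nq = q * c := by
    rw [hNq, hc, ← Finset.mul_prod_erase Finset.univ (fun g : act.range => (g : R ≃ₐ[K] R) q)
      (Finset.mem_univ 1)]
    simp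
  have hNq0 : Nq ≠ 0 := by
    rw [hNq, Finset.prod_ne_zero_iff]
    intro g _
    exact (EmbeddingLike.map_ne_zero_iff (f := (g : R ≃ₐ[K] R))).mpr hq0
  have hNinv : ∀ γ, act γ Nq = Nq := by
    intro γ
    rw [hNq, map_prod]
    refine Fintype.prod_equiv (Equiv.mulLeft (⟨act γ, γ, rfl⟩ : act.range)) _ _ (fun g => ?_)
    simp [AlgEquiv.mul_apply]
  refine ⟨p * c, Nq, hNq0, hNinv, ?_⟩
  have hqL : algebraMap R L q ≠ 0 := by simpa using hq0
  have hcL : algebraMap R L c ≠ 0 := by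
    have : c ≠ 0 := by
      intro h0
      rw [hsplit, h0, mul_zero] at hNq0
      exact hNq0 rfl
    simpa using this
  rw [hsplit, map_mul, map_mul]
  field_simp

end Denominator

theorem tdd_isBoundedAtImInfty_of_pow {f : ℍ → ℂ} {m : ℕ} (hm : 0 < m)
    (h : IsBoundedAtImInfty (fun τ => f τ ^ m)) : IsBoundedAtImInfty f := by
  rw [UpperHalfPlane.isBoundedAtImInfty_iff] at h ⊢
  obtain ⟨M, A, hMA⟩ := h
  refine ⟨max 1 M, A, fun z hz => ?_⟩
  have h1 := hMA z hz
  rw [norm_pow] at h1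
  by_cases hle : ‖f z‖ ≤ 1
  · exact hle.trans (le_max_left _ _)
  · push Not at hle
    have h2 : ‖f z‖ ≤ ‖f z‖ ^ m := le_self_pow₀ hle.le hm.ne'
    exact (h2.trans h1).trans (le_max_right _ _)

variable (N : ℕ) [NeZero N]

/-- **(3)**: a `Γ₀(N)`-invariant meromorphic function on `ℍ` an `m`-th power of which is a modular
function of level `N` is itself a modular function of level `N`. -/
theorem tdd_root_mem (g : tdmMer) (hg : ∀ γ ∈ Gamma0 N, tdmSL γ g = g) (m : ℕ) (hm : 0 < m)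
    (y : KMod.anField ℂ N) (hy : g ^ m = KMod.toMer ℂ N (y : KMod.ModField ℂ N)) :
    ∃ x : KMod.anField ℂ N, KMod.toMer ℂ N (x : KMod.ModField ℂ N) = g := by
  obtain ⟨a, b, hb0, hbinv, hyab⟩ := tdd_exists_invariant_denominator (L := KMod.ModField ℂ N)
    (KMod.modAct ℂ N) (KMod.finite_range_modAct ℂ N) (y : KMod.ModField ℂ N)
  set A : holH := KMod.modRingToHol ℂ N a with hA
  set B : holH := KMod.modRingToHol ℂ N b with hB
  have hB0 : B ≠ 0 := fun h => hb0 (KMod.modRingToHol_injective ℂ N (h.trans (map_zero _).symm))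
  have hBne : tdmOfHol B ≠ 0 := (map_ne_zero_iff _ tdmOfHol_injective).mpr hB0
  have hpow : g ^ m = tdmOfHol A / tdmOfHol B := by
    rw [hy, hyab, map_div₀, KMod.toMer_algebraMap, KMod.toMer_algebraMap]
  obtain ⟨G, hG⟩ := tdm_exists_hol_of_pow m hm g A B hB0 hpow
  -- `B` is invariant under `SL(2, ℤ)`
  have hBinv : ∀ (γ : SL(2, ℤ)) (τ : ℍ), (B : ℍ → ℂ) (γ • τ) = (B : ℍ → ℂ) τ := by
    intro γ τ
    have h1 : (KMod.modAct ℂ N γ⁻¹ b : ℍ → ℂ) τ = (b : ℍ → ℂ) τ := by rw [hbinv]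
    rw [KMod.modAct_apply_apply, inv_inv] at h1
    exact h1
  have hBSL : ∀ γ : SL(2, ℤ), tdmHolSL γ B = B := by
    intro γ
    apply Subtype.ext
    funext τ
    exact hBinv γ τ
  -- `G` is invariant under `Γ₀(N)`
  have hGeq : tdmOfHol G = g * tdmOfHol B := by
    rw [hG, div_mul_cancel₀ _ hBne]
  have hGinv : ∀ γ ∈ Gamma0 N, ∀ τ : ℍ, (G : ℍ → ℂ) (γ • τ) = (G : ℍ → ℂ) τ := by
    intro γ hγ τ
    have h1 : tdmOfHol (tdmHolSL γ G) = tdmOfHol G := by
      rw [← tdmSL_ofHol, hGeq, map_mul, hg γ hγ, tdmSL_ofHol, hBSL]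
    have h2 := tdmOfHol_injective h1
    have := congrArg (fun x : holH => (x : ℍ → ℂ) τ) h2
    exact this
  -- `G ^ m = A * B ^ (m - 1)`
  obtain ⟨k, rfl⟩ : ∃ k, m = k + 1 := ⟨m - 1, by omega⟩
  have hGpow : G ^ (k + 1) = A * B ^ k := by
    apply tdmOfHol_injective
    rw [map_pow, hGeq, mul_pow, hpow, map_mul, map_pow, pow_succ]
    field_simp
  have hGpow' : ∀ τ : ℍ, (G : ℍ → ℂ) τ ^ (k + 1) = ((a * b ^ k : KMod.modRing ℂ N) : ℍ → ℂ) τ := by
    intro τ
    have := congrArg (fun x : holH => (x : ℍ → ℂ) τ) hGpow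
    exact this
  -- `G` has a Laurent expansion at every cusp
  have hL : ∀ σ : SL(2, ℤ), IsQLaurentable N (fun τ => (G : ℍ → ℂ) (σ • τ)) := by
    intro σ
    have hG2 : MDiff (G : ℍ → ℂ) := G.2
    refine ⟨hG2.comp (mdifferentiable_smul (tdm_det_SL_pos σ)), fun τ => ?_, ?_⟩
    · exact tdd_periodic_of_invariant (u := (G : ℍ → ℂ)) hGinv σ τ
    · have hc : ((a * b ^ k : KMod.modRing ℂ N) : ℍ → ℂ) ∈ tddW N :=
        modRing_le_tddW (a * b ^ k : KMod.modRing ℂ N).2
      obtain ⟨n, hn⟩ := (hc σ).mero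
      refine ⟨n, ?_⟩
      apply tdd_isBoundedAtImInfty_of_pow (Nat.succ_pos k)
      have h1 := hn.mul (Fermat.Agent.ES.isBoundedAtImInfty_discriminant_pow (n * k))
      refine Fermat.Agent.ES.isBoundedAtImInfty_congr h1 (fun τ => ?_)
      simp only [Pi.mul_apply]
      rw [mul_pow, hGpow', mul_assoc, ← pow_mul, ← pow_add]
      congr 2
      rw [Nat.succ_eq_add_one]
      ring
  obtain ⟨x, hx⟩ := tdd_hol_invariant_mem N (G : ℍ → ℂ) G.2 hGinv hL
  -- `B` lies in `anField`
  have hBmem : tdmOfHol B ∈ tddAn N := by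
    have h1 := tddWToMer_mem_of_invariant N (tddOfModRing N b) (fun γ => by
      apply Subtype.ext
      have := congrArg (fun r : KMod.modRing ℂ N => (r : ℍ → ℂ)) (hbinv γ)
      exact this)
    rw [tddWToMer_ofModRing, KMod.toMer_algebraMap] at h1
    exact h1
  obtain ⟨xb, hxb⟩ := mem_tddAn.mp hBmem
  refine ⟨x / xb, ?_⟩
  have hcoe : ((x / xb : KMod.anField ℂ N) : KMod.ModField ℂ N)
      = (x : KMod.ModField ℂ N) / (xb : KMod.ModField ℂ N) := rfl
  rw [hcoe, map_div₀, hx, hxb, hG]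

end Fermat.Agent.T1
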