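/-
T1-D, leaf T1D-AUT (helper4), part 5: adapters to helper1's interface `TdmDictC` (Mono/PsiC.lean):
`tdd_automorphic_field`, `tdd_root_field` (the two extra fields, for `toMer := KMod.toMer ℂ N`) and
`tddDictC D hD : TdmDictC N` for any dictionary `D : TdmDict ℂ N` with `D.toMer = KMod.toMer ℂ N`.
-/
import Mathlib
import Fermat.Agent.Lib.T1.Dict.AutoRoot
import Fermat.Agent.Lib.T1.Mono.PsiC

set_option autoImplicit false
set_option linter.unusedSectionVars false
set_option linter.unusedVariables false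
set_option linter.style.haveILetI false

namespace Fermat.Agent.T1

open Fermat.Agent.S24Lib
open UpperHalfPlane Matrix MatrixGroups CongruenceSubgroup ModularForm

variable (N : ℕ) [NeZero N]

/-- `tdd_automorphic_mem` in the shape of the field `TdmDictC.automorphic` -/
theorem tdd_automorphic_field (k : ℤ) (A B : ModularForm (Gamma0 N) k) (hB : B ≠ 0) :
    ∃ X : KMod.ModField ℂ N, X ∈ KMod.anField ℂ N ∧
      KMod.toMer ℂ N X = tdmOfHol ⟨(A : ℍ → ℂ), A.holo'⟩ / tdmOfHol ⟨(B : ℍ → ℂ), B.holo'⟩ := by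
  obtain ⟨y, hy⟩ := tdd_automorphic_mem N k A B hB
  exact ⟨y, y.2, hy⟩

/-- `tdd_root_mem` in the shape of the field `TdmDictC.root_mem` -/
theorem tdd_root_field (g : tdmMer) (m : ℕ) (hm : m ≠ 0) (hg : tdmIsInv (Gamma0 N) g)
    (h : ∃ X : KMod.ModField ℂ N, X ∈ KMod.anField ℂ N ∧ KMod.toMer ℂ N X = g ^ m) :
    ∃ X : KMod.ModField ℂ N, X ∈ KMod.anField ℂ N ∧ KMod.toMer ℂ N X = g := by
  obtain ⟨X, hX, hXg⟩ := h
  obtain ⟨x, hx⟩ := tdd_root_mem N g (fun γ hγ => hg ⟨γ, hγ⟩) m (Nat.pos_of_ne_zero hm)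
    ⟨X, hX⟩ hXg.symm
  exact ⟨x, x.2, hx⟩

/-- the analytic dictionary over `ℂ` from a dictionary whose `toMer` is `KMod.toMer ℂ N` -/
noncomputable def tddDictC (D : TdmDict ℂ N) (hD : D.toMer = KMod.toMer ℂ N) : TdmDictC N where
  toTdmDict := D
  automorphic k A B hB := by
    rw [hD]
    exact tdd_automorphic_field N k A B hB
  root_mem g m hm hg h := by
    rw [hD] at h ⊢
    exact tdd_root_field N g m hm hg h

end Fermat.Agent.T1
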