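/-
T1-D (descent, part 1): base change of coefficients `𝕜 → ℂ` for the function field of `X₀(N)`:
the inclusion `ModField 𝕜 N → ModField ℂ N`, the coefficientwise map
`barField 𝕜 N → barField ℂ N`, and their compatibility with `toMer`, `modFieldQL` and `modIso`.
-/
import Mathlib
import Fermat.Agent.Lib.T1.Dict.ToMer
import Fermat.Agent.Lib.T1.Dict.KMod.Iso

set_option autoImplicit false
set_option linter.unusedSectionVars false
set_option linter.style.haveILetI false
set_option linter.unusedVariables false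

namespace Fermat.Agent.T1.KMod

open Fermat.Agent.S24Lib
open UpperHalfPlane Matrix MatrixGroups CongruenceSubgroup ModularCurve
attribute [local instance] charZero_k

variable (𝕜 : Type) [Field 𝕜] [IsAlgClosed 𝕜] [Algebra 𝕜 ℂ] [Algebra ℚ 𝕜] (N : ℕ) [NeZero N]

/-- `modRing 𝕜 N ⊆ modRing ℂ N` -/
theorem mem_modRing_complex {f : ℍ → ℂ} (hf : f ∈ modRing 𝕜 N) : f ∈ modRing ℂ N := by
  induction hf using Algebra.adjoin_induction with
  | mem x hx => exact Algebra.subset_adjoin hx
  | algebraMap c =>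
      have h : algebraMap 𝕜 (ℍ → ℂ) c = algebraMap ℂ (ℍ → ℂ) (algebraMap 𝕜 ℂ c) := by
        funext τ
        rfl
      rw [h]
      exact Subalgebra.algebraMap_mem _ _
  | add x y _ _ hx hy => exact add_mem hx hy
  | mul x y _ _ hx hy => exact mul_mem hx hy

/-- the inclusion `modRing 𝕜 N → modRing ℂ N` -/
noncomputable def modRingIncl : modRing 𝕜 N →+* modRing ℂ N :=
  ((modRing 𝕜 N).val : modRing 𝕜 N →+* (ℍ → ℂ)).codRestrict (modRing ℂ N)
    (fun f => mem_modRing_complex 𝕜 N f.2)

theorem coe_modRingIncl (f : modRing 𝕜 N) :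
    ((modRingIncl 𝕜 N f : modRing ℂ N) : ℍ → ℂ) = (f : ℍ → ℂ) :=
  (RingHom.codRestrict_apply _ _ _ f).trans (Subalgebra.val_apply _ f)

theorem modRingIncl_injective : Function.Injective (modRingIncl 𝕜 N) :=
  RingHom.injective_codRestrict.mpr Subtype.val_injective

theorem modFieldInclAux_injective :
    Function.Injective ((algebraMap (modRing ℂ N) (ModField ℂ N)).comp (modRingIncl 𝕜 N)) :=
  (IsFractionRing.injective (modRing ℂ N) (ModField ℂ N)).comp (modRingIncl_injective 𝕜 N)

/-- the inclusion `ModField 𝕜 N → ModField ℂ N` -/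
noncomputable def modFieldIncl : ModField 𝕜 N →+* ModField ℂ N :=
  IsFractionRing.lift (modFieldInclAux_injective 𝕜 N)

@[simp]
theorem modFieldIncl_algebraMap (r : modRing 𝕜 N) :
    modFieldIncl 𝕜 N (algebraMap (modRing 𝕜 N) (ModField 𝕜 N) r)
      = algebraMap (modRing ℂ N) (ModField ℂ N) (modRingIncl 𝕜 N r) :=
  IsFractionRing.lift_algebraMap _ _

/-- the inclusion commutes with `toMer` -/
theorem toMer_modFieldIncl (X : ModField 𝕜 N) :
    toMer ℂ N (modFieldIncl 𝕜 N X) = toMer 𝕜 N X := by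
  have h : (toMer ℂ N).comp (modFieldIncl 𝕜 N) = toMer 𝕜 N := by
    apply IsLocalization.ringHom_ext (nonZeroDivisors (modRing 𝕜 N))
    ext r
    simp only [RingHom.comp_apply]
    rw [modFieldIncl_algebraMap, toMer_algebraMap, toMer_algebraMap]
    have h1 : modRingToHol ℂ N (modRingIncl 𝕜 N r) = modRingToHol 𝕜 N r := Subtype.ext rfl
    rw [h1]
  exact RingHom.congr_fun h X

/-- the inclusion commutes with the `q_N`-expansions -/
theorem modFieldQL_modFieldIncl (X : ModField 𝕜 N) :
    modFieldQL ℂ N (modFieldIncl 𝕜 N X) = modFieldQL 𝕜 N X := by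
  have h : (modFieldQL ℂ N).comp (modFieldIncl 𝕜 N) = modFieldQL 𝕜 N := by
    apply IsLocalization.ringHom_ext (nonZeroDivisors (modRing 𝕜 N))
    ext r
    simp only [RingHom.comp_apply]
    rw [modFieldIncl_algebraMap, modFieldQL_algebraMap, modFieldQL_algebraMap, modRingQL_apply,
      modRingQL_apply, coe_modRingIncl]
  exact RingHom.congr_fun h X

/-! ### base change on the Prelude's model -/

theorem coeffMap_coeffEmb_complex (x : LaurentSeries ℚ) :
    coeffMap (algebraMap 𝕜 ℂ) (coeffEmb 𝕜 x) = coeffEmb ℂ x := by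
  rw [coeffEmb, coeffMap_coeffMap]
  exact coeffMap_congr (Subsingleton.elim _ _) x

theorem coeffMap_algebraMap_complex (c : 𝕜) :
    coeffMap (algebraMap 𝕜 ℂ) (algebraMap 𝕜 (LaurentSeries 𝕜) c)
      = algebraMap ℂ (LaurentSeries ℂ) (algebraMap 𝕜 ℂ c) := by
  rw [algebraMap_laurentSeries_eq_single, algebraMap_laurentSeries_eq_single, coeffMap_single]

theorem coeffMap_mem_barField {x : LaurentSeries 𝕜} (hx : x ∈ barField 𝕜 N) :
    coeffMap (algebraMap 𝕜 ℂ) x ∈ barField ℂ N := by
  rw [mem_laurentBaseChange_iff] at hx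
  induction hx using Subfield.closure_induction with
  | mem y hy =>
      rcases hy with ⟨a, rfl⟩ | ⟨z, hz, rfl⟩
      · rw [coeffMap_algebraMap_complex]
        exact (barField ℂ N).algebraMap_mem _
      · rw [coeffMap_coeffEmb_complex]
        exact coeffEmb_mem_laurentBaseChange ℂ hz
  | one => simp
  | add x y _ _ hx hy => simpa using add_mem hx hy
  | neg x _ hx => simpa using neg_mem hx
  | inv x _ hx => simpa using inv_mem hx
  | mul x y _ _ hx hy => simpa using mul_mem hx hy

/-- **base change of coefficients** `F_N(𝕜) → F_N(ℂ)` -/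
noncomputable def bcHom : barField 𝕜 N →+* barField ℂ N where
  toFun y := ⟨coeffMap (algebraMap 𝕜 ℂ) (y : LaurentSeries 𝕜), coeffMap_mem_barField 𝕜 N y.2⟩
  map_one' := Subtype.ext (map_one (coeffMap (algebraMap 𝕜 ℂ)))
  map_mul' x y := Subtype.ext (map_mul (coeffMap (algebraMap 𝕜 ℂ)) _ _)
  map_zero' := Subtype.ext (map_zero (coeffMap (algebraMap 𝕜 ℂ)))
  map_add' x y := Subtype.ext (map_add (coeffMap (algebraMap 𝕜 ℂ)) _ _)

theorem coe_bcHom (y : barField 𝕜 N) :
    ((bcHom 𝕜 N y : barField ℂ N) : LaurentSeries ℂ)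
      = coeffMap (algebraMap 𝕜 ℂ) (y : LaurentSeries 𝕜) := rfl

theorem bcHom_injective : Function.Injective (bcHom 𝕜 N) := RingHom.injective _

/-- base change is compatible with the isomorphisms to the analytic models -/
theorem modIso_bcHom (y : barField 𝕜 N) :
    ((modIso ℂ N (bcHom 𝕜 N y) : anField ℂ N) : ModField ℂ N)
      = modFieldIncl 𝕜 N ((modIso 𝕜 N y : anField 𝕜 N) : ModField 𝕜 N) := by
  apply modFieldQL_injective ℂ N
  rw [modFieldQL_modFieldIncl, modFieldQL_modIso, modFieldQL_modIso, coe_bcHom, coeffMap_coeffMap]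
  have h1 : (algebraMap ℂ ℂ).comp (algebraMap 𝕜 ℂ) = algebraMap 𝕜 ℂ := RingHom.ext fun _ => rfl
  rw [coeffMap_congr h1]

/-- **base change is compatible with `toMer`** -/
theorem toMer_modIso_bcHom (y : barField 𝕜 N) :
    toMer ℂ N ((modIso ℂ N (bcHom 𝕜 N y) : anField ℂ N) : ModField ℂ N)
      = toMer 𝕜 N ((modIso 𝕜 N y : anField 𝕜 N) : ModField 𝕜 N) := by
  rw [modIso_bcHom, toMer_modFieldIncl]

end Fermat.Agent.T1.KMod
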