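/-
T1-D descent leaf (e) (helper9): automorphisms of an algebraically closed field `Ω` over a subfield
`K` from automorphisms of the polynomial ring on a transcendence basis, and the finite-orbit lemma:
an element of `Ω` with finite `Aut(Ω/K)`-orbit lies in `K` (`K` algebraically closed, char. 0).
-/
import Mathlib

set_option autoImplicit false

namespace Fermat.Agent.T1

open MvPolynomial

section Extend

variable {K Ω : Type*} [Field K] [Field Ω] [Algebra K Ω] [IsAlgClosed Ω]

/-- **extension of automorphisms**: a `K`-automorphism `φ` of the polynomial ring on a transcendence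
basis `v` of `Ω / K` extends to a `K`-automorphism of the algebraically closed field `Ω` -/
theorem tdd_exists_algEquiv_of_mvPolynomial {ι : Type*} (v : ι → Ω)
    (hv : IsTranscendenceBasis K v) (φ : MvPolynomial ι K ≃ₐ[K] MvPolynomial ι K) :
    ∃ σ : Ω ≃ₐ[K] Ω, ∀ P : MvPolynomial ι K, σ (aeval v P) = aeval v (φ P) := by
  let _ := IsAlgClosed.isAlgClosure_of_transcendence_basis v hv
  let e : ↥(Algebra.adjoin K (Set.range v)) ≃ₐ[K] ↥(Algebra.adjoin K (Set.range v)) :=
    (hv.1.aevalEquiv.symm.trans φ).trans hv.1.aevalEquiv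
  let σ₀ : Ω ≃+* Ω := IsAlgClosure.equivOfEquiv Ω Ω e.toRingEquiv
  have hσ₀ : ∀ s : ↥(Algebra.adjoin K (Set.range v)),
      σ₀ (algebraMap _ Ω s) = algebraMap _ Ω (e s) := fun s =>
    IsAlgClosure.equivOfEquiv_algebraMap Ω Ω e.toRingEquiv s
  have hK : ∀ c : K, σ₀ (algebraMap K Ω c) = algebraMap K Ω c := by
    intro c
    have h1 : algebraMap K Ω c =
        algebraMap ↥(Algebra.adjoin K (Set.range v)) Ω (algebraMap K _ c) := rfl
    rw [h1, hσ₀, e.commutes]
  refine ⟨AlgEquiv.ofRingEquiv (f := σ₀) hK, fun P => ?_⟩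
  show σ₀ (aeval v P) = aeval v (φ P)
  rw [← hv.1.algebraMap_aevalEquiv, hσ₀, ← hv.1.algebraMap_aevalEquiv]
  congr 1
  show hv.1.aevalEquiv (φ (hv.1.aevalEquiv.symm (hv.1.aevalEquiv P))) = _
  rw [AlgEquiv.symm_apply_apply]

/-- permutations of a transcendence basis extend to automorphisms -/
theorem tdd_exists_algEquiv_of_perm {ι : Type*} (v : ι → Ω) (hv : IsTranscendenceBasis K v)
    (e : Equiv.Perm ι) : ∃ σ : Ω ≃ₐ[K] Ω, ∀ i, σ (v i) = v (e i) := by
  obtain ⟨σ, hσ⟩ := tdd_exists_algEquiv_of_mvPolynomial v hv (MvPolynomial.renameEquiv K e)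
  refine ⟨σ, fun i => ?_⟩
  have h := hσ (X i)
  rwa [aeval_X, MvPolynomial.renameEquiv_apply, rename_X, aeval_X] at h

/-- the shift `X i₀ ↦ X i₀ + c` of a polynomial ring -/
noncomputable def tddShift {ι : Type*} [DecidableEq ι] (i₀ : ι) (c : K) :
    MvPolynomial ι K →ₐ[K] MvPolynomial ι K :=
  aeval fun i => if i = i₀ then X i₀ + C c else X i

theorem tddShift_X_self {ι : Type*} [DecidableEq ι] (i₀ : ι) (c : K) :
    tddShift i₀ c (X i₀) = X i₀ + C c := by
  rw [tddShift, aeval_X, if_pos rfl]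

theorem tddShift_X_of_ne {ι : Type*} [DecidableEq ι] (i₀ : ι) (c : K) {i : ι} (hi : i ≠ i₀) :
    tddShift i₀ c (X i) = X i := by
  rw [tddShift, aeval_X, if_neg hi]

theorem tddShift_comp {ι : Type*} [DecidableEq ι] (i₀ : ι) (c d : K) :
    (tddShift i₀ c).comp (tddShift i₀ d) = tddShift (K := K) i₀ (c + d) := by
  apply MvPolynomial.algHom_ext
  intro i
  rw [AlgHom.comp_apply]
  by_cases hi : i = i₀
  · subst hi
    have hC : tddShift i c (C d) = C d := by
      rw [tddShift, aeval_C]
      rfl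
    rw [tddShift_X_self, tddShift_X_self, map_add, tddShift_X_self, hC, map_add]
    ring
  · rw [tddShift_X_of_ne i₀ d hi, tddShift_X_of_ne i₀ c hi, tddShift_X_of_ne i₀ (c + d) hi]

theorem tddShift_zero {ι : Type*} [DecidableEq ι] (i₀ : ι) :
    tddShift (K := K) i₀ 0 = AlgHom.id K _ := by
  apply MvPolynomial.algHom_ext
  intro i
  by_cases hi : i = i₀
  · subst hi
    rw [tddShift_X_self, map_zero, add_zero]
    rfl
  · rw [tddShift_X_of_ne i₀ 0 hi]
    rfl

/-- the shift as an automorphism -/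
noncomputable def tddShiftEquiv {ι : Type*} [DecidableEq ι] (i₀ : ι) (c : K) :
    MvPolynomial ι K ≃ₐ[K] MvPolynomial ι K :=
  AlgEquiv.ofAlgHom (tddShift i₀ c) (tddShift i₀ (-c))
    (by rw [tddShift_comp, add_neg_cancel, tddShift_zero])
    (by rw [tddShift_comp, neg_add_cancel, tddShift_zero])

/-- an element of a transcendence basis can be shifted by any constant -/
theorem tdd_exists_algEquiv_shift {ι : Type*} (v : ι → Ω) (hv : IsTranscendenceBasis K v)
    (i₀ : ι) (c : K) : ∃ σ : Ω ≃ₐ[K] Ω, σ (v i₀) = v i₀ + algebraMap K Ω c := by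
  classical
  obtain ⟨σ, hσ⟩ := tdd_exists_algEquiv_of_mvPolynomial v hv (tddShiftEquiv i₀ c)
  refine ⟨σ, ?_⟩
  have h := hσ (X i₀)
  have h2 : tddShiftEquiv i₀ c (X i₀ : MvPolynomial ι K) = X i₀ + C c := tddShift_X_self i₀ c
  rwa [aeval_X, h2, map_add, aeval_X, aeval_C] at h

end Extend

section Orbit

variable {K Ω : Type*} [Field K] [Field Ω] [Algebra K Ω]

/-- a transcendental element of an algebraically closed field can be moved to infinitely many
places by automorphisms (characteristic `0`) -/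
theorem tdd_exists_algEquiv_add_natCast [IsAlgClosed Ω] [CharZero K] {x : Ω}
    (hx : Transcendental K x) (n : ℕ) : ∃ σ : Ω ≃ₐ[K] Ω, σ x = x + n := by
  have hind : AlgebraicIndepOn K id ({x} : Set Ω) := by
    show AlgebraicIndependent K (fun i : ({x} : Set Ω) => id (i : Ω))
    rw [algebraicIndependent_singleton_iff (⟨x, rfl⟩ : ({x} : Set Ω))]
    exact hx
  obtain ⟨t, hxt, ht⟩ := exists_isTranscendenceBasis_superset hind
  obtain ⟨σ, hσ⟩ := tdd_exists_algEquiv_shift (K := K) ((↑) : t → Ω) ht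
    ⟨x, hxt rfl⟩ (n : K)
  exact ⟨σ, by simpa using hσ⟩

/-- **the finite-orbit lemma**: an element of `Ω` whose orbit under `Aut(Ω / K)` is finite lies in
`K` (`K`, `Ω` algebraically closed, characteristic `0`) -/
theorem tdd_mem_range_of_finite_orbit [IsAlgClosed K] [IsAlgClosed Ω] [CharZero K] (x : Ω)
    (h : (Set.range fun σ : Ω ≃ₐ[K] Ω => σ x).Finite) : x ∈ (algebraMap K Ω).range := by
  by_contra hx
  have htr : Transcendental K x := by
    intro halg
    have hint : IsIntegral K x := halg.isIntegral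
    exact hx (minpoly.mem_range_of_degree_eq_one K x
      (IsAlgClosed.degree_eq_one_of_irreducible K (minpoly.irreducible hint)))
  have : CharZero Ω := charZero_of_injective_algebraMap (algebraMap K Ω).injective
  have hinj : Function.Injective fun n : ℕ => x + (n : Ω) := by
    intro a b hab
    have : (a : Ω) = b := add_left_cancel hab
    exact_mod_cast this
  have hsub : (Set.range fun n : ℕ => x + (n : Ω)) ⊆ Set.range fun σ : Ω ≃ₐ[K] Ω => σ x := by
    rintro _ ⟨n, rfl⟩
    obtain ⟨σ, hσ⟩ := tdd_exists_algEquiv_add_natCast htr n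
    exact ⟨σ, hσ⟩
  exact (Set.infinite_range_of_injective hinj) (h.subset hsub)

end Orbit

end Fermat.Agent.T1
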