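/-
T1-D (descent, part 2): linear algebra in Laurent series: a finite dimensional space of Laurent
series contains a nonzero vector which is fixed by every coefficientwise ring endomorphism
stabilising the space; series with coefficients in the range of a ring homomorphism.
-/
import Mathlib
import Fermat.Prelude.Def_ModularCurve_LaurentCoeff

set_option autoImplicit false
set_option linter.unusedSectionVars false
set_option linter.unusedVariables false

namespace Fermat.Agent.T1

open ModularCurve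

/-- the orders of the nonzero elements of a finite dimensional space of Laurent series are bounded
above -/
theorem tdd_exists_order_bound {k : Type*} [Field k] (W : Submodule k (LaurentSeries k))
    [FiniteDimensional k W] : ∃ n₁ : ℤ, ∀ w ∈ W, w ≠ 0 → w.order < n₁ := by
  classical
  let Wk : ℕ → Submodule k W := fun n =>
    { carrier := {w | ∀ i : ℤ, i < n → (w : LaurentSeries k).coeff i = 0}
      zero_mem' := by
        intro i _
        simp
      add_mem' := by
        intro a b ha hb i hi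
        have h1 := ha i hi
        have h2 := hb i hi
        simp [h1, h2]
      smul_mem' := by
        intro c a ha i hi
        have h1 := ha i hi
        simp [h1] }
  have hanti : ∀ a b : ℕ, a ≤ b → Wk b ≤ Wk a := by
    intro a b hab w hw i hi
    exact hw i (lt_of_lt_of_le hi (by exact_mod_cast hab))
  let f : ℕ →o (Submodule k W)ᵒᵈ :=
    ⟨fun n => OrderDual.toDual (Wk n), fun a b hab => hanti a b hab⟩
  obtain ⟨n₁, hn₁⟩ := IsArtinian.monotone_stabilizes f
  refine ⟨n₁, fun w hw hw0 => ?_⟩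
  by_contra hlt
  rw [not_lt] at hlt
  have hmem : ∀ n : ℕ, n₁ ≤ n → (⟨w, hw⟩ : W) ∈ Wk n := by
    intro n hn
    have h1 : Wk n₁ = Wk n := congrArg OrderDual.ofDual (hn₁ n hn)
    rw [← h1]
    intro i hi
    exact HahnSeries.coeff_eq_zero_of_lt_order (lt_of_lt_of_le hi hlt)
  apply hw0
  ext i
  have h2 := hmem (max n₁ (i.toNat + 1)) (le_max_left _ _) i (by
    have h3 : i ≤ (i.toNat : ℤ) := Int.self_le_toNat i
    have h4 : ((i.toNat + 1 : ℕ) : ℤ) ≤ ((max n₁ (i.toNat + 1) : ℕ) : ℤ) := by
      exact_mod_cast le_max_right _ _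
    push_cast at h4 ⊢
    omega)
  simpa using h2

/-- **the fixed vector**: a nonzero finite dimensional space of Laurent series contains a nonzero
vector fixed by all coefficientwise endomorphisms stabilising the space -/
theorem tdd_exists_fixed_vector {k : Type*} [Field k] (W : Submodule k (LaurentSeries k))
    [FiniteDimensional k W] (hW : W ≠ ⊥) :
    ∃ w ∈ W, w ≠ 0 ∧ ∀ φ : k →+* k, (∀ w' ∈ W, coeffMap φ w' ∈ W) → coeffMap φ w = w := by
  classical
  obtain ⟨n₁, hn₁⟩ := tdd_exists_order_bound W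
  obtain ⟨w₁, hw₁, hw₁0⟩ := (Submodule.ne_bot_iff _).mp hW
  obtain ⟨n₀, ⟨w, hw, hw0, hwn⟩, hmax⟩ := Int.exists_greatest_of_bdd
    (P := fun n : ℤ => ∃ w ∈ W, w ≠ 0 ∧ w.order = n)
    ⟨n₁, fun n ⟨w, hw, hw0, hwn⟩ => hwn ▸ (hn₁ w hw hw0).le⟩ ⟨_, w₁, hw₁, hw₁0, rfl⟩
  have hc : w.coeff n₀ ≠ 0 := by
    rw [← hwn]
    exact fun h => hw0 (HahnSeries.coeff_order_eq_zero.mp h)
  set w₀ : LaurentSeries k := (w.coeff n₀)⁻¹ • w with hw₀
  have hw₀W : w₀ ∈ W := W.smul_mem _ hw
  have hw₀n : w₀.coeff n₀ = 1 := by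
    rw [hw₀, HahnSeries.coeff_smul, smul_eq_mul, inv_mul_cancel₀ hc]
  have hw₀lt : ∀ i : ℤ, i < n₀ → w₀.coeff i = 0 := by
    intro i hi
    have h1 : w.coeff i = 0 := HahnSeries.coeff_eq_zero_of_lt_order (by rw [hwn]; exact hi)
    rw [hw₀, HahnSeries.coeff_smul, h1, smul_zero]
  have hw₀0 : w₀ ≠ 0 := by
    intro h
    rw [h] at hw₀n
    simp at hw₀n
  refine ⟨w₀, hw₀W, hw₀0, fun φ hφ => ?_⟩
  by_contra hne
  set d : LaurentSeries k := coeffMap φ w₀ - w₀ with hd
  have hd0 : d ≠ 0 := sub_ne_zero.mpr hne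
  have hdW : d ∈ W := W.sub_mem (hφ w₀ hw₀W) hw₀W
  have hdle : ∀ i : ℤ, i ≤ n₀ → d.coeff i = 0 := by
    intro i hi
    rw [hd, HahnSeries.coeff_sub, coeffMap_coeff]
    rcases lt_or_eq_of_le hi with h | h
    · rw [hw₀lt i h, map_zero, sub_zero]
    · rw [h, hw₀n, map_one, sub_self]
  have hlt : n₀ < d.order := by
    by_contra h
    rw [not_lt] at h
    exact hd0 (HahnSeries.coeff_order_eq_zero.mp (hdle _ h))
  have := hmax d.order ⟨d, hdW, hd0, rfl⟩
  omega

/-- a Laurent series all of whose coefficients are in the range of `ι` is in the range of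
`coeffMap ι` -/
theorem tdd_mem_range_coeffMap {K Ω : Type*} [Field K] [Field Ω] (ι : K →+* Ω)
    (w : LaurentSeries Ω) (h : ∀ n, w.coeff n ∈ ι.range) :
    ∃ w' : LaurentSeries K, coeffMap ι w' = w := by
  classical
  choose c hc using h
  have hsupp : Function.support c ⊆ w.support := by
    intro n hn
    rw [Function.mem_support] at hn
    rw [HahnSeries.mem_support]
    intro h0
    apply hn
    apply ι.injective
    rw [hc n, h0, map_zero]
  refine ⟨⟨c, w.isPWO_support.mono hsupp⟩, ?_⟩
  ext n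
  rw [coeffMap_coeff]
  exact hc n

/-- the coefficients of `coeffMap ι w'` are in the range of `ι` -/
theorem tdd_coeff_coeffMap_mem {K Ω : Type*} [Field K] [Field Ω] (ι : K →+* Ω)
    (w' : LaurentSeries K) (n : ℤ) : (coeffMap ι w').coeff n ∈ ι.range :=
  ⟨w'.coeff n, rfl⟩

/-- powers of series with coefficients in the range of `ι` have coefficients in the range of
`ι` -/
theorem tdd_coeff_pow_mem {K Ω : Type*} [Field K] [Field Ω] (ι : K →+* Ω)
    (w : LaurentSeries Ω) (h : ∀ n, w.coeff n ∈ ι.range) (m : ℕ) (n : ℤ) :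
    (w ^ m).coeff n ∈ ι.range := by
  obtain ⟨w', rfl⟩ := tdd_mem_range_coeffMap ι w h
  rw [← map_pow]
  exact tdd_coeff_coeffMap_mem ι _ n

end Fermat.Agent.T1
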