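/-
T1-D (D-a): the analytic meaning of the order of the `q_N`-expansion at the cusps:
`X = A / B` with `A, B` holomorphic, `B` nonvanishing for `Im τ > C`, and
`A τ / B τ * exp (-2πi (ord/N) τ)` tends to a nonzero limit at `i∞`  (`tdd_cusp_analytic`).
-/
import Mathlib
import Fermat.Agent.Lib.T1.Dict.ToMer
import Fermat.Agent.Lib.T1.Dict.KMod.Iso

set_option autoImplicit false
set_option linter.unusedSectionVars false
set_option linter.style.haveILetI false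
set_option linter.unusedVariables false

namespace Fermat.Agent.T1

open Fermat.Agent.S24Lib
open UpperHalfPlane Matrix MatrixGroups CongruenceSubgroup Filter Topology Complex
open Fermat.Agent.ES (IsQLaurentable qLaurent IsNice qH)
open scoped Real Manifold

/-- leading term of a holomorphic periodic function bounded at `i∞` -/
theorem tdd_tendsto_nice {h : ℝ} (hh : 0 < h) {F : ℍ → ℂ} (hF : IsNice h F) (d : ℕ)
    (hlt : ∀ k < d, (qExpansion h F).coeff k = 0) (hd : (qExpansion h F).coeff d ≠ 0) :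
    ∃ w₀ : ℂ, w₀ ≠ 0 ∧ Tendsto (fun τ : ℍ => F τ / (qH h τ) ^ d) atImInfty (𝓝 w₀) := by
  have han : AnalyticAt ℂ (cuspFunction h F) 0 := hF.analyticAt hh
  have hord : analyticOrderAt (cuspFunction h F) 0 = d := by
    rw [analyticOrderAt_eq_nat_iff_iteratedDeriv_eq_zero han]
    constructor
    · intro k hk
      have := hlt k hk
      rw [qExpansion_coeff] at this
      rcases mul_eq_zero.mp this with h0 | h0
      · exact absurd h0 (inv_ne_zero (by exact_mod_cast (Nat.factorial_ne_zero k)))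
      · exact h0
    · intro h0
      apply hd
      rw [qExpansion_coeff, h0, mul_zero]
  obtain ⟨g, hg, hg0, hev⟩ := han.analyticOrderAt_eq_natCast.mp hord
  refine ⟨g 0, hg0, ?_⟩
  have hq : Tendsto (fun τ : ℍ => qH h τ) atImInfty (𝓝 0) := qParam_tendsto_atImInfty hh
  have h1 : Tendsto (fun τ : ℍ => g (qH h τ)) atImInfty (𝓝 (g 0)) :=
    hg.continuousAt.tendsto.comp hq
  refine h1.congr' ?_
  have hev' := hq.eventually hev
  filter_upwards [hev'] with τ hτ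
  have hper := hF.periodic'
  have h2 : cuspFunction h F (qH h τ) = F τ := eq_cuspFunction τ hh.ne' hper
  rw [← h2, hτ, sub_zero, smul_eq_mul]
  have hne : (qH h τ) ^ d ≠ 0 := pow_ne_zero _ (Fermat.Agent.ES.qH_ne_zero h τ)
  field_simp

theorem tdd_qH_zpow (N : ℕ) [NeZero N] (k : ℤ) (τ : ℍ) :
    (qH (N : ℝ) τ) ^ k = cexp (2 * π * Complex.I * (((k : ℝ) / N : ℝ) : ℂ) * τ) := by
  have hN : (N : ℂ) ≠ 0 := by exact_mod_cast NeZero.ne N
  rw [qH, Function.Periodic.qParam, ← Complex.exp_int_mul]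
  congr 1
  push_cast
  field_simp

/-- leading term of a `q_N`-Laurentable function -/
theorem tdd_tendsto_qLaurentable (N : ℕ) [NeZero N] {r : ℍ → ℂ} (hr : IsQLaurentable N r)
    (hr0 : r ≠ 0) :
    ∃ w₀ : ℂ, w₀ ≠ 0 ∧
      Tendsto (fun τ : ℍ => r τ * (qH (N : ℝ) τ) ^ (-(qLaurent N r).order)) atImInfty (𝓝 w₀) := by
  have hh : (0 : ℝ) < N := Fermat.Agent.ES.pos_of_neZero N
  obtain ⟨K, hK⟩ := hr.exists_bdd
  have hnice := hr.isNice hK
  set L := qLaurent N r with hL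
  have hL0 : L ≠ 0 := (Fermat.Agent.ES.qLaurent_eq_zero_iff hr).not.mpr hr0
  set k := L.order with hk
  have hcoef : ∀ n : ℕ, L.coeff ((n : ℤ) - K)
      = (qExpansion N (fun z => r z * qH N z ^ K)).coeff n :=
    fun n => Fermat.Agent.ES.qLaurent_coeff_natCast_sub hr hK n
  have hkK : 0 ≤ k + K := by
    by_contra hneg
    push Not at hneg
    have := Fermat.Agent.ES.qLaurent_coeff_eq_zero_of_lt hr hK hneg
    exact hL0 (HahnSeries.coeff_order_eq_zero.mp this)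
  obtain ⟨d, hd⟩ := Int.eq_ofNat_of_zero_le hkK
  have hdk : (d : ℤ) - K = k := by omega
  obtain ⟨w₀, hw₀, hlim⟩ := tdd_tendsto_nice hh hnice d
    (fun n hn => by
      rw [← hcoef]
      apply HahnSeries.coeff_eq_zero_of_lt_order
      have : (n : ℤ) < d := by exact_mod_cast hn
      omega)
    (by
      rw [← hcoef, hdk]
      exact fun h0 => hL0 (HahnSeries.coeff_order_eq_zero.mp h0))
  refine ⟨w₀, hw₀, hlim.congr (fun τ => ?_)⟩
  have hq0 : qH (N : ℝ) τ ≠ 0 := Fermat.Agent.ES.qH_ne_zero _ τ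
  have e1 : (qH (N : ℝ) τ) ^ (-k) = (qH (N : ℝ) τ) ^ K / (qH (N : ℝ) τ) ^ d := by
    rw [← zpow_natCast (qH (N : ℝ) τ) K, ← zpow_natCast (qH (N : ℝ) τ) d, ← zpow_sub₀ hq0]
    congr 1
    omega
  rw [e1]
  ring

namespace KMod

attribute [local instance] charZero_k
variable (𝕜 : Type) [Field 𝕜] [IsAlgClosed 𝕜] [Algebra 𝕜 ℂ] (N : ℕ) [NeZero N]

/-- leading term at `i∞` of an element of `modRing 𝕜 N` -/
theorem tendsto_modRing {r : modRing 𝕜 N} (hr : r ≠ 0) :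
    ∃ w₀ : ℂ, w₀ ≠ 0 ∧
      Tendsto (fun τ : ℍ => (r : ℍ → ℂ) τ * (qH (N : ℝ) τ) ^ (-(modRingQL 𝕜 N r).order))
        atImInfty (𝓝 w₀) := by
  have h1 : IsQLaurentable N (r : ℍ → ℂ) := (modRing_props 𝕜 N r.2).1
  have h2 : (r : ℍ → ℂ) ≠ 0 := by
    intro h0
    exact hr (Subtype.ext h0)
  exact tdd_tendsto_qLaurentable N h1 h2

/-- **analytic meaning of the order at a cusp** (in the shape consumed by `tdm_mult_of_cusp`) -/
theorem _root_.Fermat.Agent.T1.tdd_cusp_analytic (X : ModField 𝕜 N) (hX : X ≠ 0) :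
    ∃ (A B : holH) (C : ℝ) (w₀ : ℂ), w₀ ≠ 0 ∧ toMer 𝕜 N X = tdmOfHol A / tdmOfHol B ∧
      (∀ τ : ℍ, C < τ.im → (B : ℍ → ℂ) τ ≠ 0) ∧
      Tendsto (fun τ : ℍ => (A : ℍ → ℂ) τ / (B : ℍ → ℂ) τ *
        cexp (-(2 * π * Complex.I * ((((modFieldQL 𝕜 N X).order : ℝ) / N : ℝ) : ℂ) * τ)))
        atImInfty (𝓝 w₀) := by
  obtain ⟨a, b, hb, rfl⟩ := IsFractionRing.div_surjective (A := modRing 𝕜 N) X
  have hb0 : b ≠ 0 := nonZeroDivisors.ne_zero hb
  have ha0 : a ≠ 0 := by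
    rintro rfl
    apply hX
    rw [map_zero, zero_div]
  obtain ⟨wa, hwa, hla⟩ := tendsto_modRing 𝕜 N ha0
  obtain ⟨wb, hwb, hlb⟩ := tendsto_modRing 𝕜 N hb0
  have hqa : modRingQL 𝕜 N a ≠ 0 := (modRingQL_eq_zero_iff 𝕜 N).not.mpr ha0
  have hqb : modRingQL 𝕜 N b ≠ 0 := (modRingQL_eq_zero_iff 𝕜 N).not.mpr hb0
  have hord : (modFieldQL 𝕜 N (algebraMap (modRing 𝕜 N) (ModField 𝕜 N) a /
      algebraMap (modRing 𝕜 N) (ModField 𝕜 N) b)).order
      = (modRingQL 𝕜 N a).order - (modRingQL 𝕜 N b).order := by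
    rw [map_div₀, modFieldQL_algebraMap 𝕜, modFieldQL_algebraMap 𝕜]
    have hq : modRingQL 𝕜 N a / modRingQL 𝕜 N b ≠ 0 := div_ne_zero hqa hqb
    have h1 : (modRingQL 𝕜 N a).order
        = (modRingQL 𝕜 N a / modRingQL 𝕜 N b).order + (modRingQL 𝕜 N b).order := by
      rw [← HahnSeries.order_mul hq hqb, div_mul_cancel₀ _ hqb]
    omega
  -- `b` does not vanish high up
  have hbne : ∀ᶠ τ in atImInfty, (b : ℍ → ℂ) τ ≠ 0 := by
    have := hlb.eventually_ne hwb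
    filter_upwards [this] with τ hτ h0
    apply hτ
    rw [h0, zero_mul]
  obtain ⟨C, hC⟩ := (atImInfty_mem _).mp hbne
  refine ⟨modRingToHol 𝕜 N a, modRingToHol 𝕜 N b, C, wa / wb, div_ne_zero hwa hwb, ?_,
    fun τ hτ => hC τ hτ.le, ?_⟩
  · rw [map_div₀, toMer_algebraMap, toMer_algebraMap]
  · refine (hla.div hlb hwb).congr (fun τ => ?_)
    rw [hord]
    have hq0 : qH (N : ℝ) τ ≠ 0 := Fermat.Agent.ES.qH_ne_zero _ τ
    have e1 : cexp (-(2 * π * Complex.I * (((((modRingQL 𝕜 N a).order - (modRingQL 𝕜 N b).order : ℤ) : ℝ)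
        / N : ℝ) : ℂ) * τ))
        = (qH (N : ℝ) τ) ^ (-((modRingQL 𝕜 N a).order - (modRingQL 𝕜 N b).order)) := by
      rw [tdd_qH_zpow]
      congr 1
      push_cast
      ring
    rw [e1]
    show (a : ℍ → ℂ) τ * (qH (N : ℝ) τ) ^ (-(modRingQL 𝕜 N a).order)
        / ((b : ℍ → ℂ) τ * (qH (N : ℝ) τ) ^ (-(modRingQL 𝕜 N b).order))
      = (a : ℍ → ℂ) τ / (b : ℍ → ℂ) τ * _
    rw [neg_sub, zpow_sub₀ hq0, _root_.zpow_neg, _root_.zpow_neg]
    have h3 : (qH (N : ℝ) τ) ^ (modRingQL 𝕜 N a).order ≠ 0 := zpow_ne_zero _ hq0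
    have h4 : (qH (N : ℝ) τ) ^ (modRingQL 𝕜 N b).order ≠ 0 := zpow_ne_zero _ hq0
    field_simp

end KMod

end Fermat.Agent.T1
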