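/-
T1-D (D-a): the analytic order at a point `τ` of `ℍ` versus the order at the place `pointPlace τ` of
`ModField 𝕜 N` and at the place of `F_N` below it.
-/
import Mathlib
import Fermat.Agent.Lib.T1.Dict.ToMer
import Fermat.Agent.Lib.T1.Dict.CuspDvd

set_option autoImplicit false
set_option linter.unusedSectionVars false
set_option linter.style.haveILetI false
set_option linter.unusedVariables false

namespace Fermat.Agent.T1.KMod

open Fermat.Agent.S24Lib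
open UpperHalfPlane Matrix MatrixGroups CongruenceSubgroup WithZero ModularGroup
open AlgebraicCurve Fermat.Agent.Curve Fermat.Agent.Curve.GaloisAux Fermat.Agent.Curve.PlaceAux
attribute [local instance] charZero_k
variable (𝕜 : Type) [Field 𝕜] [IsAlgClosed 𝕜] [Algebra 𝕜 ℂ] [Algebra ℚ 𝕜] (N : ℕ) [NeZero N]

theorem tdmOrdVal_eq_exp (τ : ℍ) {y : tdmMer} (hy : y ≠ 0) :
    tdmOrdVal τ y = exp (-(tdmOrd τ y)) := by
  rw [tdmOrd, neg_neg, exp_log (tdmOrdVal_ne_zero τ hy)]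

theorem tdmOrdVal_SL (γ : SL(2, ℤ)) (τ : ℍ) (y : tdmMer) :
    tdmOrdVal τ (tdmSL γ y) = tdmOrdVal (γ • τ) y := by
  by_cases hy : y = 0
  · rw [hy, map_zero, map_zero, map_zero]
  have hy' : tdmSL γ y ≠ 0 := (map_ne_zero_iff _ (tdmSL γ).injective).mpr hy
  rw [tdmOrdVal_eq_exp τ hy', tdmOrdVal_eq_exp _ hy, tdmOrd_SL]

theorem mem_pointPlace_iff (τ₀ : ℍ) (a : 𝕜) (ha : (algebraMap 𝕜 ℂ) a = jFun τ₀)
    (x : ModField 𝕜 N) :
    x ∈ (pointPlace 𝕜 N τ₀ a ha).toValuationSubring ↔ tdmOrdVal τ₀ (toMer 𝕜 N x) ≤ 1 := by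
  rw [tdmOrdVal_toMer]
  exact mem_fracPlace_iff _ _ _ _ _ _ _

/-- `modRep γ` moves the place at `τ₀` to the place at `γ τ₀` -/
theorem smul_pointPlace (γ : SL(2, ℤ)) (τ₀ : ℍ) (a : 𝕜) (ha : (algebraMap 𝕜 ℂ) a = jFun τ₀)
    (ha' : (algebraMap 𝕜 ℂ) a = jFun (γ • τ₀)) :
    modRep 𝕜 N γ • pointPlace 𝕜 N τ₀ a ha = pointPlace 𝕜 N (γ • τ₀) a ha' := by
  apply Place.ext
  ext x
  rw [Place.smul_toValuationSubring, ValuationSubring.mem_pointwise_smul_iff_inv_smul_mem,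
    mem_pointPlace_iff, mem_pointPlace_iff]
  have h1 : (modRep 𝕜 N γ)⁻¹ • x = modRep 𝕜 N γ⁻¹ x := by
    rw [map_inv]
    rfl
  rw [h1, toMer_modRep, inv_inv, tdmOrdVal_SL]

theorem finiteDimensional_adjoin_jL :
    FiniteDimensional (IntermediateField.adjoin 𝕜 {jL 𝕜 N}) (ModField 𝕜 N) := by
  rw [← fixedField_modRep 𝕜 N]
  haveI := finite_range_modRep 𝕜 N
  exact finiteDimensional_fixedField _

theorem isFunctionFieldGen_jL : IsFunctionFieldGen 𝕜 (ModField 𝕜 N) (jL 𝕜 N) :=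
  ⟨transcendental_jL 𝕜 N, finiteDimensional_adjoin_jL 𝕜 N⟩

/-- the analytic order at `τ₀` is a positive multiple of the order at `pointPlace τ₀` -/
theorem exists_tdmOrd_eq_mul_pointPlace (τ₀ : ℍ) (a : 𝕜) (ha : (algebraMap 𝕜 ℂ) a = jFun τ₀) :
    ∃ M : ℕ, 0 < M ∧ ∀ x : ModField 𝕜 N,
      tdmOrd τ₀ (toMer 𝕜 N x) = (M : ℤ) * (pointPlace 𝕜 N τ₀ a ha).ord x := by
  obtain ⟨M, hM, h⟩ := placeOfValuation_ord
    (fracValuation (L := ModField 𝕜 N) (pointValuation 𝕜 N τ₀) (pointValuation_eq_zero 𝕜 N τ₀))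
    (fracValuation_algebraMap_le_one _ _ (pointValuation_algebraMap_le_one 𝕜 N τ₀))
    ⟨algebraMap (modRing 𝕜 N) (ModField 𝕜 N) (jSubR 𝕜 N a), by
        simpa using jSubR_ne_zero 𝕜 N a, by
        rw [fracValuation_algebraMap]; exact (pointValuation_jSubR_lt_one 𝕜 N τ₀ a ha).ne⟩
  have hP : placeOfValuation
      (fracValuation (L := ModField 𝕜 N) (pointValuation 𝕜 N τ₀) (pointValuation_eq_zero 𝕜 N τ₀))
      (fracValuation_algebraMap_le_one _ _ (pointValuation_algebraMap_le_one 𝕜 N τ₀))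
      ⟨algebraMap (modRing 𝕜 N) (ModField 𝕜 N) (jSubR 𝕜 N a), by
          simpa using jSubR_ne_zero 𝕜 N a, by
          rw [fracValuation_algebraMap]; exact (pointValuation_jSubR_lt_one 𝕜 N τ₀ a ha).ne⟩
      = pointPlace 𝕜 N τ₀ a ha := rfl
  rw [hP] at h
  refine ⟨M, hM, fun x => ?_⟩
  by_cases hx : x = 0
  · rw [hx, map_zero, tdmOrd_zero, Place.ord_zero, mul_zero]
  have h1 := h x hx
  rw [← tdmOrdVal_toMer, tdmOrdVal_eq_exp τ₀ (toMer_ne_zero 𝕜 N hx)] at h1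
  have := exp_injective h1
  omega

/-- the analytic order at `τ₀` of the elements of `F_N` is a positive multiple of the order at the
place of `F_N` below `pointPlace τ₀` -/
theorem exists_tdmOrd_eq_mul_barPlace (τ₀ : ℍ) (a : 𝕜) (ha : (algebraMap 𝕜 ℂ) a = jFun τ₀) :
    ∃ E : ℕ, 0 < E ∧ ∀ y : barField 𝕜 N,
      tdmOrd τ₀ (toMer 𝕜 N ((modIso 𝕜 N y : anField 𝕜 N) : ModField 𝕜 N))
        = (E : ℤ) * (barPlace 𝕜 N (pointPlace 𝕜 N τ₀ a ha)).ord y := by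
  obtain ⟨M, hM, h1⟩ := exists_tdmOrd_eq_mul_pointPlace 𝕜 N τ₀ a ha
  obtain ⟨e, he, h2⟩ := exists_ord_barPlace 𝕜 N (pointPlace 𝕜 N τ₀ a ha)
  refine ⟨M * e, Nat.mul_pos hM he, fun y => ?_⟩
  rw [h1, h2]
  push_cast
  ring

end Fermat.Agent.T1.KMod
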