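/-
T1-D (D-a): the dictionary, direction "places ⇒ points and cusps":
if all place orders of `y ∈ F_N` are divisible by `m`, then at every point of `ℍ` and at every cusp the
analytic order of `y` is `m` times the order of a `Γ₀(N)`-invariant function.
-/
import Mathlib
import Fermat.Agent.Lib.T1.Dict.PointOrd
import Fermat.Agent.Lib.T1.Dict.CuspAnalytic
import Fermat.Agent.Lib.T1.Mono.Local
import Fermat.Agent.Lib.T1.Mono.Cusp

set_option autoImplicit false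
set_option linter.unusedSectionVars false
set_option linter.style.haveILetI false
set_option linter.unusedVariables false

namespace Fermat.Agent.T1.KMod

open Fermat.Agent.S24Lib
open UpperHalfPlane Matrix MatrixGroups CongruenceSubgroup WithZero ModularGroup
open AlgebraicCurve Fermat.Agent.Curve Fermat.Agent.Curve.GaloisAux Fermat.Agent.Curve.PlaceAux
attribute [local instance] charZero_k
variable (𝕜 : Type) [Field 𝕜] [IsAlgClosed 𝕜] [Algebra 𝕜 ℂ] [Algebra ℚ 𝕜] (N : ℕ) [NeZero N]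

/-- the element of the analytic model attached to a function of `F_N` -/
noncomputable def mdF (y : barField 𝕜 N) : ModField 𝕜 N :=
  ((modIso 𝕜 N y : anField 𝕜 N) : ModField 𝕜 N)

theorem mdF_ne_zero {y : barField 𝕜 N} (hy : y ≠ 0) : mdF 𝕜 N y ≠ 0 := by
  intro h
  apply hy
  have h1 : (modIso 𝕜 N y : anField 𝕜 N) = 0 := Subtype.ext h
  exact (modIso 𝕜 N).injective (h1.trans (map_zero _).symm)

theorem mdF_fixed (y : barField 𝕜 N) {γ : SL(2, ℤ)} (hγ : γ ∈ Gamma0 N) :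
    modRep 𝕜 N γ (mdF 𝕜 N y) = mdF 𝕜 N y := by
  have h2 : mdF 𝕜 N y ∈ anField 𝕜 N := SetLike.coe_mem _
  rw [anField_eq_fixedField] at h2
  exact h2 ⟨modRep 𝕜 N γ, γ, hγ, rfl⟩

theorem mdF_zpow (y : barField 𝕜 N) (k : ℤ) : mdF 𝕜 N (y ^ k) = mdF 𝕜 N y ^ k := by
  unfold mdF
  rw [map_zpow₀]
  rfl

/-- at a point `τ₀` whose `j`-invariant is not in `𝕜`, no modular function with coefficients in `𝕜`
has a zero or a pole -/
theorem tdmOrd_toMer_eq_zero_of_forall_ne (τ₀ : ℍ) (h : ∀ a : 𝕜, (algebraMap 𝕜 ℂ) a ≠ jFun τ₀)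
    (x : ModField 𝕜 N) : tdmOrd τ₀ (toMer 𝕜 N x) = 0 := by
  by_contra hne
  have hx0 : x ≠ 0 := by
    rintro rfl
    apply hne
    rw [map_zero, tdmOrd_zero]
  set w := fracValuation (L := ModField 𝕜 N) (pointValuation 𝕜 N τ₀)
    (pointValuation_eq_zero 𝕜 N τ₀) with hw
  have hwx : w x ≠ 1 := by
    intro h1
    apply hne
    rw [hw, ← tdmOrdVal_toMer] at h1
    rw [tdmOrd, h1, log_one, neg_zero]
  set P : Place 𝕜 (ModField 𝕜 N) := placeOfValuation w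
    (fracValuation_algebraMap_le_one _ _ (pointValuation_algebraMap_le_one 𝕜 N τ₀))
    ⟨x, hx0, hwx⟩ with hP
  have hjmem : jL 𝕜 N ∈ P.toValuationSubring := by
    rw [hP, mem_placeOfValuation_iff, hw, jL, fracValuation_algebraMap,
      pointValuation_apply 𝕜 N τ₀ (jR_ne_zero 𝕜 N), ← exp_zero, exp_le_exp]
    omega
  obtain ⟨c, hc⟩ := exists_const_ordGE_one (isFunctionFieldGen_jL 𝕜 N) P hjmem
  have hne0 : jL 𝕜 N - algebraMap 𝕜 (ModField 𝕜 N) c ≠ 0 := by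
    intro h0
    apply transcendental_jL_sub 𝕜 N c
    rw [h0]
    exact isAlgebraic_zero
  rcases (ordGE_iff P).mp hc with h0 | h1
  · exact hne0 h0
  have hpos : 0 < P.ord (jL 𝕜 N - algebraMap 𝕜 (ModField 𝕜 N) c) := by omega
  rw [hP, placeOfValuation_ord_pos_iff _ _ _ _ hne0, hw, ← algebraMap_jSubR 𝕜,
    fracValuation_algebraMap, pointValuation_apply 𝕜 N τ₀ (jSubR_ne_zero 𝕜 N c), ← exp_zero,
    exp_lt_exp] at hpos
  apply h c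
  have h3 : ordAt ((jSubR 𝕜 N c : modRing 𝕜 N) : ℍ → ℂ) τ₀ ≠ 0 := by
    intro h0
    rw [h0] at hpos
    simp at hpos
  rw [Ne, ordAt_eq_zero_iff (mdiff_of_mem_modRing 𝕜 N (jSubR 𝕜 N c).2), coe_jSubR 𝕜] at h3
  push Not at h3
  exact (sub_eq_zero.mp h3).symm

variable {𝕜 N}

/-- **points, invariant form**: the order of `y` at `τ` is `m` times the order of a
`Γ₀(N)`-invariant function -/
theorem exists_inv_ord_point {m : ℕ} {y : barField 𝕜 N}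
    (hy : ∀ P : Place 𝕜 (barField 𝕜 N), (m : ℤ) ∣ P.ord y) (τ : ℍ) :
    ∃ x : barField 𝕜 N, x ≠ 0 ∧
      tdmOrd τ (toMer 𝕜 N (mdF 𝕜 N y)) = m * tdmOrd τ (toMer 𝕜 N (mdF 𝕜 N x)) := by
  by_cases hτ : ∃ a : 𝕜, (algebraMap 𝕜 ℂ) a = jFun τ
  · obtain ⟨a, ha⟩ := hτ
    obtain ⟨E, hE, h1⟩ := exists_tdmOrd_eq_mul_barPlace 𝕜 N τ a ha
    set P := barPlace 𝕜 N (pointPlace 𝕜 N τ a ha) with hP
    obtain ⟨k, hk⟩ := hy P
    obtain ⟨π, hπ⟩ := IsDiscreteValuationRing.exists_irreducible P.toValuationSubring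
    have hπ1 : P.ord (π : barField 𝕜 N) = 1 := P.ord_coe_irreducible hπ
    have hπ0 : (π : barField 𝕜 N) ≠ 0 := by
      intro h0
      rw [h0, Place.ord_zero] at hπ1
      exact zero_ne_one hπ1
    refine ⟨(π : barField 𝕜 N) ^ k, zpow_ne_zero _ hπ0, ?_⟩
    show tdmOrd τ (toMer 𝕜 N ((modIso 𝕜 N y : anField 𝕜 N) : ModField 𝕜 N))
      = m * tdmOrd τ (toMer 𝕜 N ((modIso 𝕜 N ((π : barField 𝕜 N) ^ k) : anField 𝕜 N) :
        ModField 𝕜 N))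
    rw [h1, h1, hk, Place.ord_zpow, hπ1]
    ring
  · push Not at hτ
    refine ⟨1, one_ne_zero, ?_⟩
    rw [tdmOrd_toMer_eq_zero_of_forall_ne 𝕜 N τ hτ, tdmOrd_toMer_eq_zero_of_forall_ne 𝕜 N τ hτ,
      mul_zero]

/-- **cusps, invariant form**: the order of the `q_N`-expansion of `y ∘ σ⁻¹` is `m` times that of a
`Γ₀(N)`-invariant function -/
theorem exists_inv_order_cusp {m : ℕ} {y : barField 𝕜 N} (hy0 : y ≠ 0)
    (hy : ∀ P : Place 𝕜 (barField 𝕜 N), (m : ℤ) ∣ P.ord y) (σ : SL(2, ℤ)) :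
    ∃ x : barField 𝕜 N, x ≠ 0 ∧
      (modFieldQL 𝕜 N (modRep 𝕜 N σ (mdF 𝕜 N y))).order
        = m * (modFieldQL 𝕜 N (modRep 𝕜 N σ (mdF 𝕜 N x))).order := by
  set v := modRep 𝕜 N σ⁻¹ • inftyPlace 𝕜 N with hv
  obtain ⟨e, he, h1⟩ := exists_ord_barPlace 𝕜 N v
  set P := barPlace 𝕜 N v with hP
  obtain ⟨k, hk⟩ := hy P
  obtain ⟨π, hπ⟩ := IsDiscreteValuationRing.exists_irreducible P.toValuationSubring
  have hπ1 : P.ord (π : barField 𝕜 N) = 1 := P.ord_coe_irreducible hπ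
  have hπ0 : (π : barField 𝕜 N) ≠ 0 := by
    intro h0
    rw [h0, Place.ord_zero] at hπ1
    exact zero_ne_one hπ1
  have hx0 : (π : barField 𝕜 N) ^ k ≠ 0 := zpow_ne_zero _ hπ0
  refine ⟨(π : barField 𝕜 N) ^ k, hx0, ?_⟩
  have e1 := smul_inftyPlace_ord 𝕜 N σ⁻¹ _ (mdF_ne_zero 𝕜 N hy0)
  have e2 := smul_inftyPlace_ord 𝕜 N σ⁻¹ _ (mdF_ne_zero 𝕜 N hx0)
  rw [inv_inv] at e1 e2
  rw [← e1, ← e2]
  show v.ord ((modIso 𝕜 N y : anField 𝕜 N) : ModField 𝕜 N)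
    = m * v.ord ((modIso 𝕜 N ((π : barField 𝕜 N) ^ k) : anField 𝕜 N) : ModField 𝕜 N)
  rw [h1, h1, hk, Place.ord_zpow, hπ1]
  ring

theorem tdd_denom_zpow_neg_two (z : ℂ) : z ^ (-2 : ℤ) = (1 : ℂ) / z ^ 2 := by
  rw [_root_.zpow_neg, one_div]
  norm_cast

/-- **points, predicate form** -/
theorem pred_point {m : ℕ} {y : barField 𝕜 N}
    (hy : ∀ P : Place 𝕜 (barField 𝕜 N), (m : ℤ) ∣ P.ord y) (τ : ℍ) :
    ∃ n : ℤ, tdmOrd τ (toMer 𝕜 N (mdF 𝕜 N y)) = m * n ∧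
      ∀ γ : SL(2, ℤ), γ ∈ Gamma0 N → γ • τ = τ → (denom γ τ ^ (-2 : ℤ)) ^ n = 1 := by
  obtain ⟨x, hx0, hx⟩ := exists_inv_ord_point hy τ
  refine ⟨_, hx, fun γ hγ hγτ => ?_⟩
  have hg : toMer 𝕜 N (mdF 𝕜 N x) ≠ 0 := toMer_ne_zero 𝕜 N (mdF_ne_zero 𝕜 N hx0)
  have h1 : tdmSL γ (toMer 𝕜 N (mdF 𝕜 N x)) = (1 : ℂ) • toMer 𝕜 N (mdF 𝕜 N x) := by
    have := toMer_modRep 𝕜 N γ⁻¹ (mdF 𝕜 N x)
    rw [inv_inv, mdF_fixed 𝕜 N x (inv_mem hγ)] at this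
    rw [one_smul]
    exact this.symm
  have h2 := tdm_const_of_fixed γ τ hγτ _ hg 1 h1
  rw [tdd_denom_zpow_neg_two]
  exact h2.symm

/-- **cusps, predicate form** -/
theorem pred_cusp {m : ℕ} {y : barField 𝕜 N} (hy0 : y ≠ 0)
    (hy : ∀ P : Place 𝕜 (barField 𝕜 N), (m : ℤ) ∣ P.ord y) (σ : SL(2, ℤ)) :
    ∃ n : ℤ, (modFieldQL 𝕜 N (modRep 𝕜 N σ (mdF 𝕜 N y))).order = m * n ∧
      ∀ h : ℤ, σ⁻¹ * T ^ h * σ ∈ Gamma0 N → (N : ℤ) ∣ h * n := by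
  obtain ⟨x, hx0, hx⟩ := exists_inv_order_cusp hy0 hy σ
  refine ⟨_, hx, fun h hh => ?_⟩
  set Z := modRep 𝕜 N σ (mdF 𝕜 N x) with hZ
  have hZ0 : Z ≠ 0 := (map_ne_zero _).mpr (mdF_ne_zero 𝕜 N hx0)
  have hg : toMer 𝕜 N Z ≠ 0 := toMer_ne_zero 𝕜 N hZ0
  have hfix : modRep 𝕜 N (T ^ h)⁻¹ Z = Z := by
    have h1 : (T ^ h)⁻¹ * σ = σ * (σ⁻¹ * T ^ h * σ)⁻¹ := by group
    rw [hZ, ← AlgEquiv.mul_apply, ← map_mul, h1, map_mul, AlgEquiv.mul_apply,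
      mdF_fixed 𝕜 N x (inv_mem hh)]
  have h1 : tdmSL (T ^ h) (toMer 𝕜 N Z) = (1 : ℂ) • toMer 𝕜 N Z := by
    have := toMer_modRep 𝕜 N (T ^ h)⁻¹ Z
    rw [inv_inv, hfix] at this
    rw [one_smul]
    exact this.symm
  obtain ⟨A, B, C, w₀, hw₀, hAB, hB, hlim⟩ := tdd_cusp_analytic 𝕜 N Z hZ0
  have h2 := tdm_mult_of_cusp 1 one_pos (toMer 𝕜 N Z) h 1 h1 A B (by rw [pow_one]; exact hAB) C hB
    _ w₀ hw₀ hlim
  obtain ⟨k, hk⟩ := Complex.exp_eq_one_iff.mp h2.symm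
  set n := (modFieldQL 𝕜 N Z).order with hn
  have hN : (N : ℂ) ≠ 0 := by exact_mod_cast NeZero.ne N
  have hpi : (2 * (Real.pi : ℂ) * Complex.I) ≠ 0 := Complex.two_pi_I_ne_zero
  have h3 : ((h * n : ℤ) : ℂ) = ((k * N : ℤ) : ℂ) := by
    push_cast at hk ⊢
    field_simp at hk
    linear_combination hk
  have h4 : h * n = k * N := by exact_mod_cast h3
  exact ⟨k, by rw [h4]; ring⟩

end Fermat.Agent.T1.KMod
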