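/-
T1-D (D-a): the exact ramification of `ModField 𝕜 N` over `F_N` at the points and the cusps, in the
form needed for the converse direction of the dictionary.
-/
import Mathlib
import Fermat.Agent.Lib.T1.Dict.PointOrd
import Fermat.Agent.Lib.S24.Count

set_option autoImplicit false
set_option linter.unusedSectionVars false
set_option linter.style.haveILetI false
set_option linter.unusedVariables false

namespace Fermat.Agent.T1

/-- a finite subgroup of a cyclic group all of whose elements are killed by `n` has order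
dividing `n` -/
theorem tdd_card_dvd_of_le_zpowers {G : Type*} [Group G] (S : Subgroup G) (t : G)
    (hS : S ≤ Subgroup.zpowers t) (n : ℤ) (hn : ∀ g ∈ S, g ^ n = 1) :
    (Nat.card S : ℤ) ∣ n := by
  haveI : IsCyclic S := Subgroup.isCyclic_of_le hS
  obtain ⟨s, hs⟩ := (S.isCyclic_iff_exists_zpowers_eq_top).mp inferInstance
  have hsS : s ∈ S := by
    rw [← hs]
    exact Subgroup.mem_zpowers s
  rw [← hs, Nat.card_zpowers]
  exact orderOf_dvd_iff_zpow_eq_one.mpr (hn s hsS)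

namespace KMod

open Fermat.Agent.S24Lib
open UpperHalfPlane Matrix MatrixGroups CongruenceSubgroup WithZero ModularGroup
open AlgebraicCurve Fermat.Agent.Curve Fermat.Agent.Curve.GaloisAux Fermat.Agent.Curve.PlaceAux
attribute [local instance] charZero_k
variable (𝕜 : Type) [Field 𝕜] [IsAlgClosed 𝕜] [Algebra 𝕜 ℂ] [Algebra ℚ 𝕜] (N : ℕ) [NeZero N]

/-- `j` as an element of the fixed field of `Γ₀(N)` -/
noncomputable def jG : gamma0Field 𝕜 N := modIsoG 𝕜 N (jBar 𝕜 N)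

theorem coe_jG : ((jG 𝕜 N : gamma0Field 𝕜 N) : ModField 𝕜 N) = jL 𝕜 N := modIso_jBar 𝕜 N

theorem isFunctionFieldGen_jG : IsFunctionFieldGen 𝕜 (gamma0Field 𝕜 N) (jG 𝕜 N) := by
  have h := isFunctionFieldGen_jBar 𝕜 N
  refine ⟨?_, ?_⟩
  · intro halg
    apply h.transcendental
    have := halg.algHom (modIsoG 𝕜 N).symm.toAlgHom
    simpa [jG] using this
  · apply FiniteDimensional.of_finrank_pos
    rw [jG, ← finrank_adjoin_congr (modIsoG 𝕜 N) (jBar 𝕜 N)]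
    haveI := h.finite
    exact Module.finrank_pos

/-- the order at a place of `ModField 𝕜 N` of an element of `F_N` is `#Stab_{Γ₀(N)}` times the order
at the place below -/
theorem ord_eq_card_mul_barPlace (v : Place 𝕜 (ModField 𝕜 N)) (y : barField 𝕜 N) :
    v.ord ((modIso 𝕜 N y : anField 𝕜 N) : ModField 𝕜 N)
      = (Nat.card {g : ((Gamma0 N).map (modRep 𝕜 N)) //
          (g : ModField 𝕜 N ≃ₐ[𝕜] ModField 𝕜 N) • v = v} : ℤ) * (barPlace 𝕜 N v).ord y := by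
  have h := tdd_ord_eq_card_stabilizer_mul ((Gamma0 N).map (modRep 𝕜 N)) (jG 𝕜 N)
    (isFunctionFieldGen_jG 𝕜 N) (by rw [coe_jG]; exact isFunctionFieldGen_jL 𝕜 N) v
    (modIsoG 𝕜 N y)
  rw [barPlace_ord, ← h]
  rfl

theorem coe_modIso_jBar_sub (a : 𝕜) :
    ((modIso 𝕜 N (jBar 𝕜 N - algebraMap 𝕜 (barField 𝕜 N) a) : anField 𝕜 N) : ModField 𝕜 N)
      = jL 𝕜 N - algebraMap 𝕜 (ModField 𝕜 N) a := by
  rw [map_sub, AlgEquiv.commutes]
  show ((modIso 𝕜 N (jBar 𝕜 N) : anField 𝕜 N) : ModField 𝕜 N) - _ = _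
  rw [modIso_jBar]
  rfl

theorem mem_Gamma0_of_modRep_mem {δ : SL(2, ℤ)}
    (h : modRep 𝕜 N δ ∈ (Gamma0 N).map (modRep 𝕜 N)) : δ ∈ Gamma0 N := by
  obtain ⟨γ', hγ', hγδ⟩ := h
  have hker : γ'⁻¹ * δ ∈ (modRep 𝕜 N).ker := by
    rw [MonoidHom.mem_ker, map_mul, map_inv, hγδ, inv_mul_cancel]
  have h1 := ker_modRep_le_Gamma0 𝕜 N hker
  have h2 : δ = γ' * (γ'⁻¹ * δ) := by group
  rw [h2]
  exact mul_mem hγ' h1

/-- **ramification at the points**: the factor `E` between the analytic order at `τ` and the order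
at the place of `F_N` below `pointPlace τ` divides `ε = ord_τ (j - j(τ))`, and if `E = ε` then the
whole stabiliser of `τ` in `SL(2,ℤ)` lies in `Γ₀(N)`. -/
theorem exists_E_pointPlace (τ : ℍ) (a : 𝕜) (ha : (algebraMap 𝕜 ℂ) a = jFun τ) :
    ∃ E : ℕ, 0 < E ∧
      (∀ y : barField 𝕜 N,
        tdmOrd τ (toMer 𝕜 N ((modIso 𝕜 N y : anField 𝕜 N) : ModField 𝕜 N))
          = (E : ℤ) * (barPlace 𝕜 N (pointPlace 𝕜 N τ a ha)).ord y) ∧
      ((E : ℤ) ∣ tdmOrd τ (toMer 𝕜 N (jL 𝕜 N - algebraMap 𝕜 (ModField 𝕜 N) a))) ∧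
      ((E : ℤ) = tdmOrd τ (toMer 𝕜 N (jL 𝕜 N - algebraMap 𝕜 (ModField 𝕜 N) a)) →
        ∀ δ : SL(2, ℤ), δ • τ = τ → δ ∈ Gamma0 N) := by
  set v := pointPlace 𝕜 N τ a ha with hv
  obtain ⟨M, hM, h1⟩ := exists_tdmOrd_eq_mul_pointPlace 𝕜 N τ a ha
  haveI := finite_range_modRep 𝕜 N
  set eH := Nat.card {g : ((Gamma0 N).map (modRep 𝕜 N)) //
          (g : ModField 𝕜 N ≃ₐ[𝕜] ModField 𝕜 N) • v = v} with heH
  have heHpos : 0 < eH := by
    haveI : Nonempty {g : ((Gamma0 N).map (modRep 𝕜 N)) //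
          (g : ModField 𝕜 N ≃ₐ[𝕜] ModField 𝕜 N) • v = v} := ⟨⟨1, one_smul _ _⟩⟩
    haveI : Finite {g : ((Gamma0 N).map (modRep 𝕜 N)) //
          (g : ModField 𝕜 N ≃ₐ[𝕜] ModField 𝕜 N) • v = v} := Subtype.finite
    exact Nat.card_pos
  have h2 : ∀ y : barField 𝕜 N, v.ord ((modIso 𝕜 N y : anField 𝕜 N) : ModField 𝕜 N)
      = (eH : ℤ) * (barPlace 𝕜 N v).ord y := ord_eq_card_mul_barPlace 𝕜 N v
  have hSG := card_stabilizer_eq_ord (modRep 𝕜 N).range
    (jL 𝕜 N - algebraMap 𝕜 (ModField 𝕜 N) a) (transcendental_jL_sub 𝕜 N a)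
    (fixedField_modRep_sub 𝕜 N a) v (pointPlace_ord_pos 𝕜 N τ a ha)
  -- the order of `j - a` below
  set k := (barPlace 𝕜 N v).ord (jBar 𝕜 N - algebraMap 𝕜 (barField 𝕜 N) a) with hk
  have h3 : v.ord (jL 𝕜 N - algebraMap 𝕜 (ModField 𝕜 N) a) = (eH : ℤ) * k := by
    rw [← coe_modIso_jBar_sub 𝕜 N a]
    exact h2 _
  have h4 : tdmOrd τ (toMer 𝕜 N (jL 𝕜 N - algebraMap 𝕜 (ModField 𝕜 N) a))
      = ((M * eH : ℕ) : ℤ) * k := by
    rw [h1, h3]
    push_cast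
    ring
  refine ⟨M * eH, Nat.mul_pos hM heHpos, fun y => ?_, ?_, ?_⟩
  · rw [h1, h2]
    push_cast
    ring
  · exact ⟨k, h4⟩
  · intro hE δ hδ
    -- `k = 1`, so the two stabilisers have the same cardinality
    have hk1 : k = 1 := by
      have hpos : (0 : ℤ) < ((M * eH : ℕ) : ℤ) := by exact_mod_cast Nat.mul_pos hM heHpos
      have : ((M * eH : ℕ) : ℤ) * 1 = ((M * eH : ℕ) : ℤ) * k := by
        rw [mul_one, ← h4, ← hE]
      exact (mul_left_cancel₀ hpos.ne' this).symm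
    have hcard : Nat.card {g : (modRep 𝕜 N).range //
        (g : ModField 𝕜 N ≃ₐ[𝕜] ModField 𝕜 N) • v = v} = eH := by
      have : (Nat.card {g : (modRep 𝕜 N).range //
        (g : ModField 𝕜 N ≃ₐ[𝕜] ModField 𝕜 N) • v = v} : ℤ) = (eH : ℤ) := by
        rw [hSG, h3, hk1, mul_one]
      exact_mod_cast this
    let ι : {g : ((Gamma0 N).map (modRep 𝕜 N)) //
          (g : ModField 𝕜 N ≃ₐ[𝕜] ModField 𝕜 N) • v = v} →
        {g : (modRep 𝕜 N).range // (g : ModField 𝕜 N ≃ₐ[𝕜] ModField 𝕜 N) • v = v} := fun x =>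
      ⟨⟨x.1.1, Subgroup.map_le_range (modRep 𝕜 N) (Gamma0 N) x.1.2⟩, x.2⟩
    have hinj : Function.Injective ι := by
      intro x y hxy
      apply Subtype.ext
      apply Subtype.ext
      have := congrArg (fun z : {g : (modRep 𝕜 N).range //
        (g : ModField 𝕜 N ≃ₐ[𝕜] ModField 𝕜 N) • v = v} =>
        ((z.1 : (modRep 𝕜 N).range) : ModField 𝕜 N ≃ₐ[𝕜] ModField 𝕜 N)) hxy
      exact this
    haveI : Finite {g : (modRep 𝕜 N).range //
        (g : ModField 𝕜 N ≃ₐ[𝕜] ModField 𝕜 N) • v = v} := Subtype.finite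
    have hbij := Function.Injective.bijective_of_nat_card_le hinj (by rw [hcard])
    obtain ⟨x, hx⟩ := hbij.2 ⟨⟨modRep 𝕜 N δ, δ, rfl⟩, modRep_smul_pointPlace 𝕜 N τ a ha hδ⟩
    have hx' : (x.1.1 : ModField 𝕜 N ≃ₐ[𝕜] ModField 𝕜 N) = modRep 𝕜 N δ := by
      have := congrArg (fun z : {g : (modRep 𝕜 N).range //
        (g : ModField 𝕜 N ≃ₐ[𝕜] ModField 𝕜 N) • v = v} =>
        ((z.1 : (modRep 𝕜 N).range) : ModField 𝕜 N ≃ₐ[𝕜] ModField 𝕜 N)) hx
      exact this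
    apply mem_Gamma0_of_modRep_mem 𝕜 N
    rw [← hx']
    exact x.1.2

/-- **ramification at the cusps**: the factor `e` between the order of the `q_N`-expansion at the
cusp `γ∞` and the order at the place of `F_N` below divides every `n` with
`N ∣ h n` for all `h` such that `γ T^h γ⁻¹ ∈ Γ₀(N)`. -/
theorem exists_e_cuspPlace (γ : SL(2, ℤ)) :
    ∃ e : ℕ, 0 < e ∧
      (∀ y : barField 𝕜 N, y ≠ 0 →
        (modFieldQL 𝕜 N (modRep 𝕜 N γ⁻¹ ((modIso 𝕜 N y : anField 𝕜 N) : ModField 𝕜 N))).order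
          = (e : ℤ) * (barPlace 𝕜 N (modRep 𝕜 N γ • inftyPlace 𝕜 N)).ord y) ∧
      (∀ n : ℤ, (∀ h : ℤ, γ * T ^ h * γ⁻¹ ∈ Gamma0 N → (N : ℤ) ∣ h * n) → (e : ℤ) ∣ n) := by
  set v := modRep 𝕜 N γ • inftyPlace 𝕜 N with hv
  haveI := finite_range_modRep 𝕜 N
  set e := Nat.card {g : ((Gamma0 N).map (modRep 𝕜 N)) //
          (g : ModField 𝕜 N ≃ₐ[𝕜] ModField 𝕜 N) • v = v} with he
  have hepos : 0 < e := by
    haveI : Nonempty {g : ((Gamma0 N).map (modRep 𝕜 N)) //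
          (g : ModField 𝕜 N ≃ₐ[𝕜] ModField 𝕜 N) • v = v} := ⟨⟨1, one_smul _ _⟩⟩
    haveI : Finite {g : ((Gamma0 N).map (modRep 𝕜 N)) //
          (g : ModField 𝕜 N ≃ₐ[𝕜] ModField 𝕜 N) • v = v} := Subtype.finite
    exact Nat.card_pos
  refine ⟨e, hepos, fun y hy => ?_, fun n hn => ?_⟩
  · have hx0 : ((modIso 𝕜 N y : anField 𝕜 N) : ModField 𝕜 N) ≠ 0 := by
      intro h
      apply hy
      have h1 : (modIso 𝕜 N y : anField 𝕜 N) = 0 := Subtype.ext h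
      exact (modIso 𝕜 N).injective (h1.trans (map_zero _).symm)
    rw [← smul_inftyPlace_ord 𝕜 N γ _ hx0]
    exact ord_eq_card_mul_barPlace 𝕜 N v y
  · -- the stabiliser as a subgroup
    set S : Subgroup (ModField 𝕜 N ≃ₐ[𝕜] ModField 𝕜 N) :=
      MulAction.stabilizer (ModField 𝕜 N ≃ₐ[𝕜] ModField 𝕜 N) v ⊓ (Gamma0 N).map (modRep 𝕜 N)
      with hS
    have hcard : e = Nat.card S := by
      rw [he]
      refine Nat.card_congr
        { toFun := fun x => ⟨x.1.1, ⟨x.2, x.1.2⟩⟩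
          invFun := fun s => ⟨⟨s.1, s.2.2⟩, s.2.1⟩
          left_inv := fun x => rfl
          right_inv := fun s => rfl }
    set t := modRep 𝕜 N (γ * T * γ⁻¹) with ht
    have hkey : ∀ g ∈ S, ∃ h : ℤ, g = t ^ h ∧ γ * T ^ h * γ⁻¹ ∈ Gamma0 N := by
      rintro g ⟨hg1, hg2⟩
      obtain ⟨γ', hγ', rfl⟩ := hg2
      have hg1' : modRep 𝕜 N γ' • v = v := hg1
      have hfix : modRep 𝕜 N (γ⁻¹ * γ' * γ) • inftyPlace 𝕜 N = inftyPlace 𝕜 N := by
        rw [map_mul, map_mul, mul_smul, mul_smul, ← hv, hg1', hv, ← mul_smul, ← map_mul,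
          inv_mul_cancel, map_one, one_smul]
      obtain ⟨δ, hδ, hδe⟩ := (inftyPlace_stabilizer 𝕜 N _).mp hfix
      obtain ⟨h, rfl⟩ := Subgroup.mem_zpowers_iff.mp hδ
      have hγ'e : modRep 𝕜 N γ' = modRep 𝕜 N (γ * T ^ h * γ⁻¹) := by
        have h1 : γ' = γ * (γ⁻¹ * γ' * γ) * γ⁻¹ := by group
        conv_lhs => rw [h1]
        rw [map_mul, map_mul, hδe, ← map_mul, ← map_mul]
      refine ⟨h, ?_, ?_⟩
      · rw [hγ'e, ht, ← map_zpow, conj_zpow]
      · apply mem_Gamma0_of_modRep_mem 𝕜 N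
        rw [← hγ'e]
        exact ⟨γ', hγ', rfl⟩
    have hSle : S ≤ Subgroup.zpowers t := by
      intro g hg
      obtain ⟨h, hgh, -⟩ := hkey g hg
      rw [hgh]
      exact Subgroup.zpow_mem_zpowers t h
    have hpow : ∀ g ∈ S, g ^ n = 1 := by
      intro g hg
      obtain ⟨h, hgh, hmem⟩ := hkey g hg
      have hdvd := hn h hmem
      rw [hgh, ← _root_.zpow_mul, ht, ← map_zpow, conj_zpow, map_mul, map_mul, map_zpow]
      have h1 : modRep 𝕜 N T ^ (h * n) = 1 := by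
        rw [← orderOf_dvd_iff_zpow_eq_one, orderOf_modRep_T 𝕜]
        exact hdvd
      rw [h1, mul_one, ← map_mul, mul_inv_cancel, map_one]
    have := tdd_card_dvd_of_le_zpowers S t hSle n hpow
    rwa [← hcard] at this

end KMod

end Fermat.Agent.T1
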