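/-
T1-D (D-a): the dictionary, direction "points and cusps ⇒ places", and the assembled dictionary
`tddDict 𝕜 N : TdmDict 𝕜 N`.
-/
import Mathlib
import Fermat.Agent.Lib.T1.Dict.StabCount
import Fermat.Agent.Lib.T1.Dict.DictFwd
import Fermat.Agent.Lib.T1.Mono.Monodromy

set_option autoImplicit false
set_option linter.unusedSectionVars false
set_option linter.style.haveILetI false
set_option linter.unusedVariables false

namespace Fermat.Agent.T1

open Fermat.Agent.S24Lib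
open UpperHalfPlane Matrix MatrixGroups CongruenceSubgroup WithZero ModularGroup
open AlgebraicCurve Fermat.Agent.Curve Fermat.Agent.Curve.GaloisAux Fermat.Agent.Curve.PlaceAux

/-! ### Multipliers -/

theorem tdd_denom_SL_mul (γ δ : SL(2, ℤ)) (τ : ℍ) :
    denom ((γ * δ : SL(2, ℤ)) : GL (Fin 2) ℝ) τ = denom γ ((δ • τ : ℍ) : ℂ) * denom δ τ := by
  have hcoe : ((γ * δ : SL(2, ℤ)) : GL (Fin 2) ℝ) = (γ : GL (Fin 2) ℝ) * (δ : GL (Fin 2) ℝ) := by
    simp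
  rw [hcoe, denom_cocycle _ _ τ.im_ne_zero]
  have hpos : 0 < ((δ : GL (Fin 2) ℝ)).det.val := tdm_det_SL_pos δ
  have h1 : num (δ : GL (Fin 2) ℝ) τ / denom (δ : GL (Fin 2) ℝ) τ = ((δ • τ : ℍ) : ℂ) := by
    rw [← coe_smul_of_det_pos hpos]
    rfl
  rw [h1]

theorem tdd_denom_one (τ : ℍ) : denom ((1 : SL(2, ℤ)) : GL (Fin 2) ℝ) τ = 1 := by
  simp [denom]

/-- the multiplier of a conjugate -/
theorem tdd_denom_conj (γ δ : SL(2, ℤ)) (τ : ℍ) (hδ : δ • τ = τ) :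
    denom ((γ * δ * γ⁻¹ : SL(2, ℤ)) : GL (Fin 2) ℝ) ((γ • τ : ℍ) : ℂ) = denom δ τ := by
  have h1 : γ⁻¹ • γ • τ = τ := by rw [smul_smul, inv_mul_cancel, one_smul]
  rw [tdd_denom_SL_mul, tdd_denom_SL_mul, h1, hδ]
  have h2 := tdd_denom_SL_mul γ⁻¹ γ τ
  rw [inv_mul_cancel, tdd_denom_one] at h2
  have h3 : denom (γ : GL (Fin 2) ℝ) τ ≠ 0 := denom_ne_zero _ τ
  calc denom γ τ * denom δ τ * denom (γ⁻¹ : SL(2, ℤ)) ((γ • τ : ℍ) : ℂ)
      = denom δ τ * (denom (γ⁻¹ : SL(2, ℤ)) ((γ • τ : ℍ) : ℂ) * denom γ τ) := by ring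
    _ = denom δ τ := by rw [← h2, mul_one]

theorem tdd_smul_conj (γ δ : SL(2, ℤ)) (τ : ℍ) (hδ : δ • τ = τ) :
    (γ * δ * γ⁻¹) • (γ • τ) = γ • τ := by
  rw [mul_smul, mul_smul, smul_smul γ⁻¹, inv_mul_cancel, one_smul, hδ]

/-- the multiplier of `S` at `i` has order 2 -/
theorem tdd_mult_S_I (n : ℤ)
    (h : (denom ((ModularGroup.S : SL(2, ℤ)) : GL (Fin 2) ℝ) UpperHalfPlane.I ^ (-2 : ℤ)) ^ n = 1) :
    (2 : ℤ) ∣ n := by
  rw [ModularGroup.denom_S, UpperHalfPlane.coe_I, KMod.tdd_denom_zpow_neg_two, Complex.I_sq] at h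
  have h1 : ((1 : ℂ) / -1) = -1 := by norm_num
  rw [h1] at h
  rcases Int.even_or_odd n with he | ho
  · exact he.two_dvd
  · rw [ho.neg_one_zpow] at h
    norm_num at h

/-- the multiplier of `S T` at `ρ` has order 3 -/
theorem tdd_mult_ST_rho (n : ℤ)
    (h : (denom ((ModularGroup.S * ModularGroup.T : SL(2, ℤ)) : GL (Fin 2) ℝ) ellRho ^ (-2 : ℤ)) ^ n
      = 1) : (3 : ℤ) ∣ n := by
  rw [denom_ST_ellRho, KMod.tdd_denom_zpow_neg_two] at h
  set w : ℂ := (ellRho : ℂ) with hw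
  have hsq : w ^ 2 + w + 1 = 0 := ellRho_sq
  have h1 : (w + 1) ^ 2 = w := by linear_combination hsq
  have hw3 : w ^ 3 = 1 := by linear_combination (w - 1) * hsq
  have hw1 : w ≠ 1 := by
    intro h1
    rw [h1] at hsq
    norm_num at hsq
  have hw0 : w ≠ 0 := by
    intro h0
    rw [h0] at hw3
    norm_num at hw3
  have hord : orderOf w = 3 := orderOf_eq_prime hw3 hw1
  have hprim : IsPrimitiveRoot w 3 := by
    rw [← hord]
    exact IsPrimitiveRoot.orderOf w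
  rw [h1, one_div, _root_.inv_zpow'] at h
  have := (hprim.zpow_eq_one_iff_dvd (-n)).mp h
  simpa using this

namespace KMod

attribute [local instance] charZero_k
variable (𝕜 : Type) [Field 𝕜] [IsAlgClosed 𝕜] [Algebra 𝕜 ℂ] [Algebra ℚ 𝕜] (N : ℕ) [NeZero N]

/-! ### Classification of the places -/

/-- every place of `F_N` lies below a place of `ModField 𝕜 N` -/
theorem exists_barPlace_eq (P : Place 𝕜 (barField 𝕜 N)) :
    ∃ v : Place 𝕜 (ModField 𝕜 N), barPlace 𝕜 N v = P := by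
  obtain ⟨v, hv⟩ := exists_restrict_fixedField_eq ((Gamma0 N).map (modRep 𝕜 N))
    (placeMap (modIsoG 𝕜 N) P)
  refine ⟨v, ?_⟩
  rw [barPlace, hv, placeMap_symm_placeMap]

/-- every place of `ModField 𝕜 N` is a cusp place or a point place -/
theorem place_cases (v : Place 𝕜 (ModField 𝕜 N)) :
    (∃ γ : SL(2, ℤ), v = modRep 𝕜 N γ • inftyPlace 𝕜 N) ∨
    (∃ (a : 𝕜) (τ₀ : ℍ) (ha : (algebraMap 𝕜 ℂ) a = jFun τ₀) (γ : SL(2, ℤ)),
      (a = 0 → τ₀ = ellRho) ∧ (a = 1728 → τ₀ = UpperHalfPlane.I) ∧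
      v = modRep 𝕜 N γ • pointPlace 𝕜 N τ₀ a ha) := by
  haveI := finite_range_modRep 𝕜 N
  by_cases hneg : v.ord (jL 𝕜 N) < 0
  · left
    have hpos : 0 < v.ord (jL 𝕜 N)⁻¹ := by
      rw [Place.ord_inv]
      omega
    obtain ⟨g, ⟨γ, rfl⟩, hg⟩ := places_transitive (modRep 𝕜 N).range (jL 𝕜 N)⁻¹
      (fixedField_modRep_inv 𝕜 N) (inftyPlace 𝕜 N) v (inftyPlace_ord_pos 𝕜 N) hpos
    exact ⟨γ, hg⟩
  · right
    push Not at hneg
    have hjmem : jL 𝕜 N ∈ v.toValuationSubring := mem_of_ord_nonneg v hneg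
    obtain ⟨a, hc⟩ := exists_const_ordGE_one (isFunctionFieldGen_jL 𝕜 N) v hjmem
    have hne0 : jL 𝕜 N - algebraMap 𝕜 (ModField 𝕜 N) a ≠ 0 := by
      intro h0
      apply transcendental_jL_sub 𝕜 N a
      rw [h0]
      exact isAlgebraic_zero
    have hpos : 0 < v.ord (jL 𝕜 N - algebraMap 𝕜 (ModField 𝕜 N) a) := by
      rcases (ordGE_iff v).mp hc with h0 | h1
      · exact absurd h0 hne0
      · omega
    -- choice of the base point
    have hbase : ∃ τ₀ : ℍ, (algebraMap 𝕜 ℂ) a = jFun τ₀ ∧ (a = 0 → τ₀ = ellRho) ∧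
        (a = 1728 → τ₀ = UpperHalfPlane.I) := by
      by_cases h0 : a = 0
      · refine ⟨ellRho, by rw [h0, map_zero, jFun_ellRho], fun _ => rfl, fun h1 => ?_⟩
        rw [h0] at h1
        norm_num at h1
      by_cases h1 : a = 1728
      · exact ⟨UpperHalfPlane.I, by rw [h1, iotaC_ofNat 𝕜, jFun_I], fun h => absurd h h0,
          fun _ => rfl⟩
      · obtain ⟨τ₀, hτ₀⟩ := exists_jFun_eq 𝕜 a
        exact ⟨τ₀, hτ₀, fun h => absurd h h0, fun h => absurd h h1⟩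
    obtain ⟨τ₀, ha, hb0, hb1⟩ := hbase
    obtain ⟨g, ⟨γ, rfl⟩, hg⟩ := places_transitive (modRep 𝕜 N).range
      (jL 𝕜 N - algebraMap 𝕜 (ModField 𝕜 N) a) (fixedField_modRep_sub 𝕜 N a)
      (pointPlace 𝕜 N τ₀ a ha) v (pointPlace_ord_pos 𝕜 N τ₀ a ha) hpos
    exact ⟨a, τ₀, ha, γ, hb0, hb1, hg⟩

/-! ### The converse direction -/

theorem tdmOrd_jL_sub (τ : ℍ) (a : 𝕜) :
    tdmOrd τ (toMer 𝕜 N (jL 𝕜 N - algebraMap 𝕜 (ModField 𝕜 N) a))
      = ((ordAt (fun z => jFun z - (algebraMap 𝕜 ℂ) a) τ).toNat : ℤ) := by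
  rw [← algebraMap_jSubR 𝕜, tdmOrd_toMer_algebraMap 𝕜 N τ (jSubR_ne_zero 𝕜 N a), coe_jSubR 𝕜]

theorem ordAt_jFun_sub_smul (γ : SL(2, ℤ)) (τ₀ : ℍ) (c : ℂ) :
    ordAt (fun z => jFun z - c) (γ • τ₀) = ordAt (fun z => jFun z - c) τ₀ := by
  rw [← ordAt_comp_smul (fun z => jFun z - c) γ τ₀]
  congr 1
  funext z
  rw [jFun_smul]

variable {𝕜 N}

theorem dvd_of_mul_eq_mul {e : ℕ} (he : 0 < e) {m : ℕ} {k n : ℤ} (h : (e : ℤ) * k = m * n)
    (hen : (e : ℤ) ∣ n) : (m : ℤ) ∣ k := by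
  obtain ⟨n', rfl⟩ := hen
  have he' : (e : ℤ) ≠ 0 := by exact_mod_cast he.ne'
  have : (e : ℤ) * k = (e : ℤ) * (m * n') := by rw [h]; ring
  exact ⟨n', mul_left_cancel₀ he' this⟩

/-- **the dictionary, converse direction** -/
theorem forall_place_of_pred {m : ℕ} {y : barField 𝕜 N} (hy0 : y ≠ 0)
    (hA : ∀ τ : ℍ, ∃ n : ℤ, tdmOrd τ (toMer 𝕜 N (mdF 𝕜 N y)) = m * n ∧
      ∀ γ : SL(2, ℤ), γ ∈ Gamma0 N → γ • τ = τ → (denom γ τ ^ (-2 : ℤ)) ^ n = 1)
    (hB : ∀ σ : SL(2, ℤ), ∃ n : ℤ,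
      (modFieldQL 𝕜 N (modRep 𝕜 N σ (mdF 𝕜 N y))).order = m * n ∧
      ∀ h : ℤ, σ⁻¹ * T ^ h * σ ∈ Gamma0 N → (N : ℤ) ∣ h * n) :
    ∀ P : Place 𝕜 (barField 𝕜 N), (m : ℤ) ∣ P.ord y := by
  intro P
  obtain ⟨v, rfl⟩ := exists_barPlace_eq 𝕜 N P
  rcases place_cases 𝕜 N v with ⟨γ, rfl⟩ | ⟨a, τ₀, ha, γ, hb0, hb1, rfl⟩
  · -- a cusp
    obtain ⟨e, he, h1, h2⟩ := exists_e_cuspPlace 𝕜 N γ
    obtain ⟨n, hn, hcond⟩ := hB γ⁻¹
    have h3 := h1 y hy0
    have h4 : (e : ℤ) ∣ n := by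
      apply h2 n
      intro h hh
      apply hcond h
      rwa [inv_inv]
    refine dvd_of_mul_eq_mul he ?_ h4
    rw [← h3]
    exact hn
  · -- a point
    have ha' : (algebraMap 𝕜 ℂ) a = jFun (γ • τ₀) := by rw [jFun_smul]; exact ha
    rw [smul_pointPlace 𝕜 N γ τ₀ a ha ha']
    set τ := γ • τ₀ with hτ
    obtain ⟨E, hE, h1, h2, h3⟩ := exists_E_pointPlace 𝕜 N τ a ha'
    obtain ⟨n, hn, hcond⟩ := hA τ
    have hε : tdmOrd τ (toMer 𝕜 N (jL 𝕜 N - algebraMap 𝕜 (ModField 𝕜 N) a))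
        = ((ordAt (fun z => jFun z - (algebraMap 𝕜 ℂ) a) τ₀).toNat : ℤ) := by
      rw [tdmOrd_jL_sub, hτ, ordAt_jFun_sub_smul]
    rw [hε] at h2 h3
    have hEn : (E : ℤ) ∣ n := by
      by_cases h0 : a = 0
      · -- `τ₀ = ρ`
        have hτ₀ := hb0 h0
        subst hτ₀
        have hf : (fun z => jFun z - (algebraMap 𝕜 ℂ) a) = jFun := by
          funext z
          rw [h0, map_zero, sub_zero]
        rw [hf, ordAt_jFun_ellRho] at h2 h3
        have hE3 : E ∣ 3 := by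
          have : ((E : ℤ)) ∣ ((3 : ℕ) : ℤ) := by simpa using h2
          exact Int.natCast_dvd_natCast.mp this
        rcases (Nat.dvd_prime Nat.prime_three).mp hE3 with h1E | h3E
        · rw [h1E]; simp
        · have hmem := h3 (by rw [h3E]; simp) (γ * (ModularGroup.S * ModularGroup.T) * γ⁻¹)
            (tdd_smul_conj γ _ ellRho ST_smul_ellRho)
          have h5 := hcond _ hmem (tdd_smul_conj γ _ ellRho ST_smul_ellRho)
          rw [tdd_denom_conj γ _ ellRho ST_smul_ellRho] at h5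
          rw [h3E]
          exact tdd_mult_ST_rho n h5
      by_cases h1728 : a = 1728
      · -- `τ₀ = i`
        have hτ₀ := hb1 h1728
        subst hτ₀
        have hf : (fun z => jFun z - (algebraMap 𝕜 ℂ) a) = fun z => jFun z - 1728 := by
          funext z
          rw [h1728, iotaC_ofNat 𝕜]
        rw [hf, ordAt_jFun_sub_I] at h2 h3
        have hE2 : E ∣ 2 := by
          have : ((E : ℤ)) ∣ ((2 : ℕ) : ℤ) := by simpa using h2
          exact Int.natCast_dvd_natCast.mp this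
        rcases (Nat.dvd_prime Nat.prime_two).mp hE2 with h1E | h2E
        · rw [h1E]; simp
        · have hmem := h3 (by rw [h2E]; simp) (γ * ModularGroup.S * γ⁻¹)
            (tdd_smul_conj γ _ UpperHalfPlane.I S_smul_I)
          have h5 := hcond _ hmem (tdd_smul_conj γ _ UpperHalfPlane.I S_smul_I)
          rw [tdd_denom_conj γ _ UpperHalfPlane.I S_smul_I] at h5
          rw [h2E]
          exact tdd_mult_S_I n h5
      · -- a generic point
        have hj0 : jFun τ₀ ≠ 0 := by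
          rw [← ha, Ne, map_eq_zero]
          exact h0
        have hj1 : jFun τ₀ ≠ 1728 := by
          rw [← ha, ← iotaC_ofNat 𝕜]
          exact fun h => h1728 ((algebraMap 𝕜 ℂ).injective h)
        have h5 := ordAt_jFun_sub_of_ne τ₀ hj0 hj1
        rw [← ha] at h5
        rw [h5] at h2
        have hE1 : E ∣ 1 := by
          have : ((E : ℤ)) ∣ ((1 : ℕ) : ℤ) := by simpa using h2
          exact Int.natCast_dvd_natCast.mp this
        rw [Nat.dvd_one.mp hE1]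
        simp
    refine dvd_of_mul_eq_mul hE ?_ hEn
    rw [← h1 y]
    exact hn

variable (𝕜 N)

/-- **THE ANALYTIC DICTIONARY** for the function field of `X₀(N)` over `𝕜` -/
noncomputable def _root_.Fermat.Agent.T1.tddDict : TdmDict 𝕜 N where
  toMer := toMer 𝕜 N
  toMer_modRep := toMer_modRep 𝕜 N
  dict := fun m y =>
    ⟨fun hy => ⟨fun τ => pred_point (mem_tWsub.mp hy) τ,
        fun σ => pred_cusp y.ne_zero (mem_tWsub.mp hy) σ⟩,
      fun h => mem_tWsub.mpr (forall_place_of_pred y.ne_zero h.1 h.2)⟩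
  cusp := tdd_cusp_analytic 𝕜 N

@[simp]
theorem _root_.Fermat.Agent.T1.tddDict_toMer : (tddDict 𝕜 N).toMer = toMer 𝕜 N := rfl

end KMod

end Fermat.Agent.T1
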