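/-
T1-D (descent, part 4): surjectivity modulo `m`-th powers of the base change
`F_N(ℚ̄) → F_N(ℂ)` on the Kummer groups (Riemann–Roch / `q`-expansion route), and the instance
`tddDescent N : TdmDescent N (tddDict ℚ̄ N) (tddDictC (tddDict ℂ N) _)`.
-/
import Mathlib
import Fermat.Agent.Lib.T1.Dict.DictBwd
import Fermat.Agent.Lib.T1.Dict.AutoC
import Fermat.Agent.Lib.T1.Dict.BaseChange
import Fermat.Agent.Lib.T1.Dict.DescentLin
import Fermat.Agent.Lib.T1.Dict.DescentRR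
import Fermat.Agent.Lib.T1.Dict.DescentAlg
import Fermat.Agent.Lib.T1.Desc.PowDesc
import Fermat.Agent.Lib.T1.Mono.PsiK

set_option autoImplicit false
set_option linter.unusedSectionVars false
set_option linter.style.haveILetI false
set_option linter.unusedVariables false

namespace Fermat.Agent.T1

open Fermat.Agent.S24Lib
open UpperHalfPlane Matrix MatrixGroups CongruenceSubgroup ModularCurve
open AlgebraicCurve Fermat.Agent.Curve
open ModularGroup (T)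

local notation "Kbar" => AlgebraicClosure ℚ

variable (N : ℕ) [NeZero N]

/-- the `q`-order of an element of the Kummer group is divisible by `m` -/
theorem tdd_dvd_order_of_mem {m : ℕ} (hm : m ≠ 0) (z : (↥(KMod.barField ℂ N))ˣ)
    (hz : z ∈ tWsub ℂ N m) :
    ∃ n : ℤ, ((z : ↥(KMod.barField ℂ N)) : LaurentSeries ℂ).order = m * n := by
  obtain ⟨n, hn, hcond⟩ := KMod.pred_cusp (𝕜 := ℂ) (N := N) z.ne_zero (mem_tWsub.mp hz) 1
  have hT : (1 : SL(2, ℤ))⁻¹ * T ^ (1 : ℤ) * 1 ∈ Gamma0 N := by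
    rw [inv_one, one_mul, mul_one, zpow_one, Gamma0_mem]
    simp [ModularGroup.T]
  obtain ⟨n', hn'⟩ := hcond 1 hT
  rw [one_mul] at hn'
  refine ⟨n', ?_⟩
  rw [map_one, AlgEquiv.one_apply, KMod.mdF, KMod.modFieldQL_modIso] at hn
  have hz0 : coeffMap (algebraMap ℂ ℂ) ((z : ↥(KMod.barField ℂ N)) : LaurentSeries ℂ) ≠ 0 := by
    intro h
    apply z.ne_zero
    apply Subtype.ext
    have h1 : coeffMap (algebraMap ℂ ℂ) ((z : ↥(KMod.barField ℂ N)) : LaurentSeries ℂ)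
        = ((z : ↥(KMod.barField ℂ N)) : LaurentSeries ℂ) := coeffMap_id _
    rw [h1] at h
    exact h
  rw [order_qExpand N hz0] at hn
  have h1 : coeffMap (algebraMap ℂ ℂ) ((z : ↥(KMod.barField ℂ N)) : LaurentSeries ℂ)
      = ((z : ↥(KMod.barField ℂ N)) : LaurentSeries ℂ) := coeffMap_id _
  rw [h1, hn'] at hn
  have hN : (N : ℤ) ≠ 0 := by exact_mod_cast NeZero.ne N
  have : (N : ℤ) * ((z : ↥(KMod.barField ℂ N)) : LaurentSeries ℂ).order = N * (m * n') := by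
    rw [hn]; ring
  exact mul_left_cancel₀ hN this

/-! ### the Galois action on units -/

/-- the action of `Aut(ℂ/ℚ)` on the units of the function field -/
noncomputable def tddGalU (σ : ℂ ≃ₐ[ℚ] ℂ) :
    (↥(KMod.barField ℂ N))ˣ →* (↥(KMod.barField ℂ N))ˣ :=
  Units.map ((arithmeticRingAut (modularFunctionFieldFull N) σ :
    ↥(KMod.barField ℂ N) ≃+* ↥(KMod.barField ℂ N)) : ↥(KMod.barField ℂ N) →* ↥(KMod.barField ℂ N))

theorem coe_tddGalU (σ : ℂ ≃ₐ[ℚ] ℂ) (z : (↥(KMod.barField ℂ N))ˣ) :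
    ((tddGalU N σ z : (↥(KMod.barField ℂ N))ˣ) : ↥(KMod.barField ℂ N))
      = KMod.galF ℂ N σ • (z : ↥(KMod.barField ℂ N)) := rfl

theorem tddGalU_mem {m : ℕ} (σ : ℂ ≃ₐ[ℚ] ℂ) {z : (↥(KMod.barField ℂ N))ˣ}
    (hz : z ∈ tWsub ℂ N m) : tddGalU N σ z ∈ tWsub ℂ N m := by
  rw [mem_tWsub] at hz ⊢
  intro P
  rw [coe_tddGalU, KMod.ord_galF_smul]
  exact hz _

/-! ### stability of `V · u` -/

theorem tdd_coeffMap_stable {m : ℕ} (hm : m ≠ 0) (z : ↥(KMod.barField ℂ N)) (hz : z ≠ 0)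
    (u : LaurentSeries ℂ) (hu : u ^ m = (z : LaurentSeries ℂ))
    (V : Submodule ℂ ↥(KMod.barField ℂ N))
    (hV : ∀ (σ : ℂ ≃ₐ[ℚ] ℂ) (t : ↥(KMod.barField ℂ N)), KMod.galF ℂ N σ • z = z * t ^ m →
        ∀ f ∈ V, (KMod.galF ℂ N σ • f) * t ∈ V)
    (σ : ℂ ≃ₐ[ℚ] ℂ) (t : ↥(KMod.barField ℂ N)) (ht : KMod.galF ℂ N σ • z = z * t ^ m)
    (f : ↥(KMod.barField ℂ N)) (hf : f ∈ V) :
    ∃ (a : ℂ) (g : ↥(KMod.barField ℂ N)), g ∈ V ∧
      coeffMap (σ : ℂ →+* ℂ) ((f : LaurentSeries ℂ) * u)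
        = HahnSeries.C a * ((g : LaurentSeries ℂ) * u) := by
  have hz' : (z : LaurentSeries ℂ) ≠ 0 := fun h => hz (Subtype.ext h)
  have hu0 : u ≠ 0 := by
    rintro rfl
    rw [zero_pow hm] at hu
    exact hz' hu.symm
  have hgz0 : KMod.galF ℂ N σ • z ≠ 0 := (smul_ne_zero_iff_ne _).mpr hz
  have ht0 : t ≠ 0 := by
    intro h0
    rw [h0, zero_pow hm, mul_zero] at ht
    exact hgz0 ht
  have ht' : (t : LaurentSeries ℂ) ≠ 0 := fun h => ht0 (Subtype.ext h)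
  have hden : u * (t : LaurentSeries ℂ) ≠ 0 := mul_ne_zero hu0 ht'
  have hpow : (coeffMap (σ : ℂ →+* ℂ) u / (u * (t : LaurentSeries ℂ))) ^ m = 1 := by
    rw [div_pow, ← map_pow, hu, mul_pow, hu]
    have h1 : coeffMap (σ : ℂ →+* ℂ) (z : LaurentSeries ℂ)
        = ((KMod.galF ℂ N σ • z : ↥(KMod.barField ℂ N)) : LaurentSeries ℂ) := rfl
    rw [h1, ht]
    push_cast
    exact div_self (mul_ne_zero hz' (pow_ne_zero m ht'))
  obtain ⟨a, -, ha⟩ := tdx_pow_eq_one (RingHom.id ℂ) m hm _ hpow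
  rw [RingHom.id_apply, div_eq_iff hden] at ha
  refine ⟨a, (KMod.galF ℂ N σ • f) * t, hV σ t ht f hf, ?_⟩
  rw [map_mul, ha]
  have h2 : coeffMap (σ : ℂ →+* ℂ) (f : LaurentSeries ℂ)
      = ((KMod.galF ℂ N σ • f : ↥(KMod.barField ℂ N)) : LaurentSeries ℂ) := rfl
  rw [h2]
  push_cast
  ring

/-! ### the main theorem -/

/-- **surjectivity modulo `m`-th powers** of the base change `F_N(ℚ̄) → F_N(ℂ)` on the Kummer
groups -/
theorem tdd_surj_core {m : ℕ} (hm : m ≠ 0) (hfin : Finite (tWsub ℂ N m ⧸ tdmPowSub ℂ N m))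
    (z : (↥(KMod.barField ℂ N))ˣ) (hz : z ∈ tWsub ℂ N m) :
    ∃ (y : ↥(KMod.barField Kbar N)) (t : ↥(KMod.barField ℂ N)), t ≠ 0 ∧
      KMod.bcHom Kbar N y = z * t ^ m := by
  classical
  set z₀ : ↥(KMod.barField ℂ N) := (z : ↥(KMod.barField ℂ N)) with hz₀
  have hz0 : z₀ ≠ 0 := z.ne_zero
  have hz' : (z₀ : LaurentSeries ℂ) ≠ 0 := fun h => hz0 (Subtype.ext h)
  -- the root
  obtain ⟨n, hn⟩ := tdd_dvd_order_of_mem N hm z hz
  obtain ⟨u, hu⟩ := tdx_exists_pow_eq m hm (z₀ : LaurentSeries ℂ) hz' n hn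
  have hu0 : u ≠ 0 := by
    rintro rfl
    rw [zero_pow hm] at hu
    exact hz' hu.symm
  -- the space
  obtain ⟨V, hVfin, hVbot, hV⟩ := KMod.tdd_exists_stable_space ℂ N m hm z₀ hz0
  let φ : ↥V →ₗ[ℂ] LaurentSeries ℂ :=
    { toFun := fun f => ((f : ↥(KMod.barField ℂ N)) : LaurentSeries ℂ) * u
      map_add' := fun a b => by
        push_cast
        ring
      map_smul' := fun c a => by
        simp only [RingHom.id_apply]
        rw [tdx_smul_eq, Submodule.coe_smul, Algebra.smul_def]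
        push_cast
        rw [tdx_algebraMap_eq, mul_assoc] }
  have hφ : ∀ f : ↥V, φ f = ((f : ↥(KMod.barField ℂ N)) : LaurentSeries ℂ) * u := fun _ => rfl
  set W : Submodule ℂ (LaurentSeries ℂ) := LinearMap.range φ with hW
  have hWfin : FiniteDimensional ℂ W := LinearMap.finiteDimensional_range φ
  have hWbot : W ≠ ⊥ := by
    obtain ⟨f, hf, hf0⟩ := (Submodule.ne_bot_iff _).mp hVbot
    intro hbot
    have h1 : φ ⟨f, hf⟩ ∈ W := ⟨_, rfl⟩
    rw [hbot, Submodule.mem_bot, hφ] at h1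
    rcases mul_eq_zero.mp h1 with h | h
    · exact hf0 (Subtype.ext h)
    · exact hu0 h
  obtain ⟨w, hwW, hw0, hwfix⟩ := tdd_exists_fixed_vector W hWbot
  obtain ⟨⟨f₀, hf₀V⟩, hf₀⟩ := hwW
  rw [hφ] at hf₀
  -- stabilising automorphisms fix `w`
  have hstab : ∀ (σ : ℂ ≃ₐ[ℚ] ℂ) (t : ↥(KMod.barField ℂ N)),
      KMod.galF ℂ N σ • z₀ = z₀ * t ^ m → coeffMap (σ : ℂ →+* ℂ) w = w := by
    intro σ t ht
    apply hwfix
    rintro w' ⟨⟨f, hf⟩, rfl⟩
    obtain ⟨a, g, hg, hag⟩ := tdd_coeffMap_stable N hm z₀ hz0 u hu V hV σ t ht f hf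
    rw [hφ, hag, ← tdx_smul_eq]
    exact W.smul_mem a ⟨⟨g, hg⟩, rfl⟩
  -- the coefficients of `w` lie in `ℚ̄`
  have hcoef : ∀ k : ℤ, w.coeff k ∈ (algebraMap Kbar ℂ).range := by
    intro k
    apply tdd_mem_range_of_finite_orbit (K := Kbar) (Ω := ℂ)
    let φQ : (ℂ ≃ₐ[Kbar] ℂ) → tWsub ℂ N m ⧸ tdmPowSub ℂ N m := fun τ =>
      QuotientGroup.mk ⟨tddGalU N (τ.restrictScalars ℚ) z, tddGalU_mem N _ hz⟩
    have hkey : ∀ τ₁ τ₂ : ℂ ≃ₐ[Kbar] ℂ, φQ τ₁ = φQ τ₂ → τ₁ (w.coeff k) = τ₂ (w.coeff k) := by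
      intro τ₁ τ₂ h
      rw [QuotientGroup.eq, mem_tdmPowSub] at h
      obtain ⟨s, hs⟩ := h
      rw [Subgroup.coe_mul, Subgroup.coe_inv] at hs
      have hs1 : tddGalU N (τ₂.restrictScalars ℚ) z
          = tddGalU N (τ₁.restrictScalars ℚ) z * s ^ m := by
        rw [hs]
        simp
      have hs2 : KMod.galF ℂ N (τ₂.restrictScalars ℚ) • z₀
          = KMod.galF ℂ N (τ₁.restrictScalars ℚ) • z₀ * (s : ↥(KMod.barField ℂ N)) ^ m := by
        have := congrArg (fun x : (↥(KMod.barField ℂ N))ˣ => (x : ↥(KMod.barField ℂ N))) hs1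
        simpa [coe_tddGalU] using this
      set σ : ℂ ≃ₐ[ℚ] ℂ := (τ₁.restrictScalars ℚ)⁻¹ * τ₂.restrictScalars ℚ with hσ
      have h3 : KMod.galF ℂ N σ • z₀
          = z₀ * ((KMod.galF ℂ N (τ₁.restrictScalars ℚ))⁻¹ • (s : ↥(KMod.barField ℂ N))) ^ m := by
        rw [hσ, KMod.galF, map_mul, map_inv, mul_smul, hs2, smul_mul', inv_smul_smul, smul_pow']
      have h4 := hstab σ _ h3
      have h5 : σ (w.coeff k) = w.coeff k := by
        have := congrArg (fun x : LaurentSeries ℂ => x.coeff k) h4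
        simpa using this
      rw [hσ, AlgEquiv.mul_apply, AlgEquiv.aut_inv] at h5
      have h6 := congrArg (τ₁.restrictScalars ℚ) h5
      rw [AlgEquiv.apply_symm_apply] at h6
      exact h6.symm
    let g : (tWsub ℂ N m ⧸ tdmPowSub ℂ N m) → ℂ := fun q =>
      if h : ∃ τ, φQ τ = q then (Classical.choose h) (w.coeff k) else 0
    have hsub : Set.range (fun τ : ℂ ≃ₐ[Kbar] ℂ => τ (w.coeff k)) ⊆ Set.range g := by
      rintro _ ⟨τ, rfl⟩
      refine ⟨φQ τ, ?_⟩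
      have h : ∃ τ', φQ τ' = φQ τ := ⟨τ, rfl⟩
      simp only [g, dif_pos h]
      exact hkey _ _ (Classical.choose_spec h)
    exact (Set.finite_range g).subset hsub
  -- conclusion
  have hwm : ∀ k : ℤ, (w ^ m).coeff k ∈ (algebraMap Kbar ℂ).range :=
    tdd_coeff_pow_mem _ w hcoef m
  obtain ⟨y', hy'⟩ := tdd_mem_range_coeffMap (algebraMap Kbar ℂ) (w ^ m) hwm
  have hwm_eq : w ^ m = ((z₀ * f₀ ^ m : ↥(KMod.barField ℂ N)) : LaurentSeries ℂ) := by
    rw [← hf₀, mul_pow, hu]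
    push_cast
    ring
  have hy'mem : y' ∈ KMod.barField Kbar N := by
    apply tdx_mem_of_coeffMap_mem (modularFunctionFieldFull N) (algebraMap Kbar ℂ)
    rw [hy', hwm_eq]
    exact (z₀ * f₀ ^ m).2
  refine ⟨⟨y', hy'mem⟩, f₀, ?_, ?_⟩
  · rintro rfl
    apply hw0
    rw [← hf₀]
    simp
  · apply Subtype.ext
    rw [KMod.coe_bcHom]
    show coeffMap (algebraMap Kbar ℂ) y' = _
    rw [hy', hwm_eq]

/-! ### the descent data -/

/-- **THE DESCENT DATA** between the function fields of `X₀(N)` over `ℚ̄` and over `ℂ` -/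
noncomputable def tddDescent :
    TdmDescent N (tddDict Kbar N) (tddDictC N (tddDict ℂ N) (tddDict_toMer ℂ N)) where
  bc := KMod.bcHom Kbar N
  fn_bc := fun y => by
    rw [TdmDict.fn_apply, TdmDict.fn_apply]
    exact KMod.toMer_modIso_bcHom Kbar N y
  pow_desc := fun m hm y ⟨z, hz⟩ => by
    have h1 : coeffMap (algebraMap Kbar ℂ) (y : LaurentSeries Kbar)
        = (z : LaurentSeries ℂ) ^ m := by
      rw [← KMod.coe_bcHom, hz]
      push_cast
      rfl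
    obtain ⟨t, ht, hyt⟩ :=
      tdx_pow_desc (modularFunctionFieldFull N) (algebraMap Kbar ℂ) m hm z.2 h1
    refine ⟨⟨t, ht⟩, Subtype.ext ?_⟩
    push_cast
    exact hyt
  surj := fun m hm hfin z hz => tdd_surj_core N hm hfin z hz

end Fermat.Agent.T1
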