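/-
T1-D (descent, part 3): for a nonzero function `z` on `X₀(N)` over `𝕜` there is a nonzero finite
dimensional space `V` of functions (a Riemann–Roch space) which is carried into itself by
`f ↦ σ(f)·t` for every coefficient automorphism `σ` and every `t` with `σ(z) = z·t^m`.
-/
import Mathlib
import Fermat.Agent.Lib.T1.Dict.KMod.Gen
import Fermat.Agent.Lib.Curve.Riemann

set_option autoImplicit false
set_option linter.unusedSectionVars false
set_option linter.style.haveILetI false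
set_option linter.unusedVariables false

namespace Fermat.Agent.T1.KMod

open Fermat.Agent.S24Lib
open UpperHalfPlane Matrix MatrixGroups CongruenceSubgroup ModularCurve
open AlgebraicCurve Fermat.Agent.Curve Fermat.Agent.Curve.RRAux Fermat.Agent.Curve.PlaceAux
open IntermediateField
attribute [local instance] charZero_k

variable (𝕜 : Type) [Field 𝕜] [IsAlgClosed 𝕜] [Algebra 𝕜 ℂ] [Algebra ℚ 𝕜] (N : ℕ) [NeZero N]

/-- the action of `Aut(𝕜/ℚ)` on the function field of `X₀(N)` over `𝕜` -/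
noncomputable abbrev galF (σ : 𝕜 ≃ₐ[ℚ] 𝕜) : SemilinearAut 𝕜 (barField 𝕜 N) :=
  arithmeticGalois (modularFunctionFieldFull N) σ

theorem coe_galF_smul (σ : 𝕜 ≃ₐ[ℚ] 𝕜) (f : barField 𝕜 N) :
    ((galF 𝕜 N σ • f : barField 𝕜 N) : LaurentSeries 𝕜)
      = coeffMap (σ : 𝕜 →+* 𝕜) (f : LaurentSeries 𝕜) := rfl

theorem galF_smul_jBar (σ : 𝕜 ≃ₐ[ℚ] 𝕜) : galF 𝕜 N σ • jBar 𝕜 N = jBar 𝕜 N := by
  apply Subtype.ext
  rw [coe_galF_smul, coe_jBar', coeffMap_coeffEmb]

theorem ord_galF_smul (σ : 𝕜 ≃ₐ[ℚ] 𝕜) (v : Place 𝕜 (barField 𝕜 N)) (f : barField 𝕜 N) :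
    v.ord (galF 𝕜 N σ • f) = ((galF 𝕜 N σ)⁻¹ • v).ord f := by
  have h := SemilinearAut.ord_smul (galF 𝕜 N σ) ((galF 𝕜 N σ)⁻¹ • v) f
  rwa [smul_inv_smul] at h

/-- **the stable Riemann–Roch space** -/
theorem tdd_exists_stable_space (m : ℕ) (hm : m ≠ 0) (z : barField 𝕜 N) (hz : z ≠ 0) :
    ∃ V : Submodule 𝕜 (barField 𝕜 N), FiniteDimensional 𝕜 V ∧ V ≠ ⊥ ∧
      ∀ (σ : 𝕜 ≃ₐ[ℚ] 𝕜) (t : barField 𝕜 N), galF 𝕜 N σ • z = z * t ^ m →
        ∀ f ∈ V, (galF 𝕜 N σ • f) * t ∈ V := by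
  have hx := isFunctionFieldGen_jBar 𝕜 N
  obtain ⟨γ, hγ⟩ := exists_riemann_bound hx
  have hfin := hx.finite
  set n := Module.finrank 𝕜⟮jBar 𝕜 N⟯ (barField 𝕜 N) with hn
  have hnpos : 0 < n := Module.finrank_pos
  set B := poleDiv hx (jBar 𝕜 N) with hB
  have hdegB : Divisor.degree B = n := degree_poleDiv_gen hx
  set D' : Divisor 𝕜 (barField 𝕜 N) :=
    (divOf hx z).mapRange (fun a => a / (m : ℤ)) (Int.zero_ediv _) with hD'
  have hD'v : ∀ v, D' v = v.ord z / (m : ℤ) := fun v => by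
    rw [hD', Finsupp.mapRange_apply, divOf_apply hx hz]
  set l : ℕ := (γ - Divisor.degree D' + 1).toNat with hl
  set E : Divisor 𝕜 (barField 𝕜 N) := D' + (l : ℤ) • B with hE
  have hEv : ∀ v, E v = v.ord z / (m : ℤ) + l * max 0 (-(v.ord (jBar 𝕜 N))) := fun v => by
    rw [hE, Finsupp.add_apply, Finsupp.smul_apply, hD'v, hB, poleDiv_apply, smul_eq_mul]
  refine ⟨riemannRochSpace E, finiteDimensional_riemannRochSpace hx E, ?_, ?_⟩
  · intro hbot
    have h1 := hγ E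
    rw [ell, hbot, finrank_bot] at h1
    have h2 : Divisor.degree E = Divisor.degree D' + l * n := by
      rw [hE, map_add, map_zsmul, hdegB, smul_eq_mul]
    have h3 : γ - Divisor.degree D' + 1 ≤ l := Int.self_le_toNat _
    have h4 : (l : ℤ) ≤ l * n := by
      have : (1 : ℤ) ≤ n := by exact_mod_cast hnpos
      nlinarith [Int.natCast_nonneg l]
    rw [h2] at h1
    push_cast at h1
    omega
  · intro σ t ht f hf
    rw [mem_riemannRochSpace_iff] at hf ⊢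
    intro v
    by_cases hf0 : f = 0
    · left
      rw [hf0, smul_zero, zero_mul]
    right
    have hgz0 : galF 𝕜 N σ • z ≠ 0 := (smul_ne_zero_iff_ne _).mpr hz
    have ht0 : t ≠ 0 := by
      intro h0
      rw [h0, zero_pow hm, mul_zero] at ht
      exact hgz0 ht
    have hgf0 : galF 𝕜 N σ • f ≠ 0 := (smul_ne_zero_iff_ne _).mpr hf0
    rcases hf ((galF 𝕜 N σ)⁻¹ • v) with h | h
    · exact absurd h hf0
    rw [Place.ord_mul v hgf0 ht0, ord_galF_smul]
    have h1 : ((galF 𝕜 N σ)⁻¹ • v).ord (jBar 𝕜 N) = v.ord (jBar 𝕜 N) := by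
      rw [← ord_galF_smul, galF_smul_jBar]
    have h2 : ((galF 𝕜 N σ)⁻¹ • v).ord z = v.ord z + m * v.ord t := by
      rw [← ord_galF_smul, ht, Place.ord_mul v hz (pow_ne_zero m ht0), ← zpow_natCast,
        Place.ord_zpow]
    rw [hEv] at h ⊢
    rw [h1, h2, Int.add_mul_ediv_left _ _ (by exact_mod_cast hm : (m : ℤ) ≠ 0)] at h
    linarith

end Fermat.Agent.T1.KMod
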